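import Mathlib.Data.ZMod.Units
import Mathlib.Tactic.LinearCombination
import Fermat.Agent.RT.GammaH.Level

/-!
# Hecke and diamond operators on `Hom(Γ_H, A)`

`heckeSet M K n` is the set of integral matrices of determinant `n`, upper triangular modulo `M`,
with upper left entry in `K`. For a prime `n` the operator `hecke M K n` is `T_n` if `n ∤ M` and
`U_n` if `n ∣ M`.
-/

set_option autoImplicit false

noncomputable section

namespace Fermat.Agent.RT.GammaH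

open CongruenceSubgroup Matrix.SpecialLinearGroup
open scoped MatrixGroups

variable {M : ℕ} {K : Subgroup (ZMod M)ˣ}

section IntMat

/-- `g` has the integral matrix `A`. -/
def IsIntMat (g : GLR) (A : Matrix (Fin 2) (Fin 2) ℤ) : Prop :=
  (g : Matrix (Fin 2) (Fin 2) ℝ) = A.map (Int.castRingHom ℝ)

theorem isIntMat_mapGL (γ : SL(2, ℤ)) :
    IsIntMat (mapGL ℝ γ) (γ : Matrix (Fin 2) (Fin 2) ℤ) := by
  unfold IsIntMat
  ext i j
  simp

theorem IsIntMat.mul {g h : GLR} {A B : Matrix (Fin 2) (Fin 2) ℤ} (hg : IsIntMat g A)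
    (hh : IsIntMat h B) : IsIntMat (g * h) (A * B) := by
  unfold IsIntMat at *
  rw [Units.val_mul, hg, hh, Matrix.map_mul]

theorem IsIntMat.unique {g : GLR} {A B : Matrix (Fin 2) (Fin 2) ℤ} (h : IsIntMat g A)
    (h' : IsIntMat g B) : A = B := by
  ext i j
  exact Int.cast_injective (α := ℝ) (by simpa using congrFun (congrFun (h.symm.trans h') i) j)

theorem IsIntMat.ext {g h : GLR} {A : Matrix (Fin 2) (Fin 2) ℤ} (hg : IsIntMat g A)
    (hh : IsIntMat h A) : g = h :=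
  Units.ext (hg.trans hh.symm)

theorem mul_inv_mem_img_iff {Γ : Subgroup SL(2, ℤ)} {g h : GLR} {A B : Matrix (Fin 2) (Fin 2) ℤ}
    (hg : IsIntMat g A) (hh : IsIntMat h B) :
    g * h⁻¹ ∈ img Γ ↔ ∃ γ ∈ Γ, A = (γ : Matrix (Fin 2) (Fin 2) ℤ) * B := by
  constructor
  · rintro ⟨γ, hγ, hγg⟩
    refine ⟨γ, hγ, hg.unique ?_⟩
    have : g = mapGL ℝ γ * h := by rw [hγg, inv_mul_cancel_right]
    exact this ▸ (isIntMat_mapGL γ).mul hh
  · rintro ⟨γ, hγ, hAB⟩
    have : g = mapGL ℝ γ * h := hg.ext (hAB ▸ (isIntMat_mapGL γ).mul hh)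
    rw [this, mul_inv_cancel_right]
    exact mapGL_mem_img.2 hγ

end IntMat

/-- The set of the double coset operator of determinant `n`. -/
def heckeSet (M : ℕ) (K : Subgroup (ZMod M)ˣ) (n : ℕ) : Set GLR :=
  {g | ∃ A, IsIntMat g A ∧ A.det = (n : ℤ) ∧ (A 1 0 : ZMod M) = 0 ∧
    ∃ u ∈ K, (A 0 0 : ZMod M) = u}

theorem heckeSet_mul {g h : GLR} {m n : ℕ} (hg : g ∈ heckeSet M K m) (hh : h ∈ heckeSet M K n) :
    g * h ∈ heckeSet M K (m * n) := by
  obtain ⟨A, hA, hAd, hAc, u, hu, hAa⟩ := hg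
  obtain ⟨B, hB, hBd, hBc, v, hv, hBa⟩ := hh
  refine ⟨A * B, hA.mul hB, ?_, ?_, u * v, mul_mem hu hv, ?_⟩
  · rw [Matrix.det_mul, hAd, hBd, Nat.cast_mul]
  · simp [Matrix.mul_apply, Fin.sum_univ_two, hAc, hBc]
  · simp [Matrix.mul_apply, Fin.sum_univ_two, hAa, hBa, hBc]

theorem mapGL_mem_heckeSet_one {γ : SL(2, ℤ)} (h : γ ∈ gammaH M K) :
    (mapGL ℝ γ : GLR) ∈ heckeSet M K 1 :=
  ⟨γ, isIntMat_mapGL γ, by rw [γ.det_coe]; rfl, h.1, h.2⟩

theorem heckeSet_mul_gammaH {n : ℕ} {g : GLR} (hg : g ∈ heckeSet M K n) (γ : gammaH M K) :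
    g * mapGL ℝ (γ : SL(2, ℤ)) ∈ heckeSet M K n := by
  simpa using heckeSet_mul hg (mapGL_mem_heckeSet_one γ.2)

theorem gammaH_mul_heckeSet {n : ℕ} {g : GLR} (hg : g ∈ heckeSet M K n) {γ : SL(2, ℤ)}
    (hγ : γ ∈ gammaH M K) : mapGL ℝ γ * g ∈ heckeSet M K n := by
  simpa using heckeSet_mul (mapGL_mem_heckeSet_one hγ) hg

theorem mem_img_of_mem_heckeSet_one {g : GLR} (hg : g ∈ heckeSet M K 1) :
    g ∈ img (gammaH M K) := by
  obtain ⟨A, hA, hd, hc, hu⟩ := hg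
  exact ⟨⟨A, hd⟩, ⟨hc, hu⟩, (isIntMat_mapGL (⟨A, hd⟩ : SL(2, ℤ))).ext hA⟩

theorem heckeSet_level_mono {M' n : ℕ} (hM : M ∣ M') {K' : Subgroup (ZMod M')ˣ}
    (hK : K' ≤ K.comap (ZMod.unitsMap hM)) : heckeSet M' K' n ⊆ heckeSet M K n := by
  rintro g ⟨A, hA, hd, hc, u, hu, ha⟩
  refine ⟨A, hA, hd, ?_, ZMod.unitsMap hM u, hK hu, ?_⟩
  · rw [← map_intCast (ZMod.castHom hM (ZMod M)), hc, map_zero]
  · rw [← map_intCast (ZMod.castHom hM (ZMod M)), ha]
    rfl

/-- An element of `Γ₀(M)` with prescribed upper left entry mod `M`. -/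
def gamma0Elt (u : (ZMod M)ˣ) : SL(2, ℤ) := (exists_gamma0_upperLeft u).choose

theorem gamma0Elt_mem (u : (ZMod M)ˣ) : gamma0Elt u ∈ Gamma0 M :=
  (exists_gamma0_upperLeft u).choose_spec.1

theorem gamma0Elt_lowerLeft (u : (ZMod M)ˣ) : ((gamma0Elt u) 1 0 : ZMod M) = 0 :=
  Gamma0_mem.1 (gamma0Elt_mem u)

theorem gamma0Elt_upperLeft (u : (ZMod M)ˣ) : ((gamma0Elt u) 0 0 : ZMod M) = u :=
  (exists_gamma0_upperLeft u).choose_spec.2

/-- Indices of the standard representatives. -/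
def HIdx (M n : ℕ) : Type := {o : Option (Fin n) // o = none → ¬ n ∣ M}

instance (M n : ℕ) : Fintype (HIdx M n) := by unfold HIdx; infer_instance

/-- The standard representatives: `(1 j; 0 n)` and, for `n ∤ M`, `σ (n 0; 0 1)`. -/
def hRep (M n : ℕ) [hn : Fact n.Prime] : HIdx M n → GLR
  | ⟨some j, _⟩ => ModularForm.heckeMatrix n j
  | ⟨none, h⟩ => mapGL ℝ (gamma0Elt (ZMod.unitOfCoprime n
      ((Nat.Prime.coprime_iff_not_dvd hn.out).2 (h rfl)))⁻¹) * ModularForm.heckeDiagMatrix n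

variable {n : ℕ} [hn : Fact n.Prime]

theorem isIntMat_heckeMatrix (j : ℕ) :
    IsIntMat (ModularForm.heckeMatrix n j) !![1, (j : ℤ); 0, (n : ℤ)] := by
  unfold IsIntMat
  rw [ModularForm.val_heckeMatrix hn.out.ne_zero]
  ext a b
  fin_cases a <;> fin_cases b <;> simp

theorem isIntMat_heckeDiagMatrix :
    IsIntMat (ModularForm.heckeDiagMatrix n) !![(n : ℤ), 0; 0, 1] := by
  unfold IsIntMat
  rw [ModularForm.val_heckeDiagMatrix hn.out.ne_zero]
  ext a b
  fin_cases a <;> fin_cases b <;> simp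

theorem heckeMatrix_mem_heckeSet (j : ℕ) :
    ModularForm.heckeMatrix n j ∈ heckeSet M K n :=
  ⟨_, isIntMat_heckeMatrix j, by simp [Matrix.det_fin_two_of], by simp, 1, one_mem K, by simp⟩

theorem hRep_mem_heckeSet (i : HIdx M n) : hRep M n i ∈ heckeSet M K n := by
  rcases i with ⟨_ | j, h⟩
  · refine ⟨_, (isIntMat_mapGL _).mul isIntMat_heckeDiagMatrix, ?_, ?_, 1, one_mem K, ?_⟩
    · rw [Matrix.det_mul, Matrix.SpecialLinearGroup.det_coe, Matrix.det_fin_two_of]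
      ring
    · simp [Matrix.mul_apply, Fin.sum_univ_two, gamma0Elt_lowerLeft]
    · simp only [Matrix.mul_apply, Fin.sum_univ_two]
      simp [gamma0Elt_upperLeft]
  · exact heckeMatrix_mem_heckeSet j

/-- Right division by a standard representative. -/
theorem exists_factor {g : GLR} {m : ℕ} (_hmn : ¬ n ∣ m) (hg : g ∈ heckeSet M K (m * n)) :
    ∃ (i : HIdx M n) (x : GLR), x ∈ heckeSet M K m ∧ g = x * hRep M n i := by
  obtain ⟨A, hA, hd, hc, u, hu, ha⟩ := hg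
  have hp : Prime ((n : ℕ) : ℤ) := Nat.prime_iff_prime_int.1 hn.out
  have hn0 : (n : ℤ) ≠ 0 := hp.ne_zero
  rw [Matrix.det_fin_two, Nat.cast_mul] at hd
  by_cases hcol : (n : ℤ) ∣ A 0 0 ∧ (n : ℤ) ∣ A 1 0
  · obtain ⟨⟨a', ha'⟩, ⟨c', hc'⟩⟩ := hcol
    have hnM : ¬ n ∣ M := by
      intro h
      have h0 : ((A 0 0 : ℤ) : ZMod n) = 0 := by
        rw [ha', Int.cast_mul, Int.cast_natCast, ZMod.natCast_self, zero_mul]
      have h1 : IsUnit ((A 0 0 : ℤ) : ZMod n) := by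
        rw [← map_intCast (ZMod.castHom h (ZMod n)), ha]
        exact u.isUnit.map (ZMod.castHom h (ZMod n))
      rw [h0] at h1
      exact not_isUnit_zero h1
    have hcop : Nat.Coprime n M := (Nat.Prime.coprime_iff_not_dvd hn.out).2 hnM
    set σ := gamma0Elt (ZMod.unitOfCoprime n hcop)⁻¹ with hσ
    have hY : (!![a', A 0 1; c', A 1 1] : Matrix (Fin 2) (Fin 2) ℤ).det = (m : ℤ) := by
      rw [Matrix.det_fin_two_of]
      refine mul_left_cancel₀ hn0 ?_
      rw [ha', hc'] at hd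
      linear_combination hd
    have hYA : IsIntMat g ((!![a', A 0 1; c', A 1 1] : Matrix (Fin 2) (Fin 2) ℤ) *
        !![(n : ℤ), 0; 0, 1]) := by
      convert hA using 1
      ext i j
      fin_cases i <;> fin_cases j <;>
        simp [Matrix.mul_apply, Fin.sum_univ_two, ha', hc', mul_comm]
    set X := (!![a', A 0 1; c', A 1 1] : Matrix (Fin 2) (Fin 2) ℤ) * (σ⁻¹ : SL(2, ℤ)) with hX
    set i : HIdx M n := ⟨none, fun _ => hnM⟩
    refine ⟨i, g * (hRep M n i)⁻¹, ?_, (inv_mul_cancel_right g _).symm⟩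
    have hXd : X.det = (m : ℤ) := by
      rw [hX, Matrix.det_mul, hY, Matrix.SpecialLinearGroup.det_coe, mul_one]
    have hgx : IsIntMat (g * (hRep M n i)⁻¹) X := by
      have h1 : IsIntMat g (X * ((σ : Matrix (Fin 2) (Fin 2) ℤ) * !![(n : ℤ), 0; 0, 1])) := by
        rw [hX, mul_assoc, ← mul_assoc ((σ⁻¹ : SL(2, ℤ)) : Matrix (Fin 2) (Fin 2) ℤ),
          ← Matrix.SpecialLinearGroup.coe_mul, inv_mul_cancel, Matrix.SpecialLinearGroup.coe_one,
          one_mul]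
        exact hYA
      have h2 : IsIntMat (hRep M n i) ((σ : Matrix (Fin 2) (Fin 2) ℤ) * !![(n : ℤ), 0; 0, 1]) :=
        (isIntMat_mapGL _).mul isIntMat_heckeDiagMatrix
      unfold IsIntMat at *
      rw [Units.val_mul, h1, Matrix.map_mul, ← h2, mul_assoc, ← Units.val_mul, mul_inv_cancel,
        Units.val_one, mul_one]
    have hσc : ((σ⁻¹ : SL(2, ℤ)) 1 0 : ZMod M) = 0 :=
      Gamma0_mem.1 (inv_mem (gamma0Elt_mem (M := M) _))
    have hc'0 : (c' : ZMod M) = 0 := by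
      rw [ZMod.intCast_zmod_eq_zero_iff_dvd] at hc ⊢
      rw [hc'] at hc
      exact (Nat.isCoprime_iff_coprime.2 hcop.symm).dvd_of_dvd_mul_left hc
    refine ⟨X, hgx, hXd, ?_, u, hu, ?_⟩
    · simp [hX, hc'0,
        Matrix.adjugate_fin_two, hσ, gamma0Elt_lowerLeft]
    · have hd1 : ((σ 0 0 : ℤ) : ZMod M) * σ 1 1 - σ 0 1 * σ 1 0 = 1 := by
        exact_mod_cast congrArg (Int.cast : ℤ → ZMod M) (Gamma0.det_eq σ)
      have hs : ((σ 1 0 : ℤ) : ZMod M) = 0 := gamma0Elt_lowerLeft _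
      have ha0 : ((σ 0 0 : ℤ) : ZMod M) = ↑(ZMod.unitOfCoprime n hcop)⁻¹ := gamma0Elt_upperLeft _
      rw [hs, mul_zero, sub_zero, ha0] at hd1
      have hs11 : ((σ 1 1 : ℤ) : ZMod M) = (n : ZMod M) := by
        have hU := Units.mul_inv (ZMod.unitOfCoprime n hcop)
        rw [ZMod.coe_unitOfCoprime] at hU
        linear_combination (n : ZMod M) * hd1 - ((σ 1 1 : ℤ) : ZMod M) * hU
      rw [← ha, ha']
      simp [hX,
        Matrix.adjugate_fin_two, hs, hs11, mul_comm]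
  · have hdet : ((A 0 0 : ℤ) : ZMod n) * A 1 1 - A 0 1 * A 1 0 = 0 := by
      have := congrArg (Int.cast : ℤ → ZMod n) hd
      push_cast [ZMod.natCast_self, mul_zero] at this
      exact this
    obtain ⟨j, hj0, hj1⟩ : ∃ j : ZMod n, ((A 0 1 : ℤ) : ZMod n) = j * A 0 0 ∧
        ((A 1 1 : ℤ) : ZMod n) = j * A 1 0 := by
      rw [not_and_or] at hcol
      simp only [← ZMod.intCast_zmod_eq_zero_iff_dvd] at hcol
      rcases hcol with h | h
      · refine ⟨(A 0 1 : ZMod n) / A 0 0, (div_mul_cancel₀ _ h).symm, ?_⟩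
        field_simp
        linear_combination hdet
      · refine ⟨(A 1 1 : ZMod n) / A 1 0, ?_, (div_mul_cancel₀ _ h).symm⟩
        field_simp
        linear_combination -hdet
    obtain ⟨b', hb'⟩ : (n : ℤ) ∣ A 0 1 - (j.val : ℤ) * A 0 0 := by
      rw [← ZMod.intCast_zmod_eq_zero_iff_dvd]
      push_cast [ZMod.natCast_zmod_val]
      rw [hj0, sub_self]
    obtain ⟨d', hd'⟩ : (n : ℤ) ∣ A 1 1 - (j.val : ℤ) * A 1 0 := by
      rw [← ZMod.intCast_zmod_eq_zero_iff_dvd]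
      push_cast [ZMod.natCast_zmod_val]
      rw [hj1, sub_self]
    set X := !![A 0 0, b'; A 1 0, d'] with hX
    set i : HIdx M n := ⟨some ⟨j.val, ZMod.val_lt j⟩, fun h => by simp at h⟩
    refine ⟨i, g * (hRep M n i)⁻¹, ⟨X, ?_, ?_, by simpa [hX] using hc, u, hu,
      by simpa [hX] using ha⟩, (inv_mul_cancel_right g _).symm⟩
    · have h2 : IsIntMat (hRep M n i) !![1, (j.val : ℤ); 0, (n : ℤ)] := isIntMat_heckeMatrix _
      have h1 : A = X * !![1, (j.val : ℤ); 0, (n : ℤ)] := by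
        ext a b
        fin_cases a <;> fin_cases b <;> simp [hX, Matrix.mul_apply, Fin.sum_univ_two, -ZMod.natCast_val]
        · linear_combination hb'
        · linear_combination hd'
      unfold IsIntMat at *
      rw [Units.val_mul, hA, h1, Matrix.map_mul, ← h2, mul_assoc, ← Units.val_mul,
        mul_inv_cancel, Units.val_one, mul_one]
    · rw [hX, Matrix.det_fin_two_of]
      refine mul_left_cancel₀ hn0 ?_
      linear_combination hd - A 0 0 * hd' + A 1 0 * hb'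

/-- Left factors of determinant prime to `n` determine the index. -/
theorem factor_unique {x y : GLR} {X Y : Matrix (Fin 2) (Fin 2) ℤ} (hx : IsIntMat x X)
    (hy : IsIntMat y Y) (hXd : ¬ (n : ℤ) ∣ X.det) (hYd : ¬ (n : ℤ) ∣ Y.det) {i j : HIdx M n}
    (h : x * hRep M n i = y * hRep M n j) : i = j := by
  have key : ∀ (Z : Matrix (Fin 2) (Fin 2) ℤ), ¬ (n : ℤ) ∣ Z.det →
      ¬ ((n : ℤ) ∣ Z 0 0 ∧ (n : ℤ) ∣ Z 1 0) := fun Z hZ ⟨h0, h1⟩ => hZ (by
    rw [Matrix.det_fin_two]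
    exact dvd_sub (h0.mul_right _) (h1.mul_left _))
  rcases i with ⟨_ | i, hi⟩ <;> rcases j with ⟨_ | j, hj⟩
  · rfl
  · have e := (hy.mul (isIntMat_heckeMatrix (n := n) j)).unique
      (h ▸ hx.mul ((isIntMat_mapGL _).mul isIntMat_heckeDiagMatrix))
    refine absurd ?_ (key Y hYd)
    have e0 := congrFun (congrFun e 0) 0
    have e1 := congrFun (congrFun e 1) 0
    simp [Matrix.mul_apply, Fin.sum_univ_two] at e0 e1
    exact ⟨e0 ▸ dvd_add ((dvd_mul_left _ _).mul_left _) ((dvd_mul_left _ _).mul_left _),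
      e1 ▸ dvd_add ((dvd_mul_left _ _).mul_left _) ((dvd_mul_left _ _).mul_left _)⟩
  · have e := (hx.mul (isIntMat_heckeMatrix (n := n) i)).unique
      (h.symm ▸ hy.mul ((isIntMat_mapGL _).mul isIntMat_heckeDiagMatrix))
    refine absurd ?_ (key X hXd)
    have e0 := congrFun (congrFun e 0) 0
    have e1 := congrFun (congrFun e 1) 0
    simp [Matrix.mul_apply, Fin.sum_univ_two] at e0 e1
    exact ⟨e0 ▸ dvd_add ((dvd_mul_left _ _).mul_left _) ((dvd_mul_left _ _).mul_left _),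
      e1 ▸ dvd_add ((dvd_mul_left _ _).mul_left _) ((dvd_mul_left _ _).mul_left _)⟩
  · have e := (hx.mul (isIntMat_heckeMatrix (n := n) i)).unique
      (h.symm ▸ hy.mul (isIntMat_heckeMatrix (n := n) j))
    have e00 := congrFun (congrFun e 0) 0
    have e10 := congrFun (congrFun e 1) 0
    have e01 := congrFun (congrFun e 0) 1
    have e11 := congrFun (congrFun e 1) 1
    simp [Matrix.mul_apply, Fin.sum_univ_two] at e00 e10 e01 e11
    refine Subtype.ext (congrArg some ?_)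
    apply Fin.ext
    have hp : Prime ((n : ℕ) : ℤ) := Nat.prime_iff_prime_int.1 hn.out
    have h0 : (n : ℤ) ∣ X 0 0 * ((i : ℕ) - (j : ℕ) : ℤ) :=
      ⟨Y 0 1 - X 0 1, by linear_combination e01 - (j : ℤ) * e00⟩
    have h1 : (n : ℤ) ∣ X 1 0 * ((i : ℕ) - (j : ℕ) : ℤ) :=
      ⟨Y 1 1 - X 1 1, by linear_combination e11 - (j : ℤ) * e10⟩
    have hdvd : (n : ℤ) ∣ ((i : ℕ) - (j : ℕ) : ℤ) := by
      by_contra hne
      exact key X hXd ⟨(hp.dvd_or_dvd h0).resolve_right hne, (hp.dvd_or_dvd h1).resolve_right hne⟩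
    have := Int.eq_zero_of_abs_lt_dvd hdvd (by rw [abs_lt]; omega)
    omega

theorem hRep_injective_mod {Γ : Subgroup SL(2, ℤ)} (i j : HIdx M n)
    (h : hRep M n i * (hRep M n j)⁻¹ ∈ img Γ) : i = j := by
  obtain ⟨γ, -, hγ⟩ := h
  refine factor_unique (x := 1) (X := 1) ?_ (isIntMat_mapGL γ) ?_ ?_ ?_
  · unfold IsIntMat; simp
  · rw [Matrix.det_one]
    exact (Nat.prime_iff_prime_int.1 hn.out).not_dvd_one
  · rw [Matrix.SpecialLinearGroup.det_coe]
    exact (Nat.prime_iff_prime_int.1 hn.out).not_dvd_one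
  · rw [one_mul, hγ, inv_mul_cancel_right]

theorem isReps_hRep : IsReps (gammaH M K) (heckeSet M K n) (hRep M n) where
  mem := hRep_mem_heckeSet
  inj := hRep_injective_mod
  surj g hg := by
    obtain ⟨i, x, hx, rfl⟩ := exists_factor (m := 1) hn.out.not_dvd_one (by rwa [one_mul])
    exact ⟨i, by rw [mul_inv_cancel_right]; exact mem_img_of_mem_heckeSet_one hx⟩

theorem admissible_hRep : Admissible (gammaH M K) (gammaH M K) (hRep M n) :=
  isReps_hRep.admissible fun _ hg γ => heckeSet_mul_gammaH hg γ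

variable {A : Type*} [AddCommGroup A] (R : Type*) [Semiring R] [Module R A]

/-- `T_n` (for `n ∤ M`) resp. `U_n` (for `n ∣ M`) on `Hom(Γ_H, A)`. -/
def hecke (M : ℕ) (K : Subgroup (ZMod M)ˣ) (n : ℕ) [Fact n.Prime] {A : Type*} [AddCommGroup A]
    (R : Type*) [Semiring R] [Module R A] : Module.End R (Additive (gammaH M K) →+ A) :=
  opOf (admissible_hRep (n := n)) R

theorem hecke_eq_opOf {ι : Type*} [Fintype ι] {rep : ι → GLR}
    (h : Admissible (gammaH M K) (gammaH M K) rep)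
    (hr : IsReps (gammaH M K) (heckeSet M K n) rep) : hecke (A := A) M K n R = opOf (A := A) h R :=
  opOf_eq_of_isReps _ h isReps_hRep hr

theorem isReps_hRep_mul {m : ℕ} [hm : Fact m.Prime] (hmn : m ≠ n) :
    IsReps (gammaH M K) (heckeSet M K (m * n))
      (fun p : HIdx M m × HIdx M n => hRep M m p.1 * hRep M n p.2) where
  mem p := heckeSet_mul (hRep_mem_heckeSet p.1) (hRep_mem_heckeSet p.2)
  inj := by
    rintro ⟨i, j⟩ ⟨i', j'⟩ h
    obtain ⟨γ, hγ, hγe⟩ := h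
    have he : hRep M m i * hRep M n j = mapGL ℝ γ * hRep M m i' * hRep M n j' := by
      simp only at hγe
      rw [hγe]
      group
    obtain ⟨X, hX, hXd, -⟩ := hRep_mem_heckeSet (K := K) i
    obtain ⟨Y, hY, hYd, -⟩ := hRep_mem_heckeSet (K := K) i'
    have hnd : ¬ (n : ℤ) ∣ (m : ℤ) := fun h => hmn.symm
      ((Nat.prime_dvd_prime_iff_eq hn.out hm.out).1 (Int.natCast_dvd_natCast.1 h))
    obtain rfl : j = j' := factor_unique hX ((isIntMat_mapGL γ).mul hY) (hXd ▸ hnd)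
      (by rw [Matrix.det_mul, Matrix.SpecialLinearGroup.det_coe, one_mul, hYd]; exact hnd) he
    refine Prod.ext (isReps_hRep.inj i i' ⟨γ, hγ, ?_⟩) rfl
    rw [eq_mul_inv_iff_mul_eq]
    exact (mul_right_cancel he).symm
  surj g hg := by
    obtain ⟨j, x, hx, rfl⟩ := exists_factor (n := n) (m := m) (fun h => hmn.symm
      ((Nat.prime_dvd_prime_iff_eq hn.out hm.out).1 h)) hg
    obtain ⟨i, hi⟩ := isReps_hRep.surj x hx
    exact ⟨(i, j), by simpa [mul_assoc] using hi⟩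

theorem hecke_comm (m : ℕ) [Fact m.Prime]
    (φ : Additive (gammaH M K) →+ A) :
    hecke M K m R (hecke M K n R φ) = hecke M K n R (hecke M K m R φ) := by
  rcases eq_or_ne m n with rfl | h
  · rfl
  unfold hecke
  rw [opOf_comp, opOf_comp]
  exact LinearMap.congr_fun (opOf_eq_of_isReps _ _ (isReps_hRep_mul h.symm)
    (by rw [mul_comm n m]; exact isReps_hRep_mul h)) φ

/-! ### Diamonds -/

theorem gammaH_conj {σ : SL(2, ℤ)} (hσ : σ ∈ Gamma0 M) {γ : SL(2, ℤ)} (hγ : γ ∈ gammaH M K) :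
    σ * γ * σ⁻¹ ∈ gammaH M K := by
  obtain ⟨hc, u, hu, ha⟩ := hγ
  have hs := Gamma0_mem.1 hσ
  have hd : ((σ 0 0 : ℤ) : ZMod M) * σ 1 1 - σ 0 1 * σ 1 0 = 1 := by
    exact_mod_cast congrArg (Int.cast : ℤ → ZMod M) (Gamma0.det_eq σ)
  refine ⟨?_, u, hu, ?_⟩ <;>
    simp [SL2_inv_expl σ, Matrix.mul_apply, Fin.sum_univ_two, hs, hc, ha]
  linear_combination (u : ZMod M) * hd + (u : ZMod M) * (σ 0 1 : ZMod M) * hs

/-- The representative of the diamond operator `⟨u⟩`: lower right entry `u`. -/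
def diaRep (u : (ZMod M)ˣ) : Unit → GLR := fun _ => mapGL ℝ (gamma0Elt u⁻¹)

theorem admissible_diaRep (u : (ZMod M)ˣ) :
    Admissible (gammaH M K) (gammaH M K) (diaRep u) := fun γ =>
  ⟨id, Function.bijective_id, fun _ => by
    simp only [diaRep, ← map_inv, ← map_mul]
    exact mapGL_mem_img.2 (gammaH_conj (gamma0Elt_mem _) γ.2)⟩

/-- The diamond operator, as a linear map. -/
def diamond (M : ℕ) (K : Subgroup (ZMod M)ˣ) {A : Type*} [AddCommGroup A] (R : Type*) [Semiring R]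
    [Module R A] (u : (ZMod M)ˣ) : Module.End R (Additive (gammaH M K) →+ A) :=
  opOf (admissible_diaRep u) R

theorem gamma0_mul_inv_mem {σ τ : SL(2, ℤ)} (hσ : σ ∈ Gamma0 M) (hτ : τ ∈ Gamma0 M)
    {u : (ZMod M)ˣ} (hu : u ∈ K) (h : (σ 0 0 : ZMod M) = u * τ 0 0) :
    σ * τ⁻¹ ∈ gammaH M K := by
  have hs := Gamma0_mem.1 hσ
  have ht := Gamma0_mem.1 hτ
  have hd : ((τ 0 0 : ℤ) : ZMod M) * τ 1 1 - τ 0 1 * τ 1 0 = 1 := by
    exact_mod_cast congrArg (Int.cast : ℤ → ZMod M) (Gamma0.det_eq τ)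
  refine ⟨?_, u, hu, ?_⟩ <;>
    simp [SL2_inv_expl τ, Matrix.mul_apply, Fin.sum_univ_two, hs, ht, h]
  linear_combination (u : ZMod M) * hd + (u : ZMod M) * (τ 0 1 : ZMod M) * ht

theorem gamma0_mul_apply_upperLeft (g h : SL(2, ℤ)) (hh : h ∈ Gamma0 M) :
    ((g * h) 0 0 : ZMod M) = (g 0 0 : ZMod M) * (h 0 0 : ZMod M) := by
  simp [Matrix.mul_apply, Fin.sum_univ_two, Gamma0_mem.1 hh]

/-- The diamond operator only depends on the class of an element of `Γ₀(M)`. -/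
theorem diamond_eq_opOf (u : (ZMod M)ˣ) {σ : SL(2, ℤ)} (hσ : σ ∈ Gamma0 M) {w : (ZMod M)ˣ}
    (hw : w ∈ K) (h : (σ 0 0 : ZMod M) = w * ↑u⁻¹)
    (hadm : Admissible (gammaH M K) (gammaH M K) fun _ : Unit => mapGL ℝ σ) :
    diamond M K R u = opOf (A := A) hadm R :=
  (opOf_congr hadm _ (Equiv.refl Unit) fun _ => by
    simp only [diaRep, ← map_inv, ← map_mul]
    exact mapGL_mem_img.2 (gamma0_mul_inv_mem hσ (gamma0Elt_mem _) hw
      (by rw [h, gamma0Elt_upperLeft]))).symm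

theorem admissible_id : Admissible (gammaH M K) (gammaH M K) fun _ : Unit => (1 : GLR) :=
  fun γ => ⟨id, Function.bijective_id, fun _ => by simpa using mapGL_mem_img.2 γ.2⟩

theorem opOf_id (φ : Additive (gammaH M K) →+ A) :
    opOf (admissible_id (M := M) (K := K)) R φ = φ := by
  refine AddMonoidHom.ext fun x => ?_
  obtain ⟨γ, rfl⟩ := Additive.ofMul.surjective x
  rw [opOf_apply_of_isPerm _ _ _ (σ := id)
    ⟨Function.bijective_id, fun _ => by simpa using mapGL_mem_img.2 γ.2⟩]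
  simp [onImg_mapGL]

theorem diamond_of_mem {u : (ZMod M)ˣ} (hu : u ∈ K) (φ : Additive (gammaH M K) →+ A) :
    diamond M K R u φ = φ := by
  rw [diamond_eq_opOf R u (σ := 1) (one_mem _) hu (by simp)
    (by simpa using admissible_id (M := M) (K := K))]
  simpa using opOf_id R φ

theorem diamond_mul (u v : (ZMod M)ˣ) (φ : Additive (gammaH M K) →+ A) :
    diamond M K R (u * v) φ = diamond M K R u (diamond M K R v φ) := by
  set σ := gamma0Elt v⁻¹ * gamma0Elt u⁻¹ with hσ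
  have hadm : Admissible (gammaH M K) (gammaH M K) fun _ : Unit => mapGL ℝ σ := fun γ =>
    ⟨id, Function.bijective_id, fun _ => by
      simp only [← map_inv, ← map_mul]
      exact mapGL_mem_img.2 (gammaH_conj (mul_mem (gamma0Elt_mem _) (gamma0Elt_mem _)) γ.2)⟩
  rw [diamond_eq_opOf R (u * v) (σ := σ) (mul_mem (gamma0Elt_mem _) (gamma0Elt_mem _))
    (one_mem K) (by rw [hσ, gamma0_mul_apply_upperLeft _ _ (gamma0Elt_mem _),
      gamma0Elt_upperLeft, gamma0Elt_upperLeft]; simp [mul_comm]) hadm,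
    ]
  unfold diamond
  rw [opOf_comp]
  exact LinearMap.congr_fun (opOf_congr hadm _ (Equiv.prodUnique Unit Unit).symm fun _ => by
    simp [diaRep, hσ]) φ

theorem hecke_diamond (u : (ZMod M)ˣ) (φ : Additive (gammaH M K) →+ A) :
    hecke M K n R (diamond M K R u φ) = diamond M K R u (hecke M K n R φ) := by
  set σ := gamma0Elt (M := M) u⁻¹ with hσ
  have hσm : σ ∈ Gamma0 M := gamma0Elt_mem _
  have hconj : ∀ g ∈ heckeSet M K n, ∀ τ ∈ Gamma0 M,
      (mapGL ℝ τ : GLR) * g * (mapGL ℝ τ)⁻¹ ∈ heckeSet M K n := by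
    rintro g ⟨B, hB, hBd, hBc, w, hw, hBa⟩ τ hτ
    have hs := Gamma0_mem.1 hτ
    have hd : ((τ 0 0 : ℤ) : ZMod M) * τ 1 1 - τ 0 1 * τ 1 0 = 1 := by
      exact_mod_cast congrArg (Int.cast : ℤ → ZMod M) (Gamma0.det_eq τ)
    refine ⟨(τ : Matrix (Fin 2) (Fin 2) ℤ) * B * (τ⁻¹ : SL(2, ℤ)),
      ((isIntMat_mapGL τ).mul hB).mul (map_inv (mapGL ℝ) τ ▸ isIntMat_mapGL τ⁻¹), ?_, ?_, w, hw,
      ?_⟩
    · rw [Matrix.det_mul, Matrix.det_mul, Matrix.SpecialLinearGroup.det_coe,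
        Matrix.SpecialLinearGroup.det_coe, hBd, one_mul, mul_one]
    · simp [SL2_inv_expl τ, Matrix.mul_apply, Fin.sum_univ_two, hs, hBc]
    · simp [SL2_inv_expl τ, Matrix.mul_apply, Fin.sum_univ_two, hs, hBc, hBa]
      linear_combination (w : ZMod M) * hd + (w : ZMod M) * (τ 0 1 : ZMod M) * hs
  have hr : IsReps (gammaH M K) (heckeSet M K n)
      fun i => mapGL ℝ σ * hRep M n i * (mapGL ℝ σ)⁻¹ := by
    refine ⟨fun i => hconj _ (hRep_mem_heckeSet i) σ hσm, fun i j h => ?_, fun g hg => ?_⟩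
    · refine (isReps_hRep (M := M) (K := K)).inj i j ?_
      obtain ⟨γ, hγ, he⟩ := h
      refine ⟨σ⁻¹ * γ * σ, by simpa using gammaH_conj (inv_mem hσm) hγ, ?_⟩
      rw [map_mul, map_mul, map_inv, he]
      group
    · have hg' := hconj g hg σ⁻¹ (inv_mem hσm)
      rw [map_inv, inv_inv] at hg'
      obtain ⟨i, γ, hγ, he⟩ := isReps_hRep.surj _ hg'
      refine ⟨i, σ * γ * σ⁻¹, gammaH_conj hσm hγ, ?_⟩
      rw [map_mul, map_mul, map_inv, he]
      group
  obtain ⟨e, he⟩ := hr.exists_equiv (isReps_hRep (M := M) (K := K) (n := n))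
  unfold hecke diamond
  rw [opOf_comp, opOf_comp]
  refine LinearMap.congr_fun (opOf_congr _ _
    (Equiv.trans (Equiv.prodComm Unit (HIdx M n)) (e.prodCongr (Equiv.refl Unit))) ?_) φ
  rintro ⟨⟨⟩, i⟩
  have := he i
  simp only [diaRep, ← hσ] at this ⊢
  simpa [mul_assoc] using this

end Fermat.Agent.RT.GammaH
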