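import Mathlib.NumberTheory.ArithmeticFunction.Misc
import Fermat.Agent.Newforms.LevelRaiseEigen
import Fermat.Agent.Newforms.Semisimple

/-!
# `S₂(Γ₀(N))` is spanned by the raises of newforms
-/

set_option autoImplicit false

noncomputable section

namespace Fermat.Agent.RT.GammaH

open CongruenceSubgroup ModularFormClass Fermat.Agent.Newforms

theorem levelRaise_levelRaise {M₀ M N : ℕ} [NeZero M] [NeZero N] {d e : ℕ} (h₁ : d * M₀ ∣ M)
    (h₂ : e * M ∣ N) (h : e * d * M₀ ∣ N) (f : CuspForm (Gamma0 M₀) 2) :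
    levelRaise e h₂ (levelRaise d h₁ f) = levelRaise (e * d) h f := by
  have he : 0 < e := Nat.pos_of_ne_zero fun he => NeZero.ne N (by simpa [he] using h₂)
  refine eq_of_forall_qCoeff fun n => ?_
  rw [qCoeff_levelRaise, qCoeff_levelRaise, qCoeff_levelRaise]
  by_cases hen : e ∣ n
  · obtain ⟨m, rfl⟩ := hen
    rw [if_pos (dvd_mul_right e m), Nat.mul_div_cancel_left m he]
    simp only [Nat.mul_dvd_mul_iff_left he, Nat.mul_div_mul_left m d he]
  · rw [if_neg hen, if_neg fun h => hen ((dvd_mul_right e d).trans h)]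

/-- The raises of newforms to level `N`. -/
def raiseSet (N : ℕ) [NeZero N] : Set (CuspForm (Gamma0 N) 2) :=
  {f | ∃ (M d : ℕ) (h : d * M ∣ N) (g : CuspForm (Gamma0 M) 2),
    g.IsNewform ∧ f = levelRaise d h g}

theorem levelRaise_mem_span_raiseSet {M N d : ℕ} [NeZero M] [NeZero N] (h : d * M ∣ N)
    {f : CuspForm (Gamma0 M) 2} (hf : f ∈ Submodule.span ℂ (raiseSet M)) :
    levelRaise d h f ∈ Submodule.span ℂ (raiseSet N) := by
  induction hf using Submodule.span_induction with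
  | mem x hx =>
    obtain ⟨M₀, d₀, h₀, g, hg, rfl⟩ := hx
    have h' : d * d₀ * M₀ ∣ N := mul_assoc d d₀ M₀ ▸ (Nat.mul_dvd_mul_left d h₀).trans h
    rw [levelRaise_levelRaise h₀ h h']
    exact Submodule.subset_span ⟨M₀, d * d₀, h', g, hg, rfl⟩
  | zero => rw [map_zero]; exact zero_mem _
  | add x y _ _ hx hy => rw [map_add]; exact add_mem hx hy
  | smul c x _ hx => rw [map_smul]; exact Submodule.smul_mem _ c hx

/-- Raises of newforms span. -/
theorem span_raiseSet_eq_top (N : ℕ) [hN : NeZero N] :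
    Submodule.span ℂ (raiseSet N) = ⊤ := by
  induction N using Nat.strong_induction_on generalizing hN with
  | _ N ih =>
  rw [eq_top_iff, ← span_eigenvectors_eq_top (N := N), Submodule.span_le]
  intro f hf
  -- forms with vanishing coefficients prime to the level come from lower levels
  have hsmall : ∀ u : CuspForm (Gamma0 N) 2, (∀ n : ℕ, n.Coprime N → qCoeff u n = 0) →
      u ∈ Submodule.span ℂ (raiseSet N) := by
    intro u hu
    obtain ⟨g, hg⟩ := exists_eq_sum_levelRaise u hu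
    rw [hg]
    refine sum_mem fun p _ => ?_
    have hp := Nat.prime_of_mem_primeFactors p.2
    have hdvd := Nat.dvd_of_mem_primeFactors p.2
    have : NeZero (N / (p : ℕ)) :=
      ⟨(Nat.div_pos (Nat.le_of_dvd (Nat.pos_of_ne_zero hN.out) hdvd) hp.pos).ne'⟩
    refine levelRaise_mem_span_raiseSet _ ?_
    rw [ih (N / (p : ℕ)) (Nat.div_lt_self (Nat.pos_of_ne_zero hN.out) hp.one_lt)]
    exact Submodule.mem_top
  by_cases h1 : qCoeff f 1 = 0
  · choose lam hlam using hf
    exact hsmall f (qCoeff_eq_zero_of_coprime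
      (lam := fun ℓ => if h : ℓ.Prime ∧ ¬ ℓ ∣ N then lam ℓ h.1 h.2 else 0)
      (fun ℓ hℓ hℓN => by rw [dif_pos ⟨hℓ, hℓN⟩]; exact hlam ℓ hℓ hℓN) h1)
  · have hf0 : f ≠ 0 := fun h => h1 (by rw [h]; exact (coeffLin (N := N) (k := 2) 1).map_zero)
    choose lam hlam using hf
    classical
    set μ : ℕ → ℂ := fun ℓ => if h : ℓ.Prime ∧ ¬ ℓ ∣ N then lam ℓ h.1 h.2 else 0
    have hμ : ∀ ℓ (hℓ : ℓ.Prime), ¬ ℓ ∣ N → hOp N hℓ f = μ ℓ • f := fun ℓ hℓ hℓN => by
      simp only [μ, dif_pos (And.intro hℓ hℓN)]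
      exact hlam ℓ hℓ hℓN
    obtain ⟨F, hF, hFμ⟩ := exists_eigenform_of_eigen hf0 (fun ℓ => ¬ ℓ ∣ N) μ hμ
    obtain ⟨M, g, hMN, hg, hgF⟩ := exists_newform hF
    have : NeZero M := ⟨ne_zero_of_dvd_ne_zero hN.out hMN⟩
    set u := f + (-qCoeff f 1) • levelIncl hMN g
    have hu : u ∈ Submodule.span ℂ (raiseSet N) := by
      refine hsmall u (qCoeff_eq_zero_of_coprime (lam := μ) (fun ℓ hℓ hℓN => ?_) ?_)
      · have hiff : ℓ ∣ N ↔ ℓ ∣ M := ⟨fun h => absurd h hℓN, fun h => h.trans hMN⟩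
        rw [map_add, map_smul, hμ ℓ hℓ hℓN, hOp_levelIncl hℓ hMN hiff,
          hOp_of_isNormalizedEigenform hg.1 hℓ, hgF ℓ hℓ hℓN, hFμ ℓ hℓ hℓN, map_smul, smul_add,
          smul_comm (μ ℓ)]
      · rw [qCoeff_add, qCoeff_smul, qCoeff_levelIncl, hg.1.qCoeff_one]
        ring
    have hinc : levelIncl hMN g ∈ Submodule.span ℂ (raiseSet N) :=
      Submodule.subset_span ⟨M, 1, by rwa [one_mul], g, hg, rfl⟩
    have h := add_mem hu (Submodule.smul_mem _ (qCoeff f 1) hinc)
    simpa [u, add_assoc, ← add_smul] using h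

/-- A product of `r` distinct primes has at most `2 ^ r` divisors. -/
theorem card_divisors_prod_le {Q : Finset ℕ} (hQ : ∀ q ∈ Q, q.Prime) :
    (∏ q ∈ Q, q).divisors.card ≤ 2 ^ Q.card := by
  classical
  induction Q using Finset.induction_on with
  | empty => simp
  | insert q s hq ih =>
    have hqp := hQ q (Finset.mem_insert_self q s)
    have hcop : q.Coprime (∏ x ∈ s, x) := by
      refine Nat.Coprime.prod_right fun x hx => ?_
      exact (Nat.coprime_primes hqp (hQ x (Finset.mem_insert_of_mem hx))).2 fun h => hq (h ▸ hx)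
    rw [Finset.prod_insert hq, Nat.Coprime.card_divisors_mul hcop, Finset.card_insert_of_notMem hq,
      pow_succ', hqp.divisors, Finset.card_pair hqp.ne_one.symm]
    exact Nat.mul_le_mul_left 2 (ih fun x hx => hQ x (Finset.mem_insert_of_mem hx))

end Fermat.Agent.RT.GammaH
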