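import Fermat.Agent.RT.GammaH.Module
import Fermat.Agent.RT.GammaH.Raises

/-!
# The rank bound without new congruent forms

If no congruent newform is new at a prime of `Q`, the localised classes of level `N ∏ Q` are periods
of raises from level `N`.
-/

set_option autoImplicit false

noncomputable section

namespace Fermat.Agent.RT.GammaH

open CongruenceSubgroup MvPolynomial IsLocalRing ModularFormClass ModularCurve.Period
open Fermat.Agent.Periods.Congruence (per perLin per_injective)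
open Fermat.Agent.Newforms (levelRaise levelRaise_injective hOp_levelRaise)
open scoped MatrixGroups ComplexConjugate

section Periods

variable {L : ℕ} [NeZero L]

/-- `toFormH`, linearly. -/
def toFormHLin : CuspForm (Gamma0 L) 2 →ₗ[ℂ] FormH L (⊤ : Subgroup (ZMod L)ˣ) where
  toFun g := toFormH g
  map_add' _ _ := DFunLike.coe_injective rfl
  map_smul' _ _ := DFunLike.coe_injective rfl

/-- The periods of forms on `Γ₀(L)`. -/
def perZero : CuspForm (Gamma0 L) 2 →ₗ[ℂ] HomC (⊤ : Subgroup (ZMod L)ˣ) :=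
  (perLin Gamma_le_gammaH).comp toFormHLin

theorem perZero_apply (f : CuspForm (Gamma0 L) 2) : perZero f = per (toFormH f) := rfl

theorem perZero_injective : Function.Injective (perZero (L := L)) := by
  refine (injective_iff_map_eq_zero _).2 fun f h => DFunLike.coe_injective ?_
  have h1 := congrArg DFunLike.coe (per_injective Gamma_le_gammaH h)
  exact h1

theorem exists_perZero_eq (f : FormH L (⊤ : Subgroup (ZMod L)ˣ)) :
    ∃ f₀ : CuspForm (Gamma0 L) 2, perZero f₀ = per f :=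
  ⟨Newforms.mkCusp f (fun _ hγ => cuspForm_slash_eq_self f (gammaH_top.symm ▸ hγ))
    (isCuspFn_formH f), congrArg per (DFunLike.coe_injective rfl)⟩

theorem conjHom_add {Γ : Subgroup SL(2, ℤ)} (φ φ' : Additive Γ →+ ℂ) :
    conjHom (φ + φ') = conjHom φ + conjHom φ' :=
  AddMonoidHom.ext fun x => by simp only [conjHom_apply, AddMonoidHom.add_apply, map_add]

/-- `conjHom` as a conjugate-linear map. -/
def conjHomLin (Γ : Subgroup SL(2, ℤ)) : (Additive Γ →+ ℂ) →ₛₗ[starRingEnd ℂ] (Additive Γ →+ ℂ) where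
  toFun := conjHom
  map_add' := conjHom_add
  map_smul' := fun c φ => AddMonoidHom.ext fun x => by
    simp only [conjHom_apply, AddMonoidHom.smul_apply, smul_eq_mul, map_mul]

end Periods

variable {O : Type} [CommRing O] [IsDomain O] [IsDiscreteValuationRing O]
  [IsAdicComplete (maximalIdeal O) O] [Finite (ResidueField O)] [CharZero O]
  {p : ℕ} [Fact p.Prime] [CharP (ResidueField O) p] {L : ℕ} [NeZero L]
  {S : Finset ℕ} {abar : ℕ → ResidueField O}

omit [IsAdicComplete (maximalIdeal O) O] in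
/-- Without congruent forms new at a prime of `Q` the rank is bounded in terms of `N` and `#Q`. -/
theorem finrank_localPart_le_of_new (hp : p ≠ 2) (hw : HasSTWeight O L) (hL : Squarefree L)
    (hS : ∀ v : ℕ, v.Prime → v ∣ L → v ∈ S)
    (hEis : ∃ ℓ : ℕ, ℓ.Prime ∧ ℓ ∉ S ∧ abar ℓ ≠ 1 + (ℓ : ResidueField O))
    {N : ℕ} {Q : Finset ℕ} (hLQ : L = N * ∏ q ∈ Q, q) (hQ : ∀ q ∈ Q, q.Prime)
    (hnew : ∀ (M : ℕ) (g : CuspForm (Gamma0 M) 2), g.IsNewform → M ∣ L → (∃ q ∈ Q, q ∣ M) →
      ¬ IsCongruentForm S abar g)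
    {e : OpRing O L S}
    (he : IsLocalizer (resIdeal S abar L) (HomMod O S (⊤ : Subgroup (ZMod L)ˣ) O) e) :
    Module.finrank O (localPart O e (HomMod O S (⊤ : Subgroup (ZMod L)ˣ) O)) ≤
      2 ^ (Q.card + 1) * Module.finrank ℂ (CuspForm (Gamma0 N) 2) := by
  classical
  obtain ⟨σ, hσ⟩ := exists_injective_complex O
  let : Algebra O ℂ := σ.toAlgebra
  obtain ⟨red, hred⟩ := exists_red O hσ
  have hN : NeZero N := ⟨fun h => NeZero.ne L (by rw [hLQ, h, zero_mul])⟩
  have hneg : (-1 : (ZMod L)ˣ) ∈ (⊤ : Subgroup (ZMod L)ˣ) := Subgroup.mem_top _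
  have hfd := finiteDimensional_parabolicHoms (M := L) hneg
  have := IntegralStructure.finiteDimensional_cuspForm N
  set P₀ := ∏ q ∈ Q, q
  -- the raises from level `N`
  let D : Type := {d : ℕ // d ∈ P₀.divisors}
  have hD : ∀ d : D, d.1 * N ∣ L := fun d => by
    rw [hLQ, mul_comm N]
    exact Nat.mul_dvd_mul_right (Nat.dvd_of_mem_divisors d.2) N
  let Φ : (D → CuspForm (Gamma0 N) 2) →ₗ[ℂ] CuspForm (Gamma0 L) 2 :=
    LinearMap.lsum ℂ (fun _ : D => CuspForm (Gamma0 N) 2) ℂ fun d => levelRaise d.1 (hD d)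
  let Pm := perZero.comp Φ
  let bD := Module.finBasis ℂ (D → CuspForm (Gamma0 N) 2)
  let W := Submodule.span ℂ (Set.range fun i => Sum.elim
    (fun i => Pm (bD i)) (fun i => conjHom (Pm (bD i))) i)
  have hW₁ : ∀ x, Pm x ∈ W := fun x => by
    rw [← bD.sum_repr x, map_sum]
    refine sum_mem fun i _ => ?_
    rw [map_smul]
    exact Submodule.smul_mem _ _ (Submodule.subset_span ⟨Sum.inl i, rfl⟩)
  have hW₂ : ∀ x, conjHom (Pm x) ∈ W := fun x => by
    show conjHomLin _ (Pm x) ∈ W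
    rw [← bD.sum_repr x, map_sum, map_sum]
    refine sum_mem fun i _ => ?_
    rw [map_smul, LinearMap.map_smulₛₗ]
    exact Submodule.smul_mem _ _ (Submodule.subset_span ⟨Sum.inr i, rfl⟩)
  -- the localiser sends periods of raises of newforms to those from level `N`
  have hraise : ∀ b ∈ raiseSet L, opC O S (⊤ : Subgroup (ZMod L)ˣ) e (perZero b) ∈ W ∧
      opC O S (⊤ : Subgroup (ZMod L)ˣ) e (conjHom (perZero b)) ∈ W := by
    rintro _ ⟨M, d, hdM, g, hg, rfl⟩
    have hML : M ∣ L := (dvd_mul_left M d).trans hdM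
    have : NeZero M := ⟨ne_zero_of_dvd_ne_zero (NeZero.ne L) hML⟩
    set b := levelRaise d hdM g
    let θ : OpRing O L S →ₐ[O] ℂ := aeval (Sum.elim 1 fun ℓ => qCoeff g ℓ.1)
    have heig : ∀ a, opC O S (⊤ : Subgroup (ZMod L)ˣ) a (perZero b) = θ a • perZero b ∧
        opC O S (⊤ : Subgroup (ZMod L)ˣ) a (conjHom (perZero b)) = θ a • conjHom (perZero b) := by
      intro a
      induction a using MvPolynomial.induction_on with
      | C z =>
        rw [opC_C, Module.algebraMap_end_apply, Module.algebraMap_end_apply, ← algebraMap_eq,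
          AlgHom.commutes]
        exact ⟨rfl, rfl⟩
      | add a a' ha ha' =>
        simp only [map_add, LinearMap.add_apply, ha.1, ha.2, ha'.1, ha'.2, add_smul, and_self]
      | mul_X a i ha =>
        have hi : opC O S (⊤ : Subgroup (ZMod L)ˣ) (X i) (perZero b) = θ (X i) • perZero b ∧
            opC O S (⊤ : Subgroup (ZMod L)ˣ) (X i) (conjHom (perZero b)) =
              θ (X i) • conjHom (perZero b) := by
          rcases i with u | ℓ
          · simp only [opC_inl, diamond_top, θ, aeval_X, Sum.elim_inl, Pi.one_apply, one_smul,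
              and_self]
          · have : Fact ℓ.1.Prime := ⟨ℓ.2.1⟩
            have hℓL : ¬ ℓ.1 ∣ L := fun h => ℓ.2.2 (hS _ ℓ.2.1 h)
            have hℓM : ¬ ℓ.1 ∣ M := fun h => hℓL (h.trans hML)
            have hb : Newforms.hOp L ℓ.2.1 b = qCoeff g ℓ.1 • b := by
              show Newforms.hOp L ℓ.2.1 (levelRaise d hdM g) = _
              rw [hOp_levelRaise ℓ.2.1 hdM (fun h => hℓL (h.trans ((dvd_mul_right d M).trans hdM)))
                (iff_of_false hℓL hℓM), Newforms.hOp_of_isNormalizedEigenform hg.1 ℓ.2.1, map_smul]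
            have h1 : hecke L ⊤ ℓ.1 ℂ (perZero b) = qCoeff g ℓ.1 • perZero b := by
              rw [perZero_apply, ← per_heckeForm, heckeForm_toFormH ℓ.1 hb, per_smul]
            simp only [opC_inr, θ, aeval_X, Sum.elim_inr]
            refine ⟨h1, ?_⟩
            rw [hecke_conjHom, h1]
            show conjHomLin _ _ = _
            rw [LinearMap.map_smulₛₗ, starRingEnd_apply, ← starRingEnd_apply,
              Newforms.conj_qCoeff hg.1 ℓ.2.1 hℓM]
            rfl
        simp only [map_mul, Module.End.mul_apply, hi.1, hi.2, map_smul, ha.1, ha.2, smul_smul,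
          mul_comm (θ (X i)), and_self]
    rw [(heig e).1, (heig e).2]
    by_cases h0 : θ e = 0
    · simp only [h0, zero_smul, zero_mem, and_self]
    have hb0 : perZero b ≠ 0 := fun h => hg.1.ne_zero
      (levelRaise_injective hdM (((perZero_injective (h.trans (map_zero _).symm)).trans
        (map_zero (levelRaise d hdM)).symm)))
    have hθ : ∀ a, localAct O e (HomMod O S (⊤ : Subgroup (ZMod L)ˣ) O) a = 0 → θ a = 0 := by
      intro a ha
      have hkill : ∀ x : HomMod O S (⊤ : Subgroup (ZMod L)ˣ) O, (a * e) • x = 0 := fun x => by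
        rw [mul_smul]
        exact congrArg Subtype.val (LinearMap.congr_fun ha ⟨_, he.smul_self_mem x⟩)
      have h1 := ((heig (a * e)).1.symm.trans (opC_eq_zero_of_forall hw
        (isUnit_two (p := p) hp) hneg hkill (perZero b)))
      rw [smul_eq_zero, map_mul, mul_eq_zero] at h1
      exact (h1.resolve_right hb0).resolve_right h0
    have hcong : IsCongruentForm S abar g := by
      let incl : integralClosure ℤ ℂ →+* integralClosure O ℂ :=
        ((integralClosure ℤ ℂ).val.toRingHom).codRestrict (integralClosure O ℂ).toSubring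
          fun z => (z.2 : IsIntegral ℤ (z : ℂ)).tower_top
      refine ⟨hg.1, red.comp incl, fun ℓ hℓ hℓS z hz => ?_⟩
      show red (incl z) = _
      rw [red_character he θ hθ hred (X (Sum.inr ⟨ℓ, hℓ, hℓS⟩)) (z := incl z)
        (hz.trans (by simp [θ])), opRes_inr]
    have hMN : M ∣ N := by
      refine Nat.Coprime.dvd_of_dvd_mul_right ?_ (hLQ ▸ hML : M ∣ N * P₀)
      exact Nat.Coprime.prod_right fun q hq =>
        ((hQ q hq).coprime_iff_not_dvd.2 fun h => hnew M g hg hML ⟨q, hq, h⟩ hcong).symm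
    obtain ⟨K₀, hK₀⟩ := hMN
    have hdd : d ∣ K₀ * P₀ := by
      refine Nat.dvd_of_mul_dvd_mul_right (Nat.pos_of_ne_zero (NeZero.ne M)) ?_
      calc d * M ∣ L := hdM
        _ = K₀ * P₀ * M := by rw [hLQ, hK₀]; ring
    obtain ⟨d₁, d₂, hd₁, hd₂, rfl⟩ := Nat.dvd_mul.1 hdd
    have hd₁N : d₁ * M ∣ N := by rw [hK₀, mul_comm M]; exact Nat.mul_dvd_mul_right hd₁ M
    let δ : D := ⟨d₂, Nat.mem_divisors.2 ⟨hd₂, fun h => NeZero.ne L (by rw [hLQ, h, mul_zero])⟩⟩
    have hbΦ : b = Φ (Pi.single δ (levelRaise d₁ hd₁N g)) := by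
      have h' : d₂ * d₁ * M ∣ L := mul_comm d₁ d₂ ▸ hdM
      rw [LinearMap.lsum_piSingle, levelRaise_levelRaise hd₁N (hD δ) h']
      show levelRaise (d₁ * d₂) hdM g = _
      congr 1
      · simp only [δ, mul_comm d₁ d₂]
    rw [hbΦ]
    exact ⟨Submodule.smul_mem _ _ (hW₁ _), Submodule.smul_mem _ _ (hW₂ _)⟩
  -- extend to all parabolic classes
  have hper : ∀ f : CuspForm (Gamma0 L) 2, opC O S (⊤ : Subgroup (ZMod L)ˣ) e (perZero f) ∈ W ∧
      opC O S (⊤ : Subgroup (ZMod L)ˣ) e (conjHom (perZero f)) ∈ W := fun f => by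
    have hf : f ∈ Submodule.span ℂ (raiseSet L) := (span_raiseSet_eq_top L) ▸ Submodule.mem_top
    induction hf using Submodule.span_induction with
    | mem x hx => exact hraise x hx
    | zero =>
      show _ ∧ opC O S (⊤ : Subgroup (ZMod L)ˣ) e (conjHomLin _ (perZero 0)) ∈ W
      simp only [map_zero, zero_mem, and_self]
    | add x y _ _ hx hy =>
      simp only [map_add, conjHom_add]
      exact ⟨add_mem hx.1 hy.1, add_mem hx.2 hy.2⟩
    | smul c x _ hx =>
      refine ⟨by simp only [map_smul]; exact Submodule.smul_mem _ c hx.1, ?_⟩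
      show opC O S (⊤ : Subgroup (ZMod L)ˣ) e (conjHomLin _ (perZero (c • x))) ∈ W
      rw [map_smul, LinearMap.map_smulₛₗ, map_smul]
      exact Submodule.smul_mem _ _ hx.2
  have hpar' : ∀ v ∈ parabolicHoms ℂ (gammaH L (⊤ : Subgroup (ZMod L)ˣ)) ℂ,
      opC O S (⊤ : Subgroup (ZMod L)ˣ) e v ∈ W := fun v hv => by
    obtain ⟨f, f', rfl⟩ := exists_per_add_conjHom hneg hv
    obtain ⟨f₀, hf₀⟩ := exists_perZero_eq f
    obtain ⟨f₁, hf₁⟩ := exists_perZero_eq f'
    rw [map_add, ← hf₀, ← hf₁]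
    exact add_mem (hper f₀).1 (hper f₁).2
  -- the localised classes
  obtain ⟨q, hq, hqS, hqE⟩ := hEis
  obtain ⟨P, hP, hpar⟩ := exists_parabolicOp (K := (⊤ : Subgroup (ZMod L)ˣ)) S abar hL hneg hq hqS
    (fun h => hqS (hS q hq h)) hqE
  set bs := Module.Free.chooseBasis O (localPart O e (HomMod O S (⊤ : Subgroup (ZMod L)ˣ) O))
  have hmem : ∀ i, opC O S (⊤ : Subgroup (ZMod L)ˣ) P
      (toHomC (bs i : HomMod O S (⊤ : Subgroup (ZMod L)ˣ) O)) ∈ W := fun i => by
    have h := hpar' _ (hpar ℂ (toHomMod (toHomC (bs i : HomMod O S (⊤ : Subgroup (ZMod L)ˣ) O))))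
    change opC O S (⊤ : Subgroup (ZMod L)ˣ) e (opC O S (⊤ : Subgroup (ZMod L)ˣ) P
      (toHomC (bs i : HomMod O S (⊤ : Subgroup (ZMod L)ˣ) O))) ∈ W at h
    rwa [← Module.End.mul_apply, ← map_mul, mul_comm, map_mul, Module.End.mul_apply,
      ← toHomC_smul e, show e • (bs i : HomMod O S (⊤ : Subgroup (ZMod L)ˣ) O) = bs i from
        (bs i).2] at h
  have : FiniteDimensional ℂ W := FiniteDimensional.span_of_finite ℂ (Set.finite_range _)
  have hli : LinearIndependent ℂ fun i => (⟨_, hmem i⟩ : W) :=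
    LinearIndependent.of_comp W.subtype (linearIndependent_parabolic hσ he hP bs.linearIndependent)
  rw [Module.finrank_eq_card_chooseBasisIndex]
  refine hli.fintype_card_le_finrank.trans ((finrank_range_le_card _).trans ?_)
  rw [Fintype.card_sum, Fintype.card_fin, Module.finrank_pi_fintype, Finset.sum_const, smul_eq_mul,
    Finset.card_univ, Fintype.card_coe, pow_succ', ← two_mul, mul_assoc]
  exact Nat.mul_le_mul_left 2 (Nat.mul_le_mul_right _ (card_divisors_prod_le hQ))

variable {Δ : Type} [CommGroup Δ] {ψ : (ZMod L)ˣ →* Δ}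

/-- **The Hecke module with the rank bound**: if no congruent newform is new at a prime of `Q`,
then the rank at level `N ∏ Q` is at most `2 ^ (#Q + 1) dim S₂(Γ₀(N))`. -/
theorem congruent_rank_bound_of_weights [Finite Δ] (hp : p ≠ 2) (hw : HasSTWeights O L) (hΔ : IsPGroup p Δ)
    (hψ : Function.Surjective ψ) (hL : Squarefree L) (hS : ∀ v : ℕ, v.Prime → v ∣ L → v ∈ S)
    (hEis : ∃ ℓ : ℕ, ℓ.Prime ∧ ℓ ∉ S ∧ abar ℓ ≠ 1 + (ℓ : ResidueField O)) :
    ∃ H : HeckeModule L ψ S abar, (0 < H.d ↔ IsCongruentLevel S abar L) ∧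
      H.d ≤ 2 * Module.finrank ℂ (CuspForm (Gamma0 L) 2) ∧
      ∀ (N : ℕ) (Q : Finset ℕ), L = N * ∏ q ∈ Q, q → (∀ q ∈ Q, q.Prime) →
        (∀ (M : ℕ) (g : CuspForm (Gamma0 M) 2), g.IsNewform → M ∣ L → (∃ q ∈ Q, q ∣ M) →
          ¬ IsCongruentForm S abar g) →
        H.d ≤ 2 ^ (Q.card + 1) * Module.finrank ℂ (CuspForm (Gamma0 N) 2) := by
  obtain ⟨H, e, he, hd, hiff⟩ := exists_heckeModule_localizer hp hw hΔ hψ hL hS hEis
  exact ⟨H, hiff, hd.trans_le (finrank_localPart_le hL hS hEis he),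
    fun N Q hLQ hQ hnew =>
      hd.trans_le (finrank_localPart_le_of_new hp hw.1 hL hS hEis hLQ hQ hnew he)⟩

/-- The Hecke module with the rank bound for `p ≥ 5`. -/
theorem congruent_rank_bound [Finite Δ] (hp : 5 ≤ p) (hΔ : IsPGroup p Δ)
    (hψ : Function.Surjective ψ) (hL : Squarefree L) (hS : ∀ v : ℕ, v.Prime → v ∣ L → v ∈ S)
    (hEis : ∃ ℓ : ℕ, ℓ.Prime ∧ ℓ ∉ S ∧ abar ℓ ≠ 1 + (ℓ : ResidueField O)) :
    ∃ H : HeckeModule L ψ S abar, (0 < H.d ↔ IsCongruentLevel S abar L) ∧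
      H.d ≤ 2 * Module.finrank ℂ (CuspForm (Gamma0 L) 2) ∧
      ∀ (N : ℕ) (Q : Finset ℕ), L = N * ∏ q ∈ Q, q → (∀ q ∈ Q, q.Prime) →
        (∀ (M : ℕ) (g : CuspForm (Gamma0 M) 2), g.IsNewform → M ∣ L → (∃ q ∈ Q, q ∣ M) →
          ¬ IsCongruentForm S abar g) →
        H.d ≤ 2 ^ (Q.card + 1) * Module.finrank ℂ (CuspForm (Gamma0 N) 2) :=
  congruent_rank_bound_of_weights (p := p) (by omega) (hasSTWeights_of_five_le hp L) hΔ hψ hL hS hEis

end Fermat.Agent.RT.GammaH
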