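import Fermat.Agent.DeligneSerre.Deplete
import Fermat.Agent.Newforms.AtkinLehner

/-!
# Functions with nebentypus, Fourier coefficients and sums of translates

`IsNeb M ε f` : `f` is holomorphic, vanishes at all cusps and `f|γ = ε(d) f` on `Γ₀(M)`, `ε` a
character with any modulus. For `m ∣ M` a sum `∑ₓ w x • f|(1 x/m; 0 1)` has level `M * m`.
-/

set_option autoImplicit false

noncomputable section

open CongruenceSubgroup UpperHalfPlane Matrix.SpecialLinearGroup ModularFormClass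
open scoped MatrixGroups ModularForm Manifold

namespace Fermat.Agent.RT.GammaH

open Fermat.Agent.Newforms (ratGL ratTri IsCuspFn)

variable {M L : ℕ}

/-- Cusp functions of weight two with nebentypus `ε` on `Γ₀(M)`. -/
structure IsNeb (M : ℕ) {L : ℕ} (ε : DirichletCharacter ℂ L) (f : ℍ → ℂ) : Prop where
  cusp : IsCuspFn 2 f
  neb : ∀ γ ∈ Gamma0 M, f ∣[(2 : ℤ)] γ = ε ((γ 1 1 : ℤ) : ZMod L) • f

/-- `f = ∑ a n q ^ n`. -/
def HasCoeff (f : ℍ → ℂ) (a : ℕ → ℂ) : Prop :=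
  ∀ τ : ℍ, HasSum (fun n => a n * Function.Periodic.qParam 1 τ ^ n) (f τ)

theorem HasCoeff.ext {f g : ℍ → ℂ} {a : ℕ → ℂ} (hf : HasCoeff f a) (hg : HasCoeff g a) : f = g :=
  funext fun τ => (hf τ).unique (hg τ)

theorem HasCoeff.congr {f : ℍ → ℂ} {a b : ℕ → ℂ} (hf : HasCoeff f a) (h : ∀ n, a n = b n) :
    HasCoeff f b := fun τ => (hf τ).congr_fun fun n => by rw [h]

theorem HasCoeff.add {f g : ℍ → ℂ} {a b : ℕ → ℂ} (hf : HasCoeff f a) (hg : HasCoeff g b) :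
    HasCoeff (f + g) fun n => a n + b n := fun τ =>
  ((hf τ).add (hg τ)).congr_fun fun _ => add_mul _ _ _

theorem HasCoeff.smul {f : ℍ → ℂ} {a : ℕ → ℂ} (hf : HasCoeff f a) (c : ℂ) :
    HasCoeff (c • f) fun n => c * a n := fun τ =>
  ((hf τ).mul_left c).congr_fun fun _ => mul_assoc _ _ _

theorem HasCoeff.sub {f g : ℍ → ℂ} {a b : ℕ → ℂ} (hf : HasCoeff f a) (hg : HasCoeff g b) :
    HasCoeff (f - g) fun n => a n - b n := fun τ =>
  ((hf τ).sub (hg τ)).congr_fun fun _ => sub_mul _ _ _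

theorem hasCoeff_zero : HasCoeff 0 0 := fun τ => by
  simp

namespace IsNeb

variable {ε : DirichletCharacter ℂ L} {f g : ℍ → ℂ}

theorem add (hf : IsNeb M ε f) (hg : IsNeb M ε g) : IsNeb M ε (f + g) :=
  ⟨hf.cusp.add hg.cusp, fun γ hγ => by
    rw [SlashAction.add_slash, hf.neb γ hγ, hg.neb γ hγ, smul_add]⟩

theorem smul (hf : IsNeb M ε f) (c : ℂ) : IsNeb M ε (c • f) :=
  ⟨hf.cusp.smul c, fun γ hγ => by rw [ModularForm.SL_smul_slash, hf.neb γ hγ, smul_comm]⟩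

theorem sub (hf : IsNeb M ε f) (hg : IsNeb M ε g) : IsNeb M ε (f - g) := by
  simpa [sub_eq_add_neg] using hf.add (hg.smul (-1))

theorem of_dvd (hf : IsNeb M ε f) {M' : ℕ} (h : M ∣ M') : IsNeb M' ε f :=
  ⟨hf.cusp, fun γ hγ => hf.neb γ (Newforms.mem_gamma0_iff_dvd.2
    ((Int.natCast_dvd_natCast.2 h).trans (Newforms.mem_gamma0_iff_dvd.1 hγ)))⟩

theorem gamma1 (hf : IsNeb M ε f) (hL : L ∣ M) {γ : SL(2, ℤ)} (hγ : γ ∈ Gamma1 M) :
    f ∣[(2 : ℤ)] γ = f := by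
  rw [hf.neb γ (Gamma1_in_Gamma0 M hγ)]
  have h : ((γ 1 1 : ℤ) : ZMod L) = 1 := by
    rw [← map_intCast (ZMod.castHom hL (ZMod L)), ((Gamma1_mem M γ).1 hγ).2.1, map_one]
  rw [h, map_one, one_smul]

/-- The cusp form on `Γ₁(M)`. -/
def toForm [NeZero M] (hf : IsNeb M ε f) (hL : L ∣ M) : CuspForm (Gamma1 M) 2 :=
  DeligneSerre.mkCuspForm (Gamma1 M) 2 f (fun _ h => hf.gamma1 hL h) hf.cusp.1
    fun γ => by simpa [SlashAction.slash_one] using (hf.cusp.slash_SL γ).2 1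

@[simp] theorem coe_toForm [NeZero M] (hf : IsNeb M ε f) (hL : L ∣ M) : ⇑(hf.toForm hL) = f := rfl

theorem hasCoeff [NeZero M] (hf : IsNeb M ε f) (hL : L ∣ M) : HasCoeff f (qCoeff f) := fun τ => by
  simpa [smul_eq_mul, qCoeff] using ModularForm.hasSum_qExpansion (hf.toForm hL) one_pos
    DeligneSerre.one_mem_strictPeriods_gamma1 τ

theorem qCoeff_eq [NeZero M] (hf : IsNeb M ε f) (hL : L ∣ M) {a : ℕ → ℂ} (ha : HasCoeff f a)
    (n : ℕ) : qCoeff f n = a n :=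
  (ModularFormClass.qExpansion_coeff_unique (f := hf.toForm hL) one_pos
    DeligneSerre.one_mem_strictPeriods_gamma1 (c := a) (fun τ => by simpa [smul_eq_mul] using ha τ)
    n).symm

theorem coeff_unique [NeZero M] (hf : IsNeb M ε f) (hL : L ∣ M) {a b : ℕ → ℂ} (ha : HasCoeff f a)
    (hb : HasCoeff f b) (n : ℕ) : a n = b n := by
  rw [← hf.qCoeff_eq hL ha, hf.qCoeff_eq hL hb]

theorem eq_zero_iff [NeZero M] (hf : IsNeb M ε f) (hL : L ∣ M) {a : ℕ → ℂ} (ha : HasCoeff f a) :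
    f = 0 ↔ ∀ n, a n = 0 := by
  refine ⟨fun h n => hf.coeff_unique hL ha (b := 0) (h ▸ hasCoeff_zero) n, fun h => ?_⟩
  exact (ha.congr (b := 0) h).ext hasCoeff_zero

end IsNeb

/-! ### Translations -/

/-- `τ ↦ τ + x / m`, rationally. -/
def translQ (m : ℕ) (x : ℤ) : GL (Fin 2) ℚ :=
  DeligneSerre.ratShift ((x : ℚ) / m)

/-- `τ ↦ τ + x / m`. -/
def transl (m : ℕ) (x : ℤ) : GL (Fin 2) ℝ := ratGL (translQ m x)

theorem val_transl (m : ℕ) (x : ℤ) :
    (transl m x : Matrix (Fin 2) (Fin 2) ℝ) = !![1, (x : ℝ) / m; 0, 1] := by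
  ext i j
  fin_cases i <;> fin_cases j <;>
    simp [transl, translQ, DeligneSerre.ratShift, Matrix.GeneralLinearGroup.map_apply]

theorem det_transl_pos (m : ℕ) (x : ℤ) : 0 < (transl m x).det.val := by
  simp [val_transl, Matrix.det_fin_two_of]

theorem σ_transl (m : ℕ) (x : ℤ) : UpperHalfPlane.σ (transl m x) = .refl ℝ ℂ := by
  rw [UpperHalfPlane.σ, if_pos (det_transl_pos m x)]

/-- `∑ₓ w x • f|(1 x/m; 0 1)`. -/
def translSum (m : ℕ) [NeZero m] (w : ZMod m → ℂ) (f : ℍ → ℂ) : ℍ → ℂ :=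
  ∑ x : ZMod m, w x • (f ∣[(2 : ℤ)] transl m x.val)

theorem hasCoeff_translSum (m : ℕ) [NeZero m] (w : ZMod m → ℂ) {f : ℍ → ℂ} {a : ℕ → ℂ}
    (hf : HasCoeff f a) :
    HasCoeff (translSum m w f) fun n => (∑ x : ZMod m, w x * ZMod.stdAddChar (x * (n : ZMod m))) * a n := by
  intro τ
  rw [translSum, Finset.sum_apply]
  have hq : ∀ x : ZMod m, Function.Periodic.qParam 1
      (((((((x.val : ℤ) : ℚ) / m : ℚ)) : ℝ) +ᵥ τ : ℍ) : ℂ)
      = ZMod.stdAddChar x * Function.Periodic.qParam 1 τ := by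
    intro x
    rw [ZMod.stdAddChar_apply, ZMod.toCircle_apply, Function.Periodic.qParam,
      Function.Periodic.qParam, ← Complex.exp_add, coe_vadd]
    congr 1
    push_cast
    ring
  simp only [Pi.smul_apply, smul_eq_mul, transl, translQ, DeligneSerre.slash_ratShift_apply]
  refine (hasSum_sum fun x _ => (hf (((((x.val : ℤ) : ℚ) / m : ℚ) : ℝ) +ᵥ τ)).mul_left
    (w x)).congr_fun fun n => ?_
  simp only [hq, mul_pow, ← AddChar.map_nsmul_eq_pow, nsmul_eq_mul]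
  rw [Finset.sum_mul, Finset.sum_mul]
  refine Finset.sum_congr rfl fun x _ => ?_
  rw [mul_comm (n : ZMod m)]
  ring

/-- Translations move past `Γ₀(M m)`. -/
theorem exists_transl_mul {m : ℕ} [NeZero m] (hm : m ∣ M) {γ : SL(2, ℤ)}
    (hγ : γ ∈ Gamma0 (M * m)) (x : ZMod m) :
    ∃ δ ∈ Gamma0 M, ((δ 1 1 : ℤ) : ZMod M) = ((γ 1 1 : ℤ) : ZMod M) ∧
      transl m x.val * mapGL ℝ γ =
        mapGL ℝ δ * transl m (x * ((γ 1 1 : ℤ) : ZMod m) ^ 2).val := by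
  obtain ⟨c, hc⟩ := Newforms.mem_gamma0_iff_dvd.1 hγ
  obtain ⟨M₀, hM₀⟩ := hm
  push_cast at hc
  set a := γ 0 0 with ha
  set b := γ 0 1 with hb
  set d := γ 1 1 with hd
  have hdet : a * d - b * γ 1 0 = 1 := by
    rw [ha, hb, hd, ← Matrix.det_fin_two]; exact γ.det_coe
  rw [hc] at hdet
  set u : ℤ := (x.val : ℤ) with hu
  set u' : ℤ := ((x * (d : ZMod m) ^ 2).val : ℤ) with hu'
  have had : ((a : ℤ) : ZMod m) * (d : ZMod m) = 1 := by
    have := congrArg (Int.cast : ℤ → ZMod m) hdet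
    push_cast at this
    simp only [ZMod.natCast_self, mul_zero, zero_mul, sub_zero] at this
    exact this
  obtain ⟨t, ht⟩ : (m : ℤ) ∣ u * d - u' * a := by
    rw [← ZMod.intCast_zmod_eq_zero_iff_dvd]
    simp only [hu, hu', Int.cast_sub, Int.cast_mul, Int.cast_natCast, ZMod.natCast_zmod_val]
    linear_combination -(x * (d : ZMod m)) * had
  have hdet' : (!![a + u * (M : ℤ) * c, b + t - u * u' * (M₀ : ℤ) * c;
      (M : ℤ) * m * c, d - u' * (M : ℤ) * c] : Matrix (Fin 2) (Fin 2) ℤ).det = 1 := by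
    have hM : (M : ℤ) = m * M₀ := by exact_mod_cast hM₀
    rw [Matrix.det_fin_two_of]
    linear_combination hdet + (M : ℤ) * c * ht - (u * u' * (M : ℤ) * c * c) * hM
  let δ : SL(2, ℤ) := ⟨_, hdet'⟩
  have hδ : (δ : Matrix (Fin 2) (Fin 2) ℤ) = !![a + u * (M : ℤ) * c,
      b + t - u * u' * (M₀ : ℤ) * c; (M : ℤ) * m * c, d - u' * (M : ℤ) * c] := rfl
  refine ⟨δ, ?_, ?_, ?_⟩
  · rw [Newforms.mem_gamma0_iff_dvd, hδ]
    simp [mul_assoc]
  · rw [hδ]; simp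
  · refine Units.ext ?_
    rw [Units.val_mul, Units.val_mul, val_transl, val_transl]
    have hm0 : (m : ℝ) ≠ 0 := Nat.cast_ne_zero.2 (NeZero.ne m)
    have hMR : (M : ℝ) = (m : ℝ) * M₀ := by exact_mod_cast hM₀
    have htR : (u : ℝ) * d - u' * a = m * t := by exact_mod_cast ht
    have hcR : ((γ 1 0 : ℤ) : ℝ) = (M : ℝ) * m * c := by exact_mod_cast hc
    ext i j
    fin_cases i <;> fin_cases j <;>
      simp [Matrix.mul_apply, Fin.sum_univ_two, hδ, ← ha, ← hb, ← hd, hcR] <;> field_simp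
    · linear_combination htR - (u : ℝ) * (u' : ℝ) * (c : ℝ) * hMR
    · ring

/-- Sums of translates with equivariant weights have nebentypus. -/
theorem IsNeb.translSum [NeZero M] {m : ℕ} [NeZero m] (hm : m ∣ M) (hL : L ∣ M)
    {ε θ : DirichletCharacter ℂ L} {f : ℍ → ℂ} (hf : IsNeb M ε f) {w : ZMod m → ℂ}
    (hw : ∀ d : ℤ, IsUnit (d : ZMod M) → ∀ x : ZMod m,
      w x = θ (d : ZMod L) * w (x * (d : ZMod m) ^ 2)) :
    IsNeb (M * m) (ε * θ) (translSum m w f) := by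
  refine ⟨?_, fun γ hγ => ?_⟩
  · refine Finset.sum_induction _ (IsCuspFn 2) (fun _ _ => IsCuspFn.add) IsCuspFn.zero
      fun x _ => IsCuspFn.smul ?_ _
    exact hf.cusp.slash _
  have hγM : γ ∈ Gamma0 M := Newforms.mem_gamma0_iff_dvd.2
    ((Int.natCast_dvd_natCast.2 (dvd_mul_right M m)).trans (Newforms.mem_gamma0_iff_dvd.1 hγ))
  have hd : IsUnit ((γ 1 1 : ℤ) : ZMod M) := DeligneSerre.isUnit_lowerRight hγM
  have hd' : IsUnit ((γ 1 1 : ℤ) : ZMod m) := by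
    rw [← map_intCast (ZMod.castHom hm (ZMod m))]; exact hd.map _
  choose δ hδ hδd hδe using exists_transl_mul hm hγ
  rw [GammaH.translSum, SlashAction.sum_slash, Finset.smul_sum]
  have hterm : ∀ x : ZMod m, (w x • (f ∣[(2 : ℤ)] transl m x.val)) ∣[(2 : ℤ)] γ =
      (ε * θ) ((γ 1 1 : ℤ) : ZMod L) • w (x * ((γ 1 1 : ℤ) : ZMod m) ^ 2) •
        (f ∣[(2 : ℤ)] transl m (x * ((γ 1 1 : ℤ) : ZMod m) ^ 2).val) := by
    intro x
    rw [ModularForm.SL_smul_slash, ModularForm.SL_slash, ← SlashAction.slash_mul]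
    show w x • f ∣[(2 : ℤ)] (transl m x.val * mapGL ℝ γ) = _
    have hn : f ∣[(2 : ℤ)] (mapGL ℝ (δ x) : GL (Fin 2) ℝ) =
        ε ((δ x 1 1 : ℤ) : ZMod L) • f := hf.neb _ (hδ x)
    rw [hδe x, SlashAction.slash_mul, hn, ModularForm.smul_slash, σ_transl, ContinuousAlgEquiv.refl_apply]
    have hdL : ((δ x 1 1 : ℤ) : ZMod L) = ((γ 1 1 : ℤ) : ZMod L) := by
      have := congrArg (ZMod.castHom hL (ZMod L)) (hδd x)
      rwa [map_intCast, map_intCast] at this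
    rw [hdL, smul_smul, smul_smul, MulChar.mul_apply, hw _ hd x]
    ring_nf
  rw [Finset.sum_congr rfl fun x _ => hterm x]
  exact Fintype.sum_bijective (fun x => x * ((γ 1 1 : ℤ) : ZMod m) ^ 2)
    (Units.mulRight (hd'.pow 2).unit).bijective _ _ fun x => rfl

end Fermat.Agent.RT.GammaH
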