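import Fermat.Agent.Periods.Conj
import Fermat.Agent.Periods.Congruence.Operators
import Fermat.Agent.RT.GammaH.Dim
import Fermat.Agent.RT.GammaH.Hecke
import Fermat.Agent.RT.GammaH.Coeff

/-!
# Eichler–Shimura for `Γ_H`

Parabolic homomorphisms are periods plus conjugate periods, compatibly with Hecke and diamond
operators.
-/

set_option autoImplicit false

noncomputable section

open CongruenceSubgroup UpperHalfPlane Matrix.SpecialLinearGroup
open ModularCurve.Period
open scoped MatrixGroups ModularForm Pointwise ComplexConjugate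

namespace Fermat.Agent.RT.GammaH

open Fermat.Agent.Periods.Congruence (per perLin)
open Fermat.Agent.Newforms (ratGL IsCuspFn)

variable {M : ℕ} [NeZero M] {K : Subgroup (ZMod M)ˣ}

/-- Weight two cusp forms on `Γ_H`. -/
abbrev FormH (M : ℕ) (K : Subgroup (ZMod M)ˣ) : Type := CuspForm (gammaH M K) 2

theorem isCuspFn_formH (f : FormH M K) : IsCuspFn 2 f :=
  ⟨CuspFormClass.holo f, fun A => OnePoint.isZeroAt_infty_iff.1 <|
    P2MW.S_CuspFormClass_isZeroAt_heckeT.ModularForm.S06W2.isZeroAt_slash_ratCast f A Fact.out⟩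

/-- The constructor. -/
def mkFormH (g : ℍ → ℂ) (hinv : ∀ γ ∈ gammaH M K, g ∣[(2 : ℤ)] γ = g) (hg : IsCuspFn 2 g) :
    FormH M K :=
  DeligneSerre.mkCuspForm (gammaH M K) 2 g hinv hg.1
    fun γ => by simpa [SlashAction.slash_one] using (hg.slash_SL γ).2 1

@[simp] theorem coe_mkFormH (g : ℍ → ℂ) (hinv : ∀ γ ∈ gammaH M K, g ∣[(2 : ℤ)] γ = g)
    (hg : IsCuspFn 2 g) : ⇑(mkFormH g hinv hg) = g := rfl

theorem slash_of_mem_img {Γ : Subgroup SL(2, ℤ)} {f : ℍ → ℂ}
    (hf : ∀ γ ∈ Γ, f ∣[(2 : ℤ)] γ = f) {g : GLR} (hg : g ∈ img Γ) : f ∣[(2 : ℤ)] g = f := by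
  obtain ⟨γ, hγ, rfl⟩ := hg
  exact hf γ hγ

/-- `∑ f|repᵢ`. -/
def slashSum {ι : Type*} [Fintype ι] (rep : ι → GLR) (f : ℍ → ℂ) : ℍ → ℂ :=
  ∑ i, f ∣[(2 : ℤ)] rep i

theorem slashSum_inv {Γ' Γ : Subgroup SL(2, ℤ)} {ι : Type*} [Fintype ι] {rep : ι → GLR}
    (h : Admissible Γ' Γ rep) {f : ℍ → ℂ} (hf : ∀ γ ∈ Γ', f ∣[(2 : ℤ)] γ = f) {γ : SL(2, ℤ)}
    (hγ : γ ∈ Γ) : slashSum rep f ∣[(2 : ℤ)] γ = slashSum rep f := by
  obtain ⟨σ, hσ⟩ := h ⟨γ, hγ⟩
  rw [slashSum, SlashAction.sum_slash]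
  calc ∑ i, (f ∣[(2 : ℤ)] rep i) ∣[(2 : ℤ)] γ = ∑ i, f ∣[(2 : ℤ)] rep (σ i) := by
        refine Finset.sum_congr rfl fun i _ => ?_
        rw [ModularForm.SL_slash, ← SlashAction.slash_mul]
        conv_rhs => rw [← slash_of_mem_img hf (hσ.2 i), ← SlashAction.slash_mul,
          inv_mul_cancel_right]
        rfl
    _ = ∑ i, f ∣[(2 : ℤ)] rep i := hσ.1.sum_comp fun i => f ∣[(2 : ℤ)] rep i

theorem slashSum_eq_of_isReps {Γ' : Subgroup SL(2, ℤ)} {ι κ : Type*} [Fintype ι] [Fintype κ]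
    {rep : ι → GLR} {rep' : κ → GLR} {D : Set GLR} (h : IsReps Γ' D rep) (h' : IsReps Γ' D rep')
    {f : ℍ → ℂ} (hf : ∀ γ ∈ Γ', f ∣[(2 : ℤ)] γ = f) : slashSum rep f = slashSum rep' f := by
  obtain ⟨e, he⟩ := h.exists_equiv h'
  refine Fintype.sum_equiv e _ _ fun i => ?_
  conv_rhs => rw [← slash_of_mem_img hf (he i), ← SlashAction.slash_mul, inv_mul_cancel_right]

theorem exists_ratGL_of_isIntMat {g : GLR} {A : Matrix (Fin 2) (Fin 2) ℤ} (hg : IsIntMat g A)
    (hA : A.det ≠ 0) : ∃ r : GL (Fin 2) ℚ, g = ratGL r := by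
  refine ⟨Matrix.GeneralLinearGroup.mkOfDetNeZero (A.map (Int.castRingHom ℚ)) ?_, ?_⟩
  · rw [show A.map (Int.castRingHom ℚ) = (Int.castRingHom ℚ).mapMatrix A from rfl,
      ← RingHom.map_det]
    simpa using hA
  · ext i j
    have := congrFun (congrFun hg i) j
    simp at this
    simp [this, Matrix.GeneralLinearGroup.map_apply, Matrix.GeneralLinearGroup.mkOfDetNeZero]

theorem isCuspFn_slash {f : ℍ → ℂ} (hf : IsCuspFn 2 f) {g : GLR} {A : Matrix (Fin 2) (Fin 2) ℤ}
    (hg : IsIntMat g A) (hA : A.det ≠ 0) : IsCuspFn 2 (f ∣[(2 : ℤ)] g) := by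
  obtain ⟨r, rfl⟩ := exists_ratGL_of_isIntMat hg hA
  exact hf.slash r

theorem det_pos_of_isIntMat {g : GLR} {A : Matrix (Fin 2) (Fin 2) ℤ} (hg : IsIntMat g A)
    (hA : 0 < A.det) : 0 < g.det.val := by
  rw [Matrix.GeneralLinearGroup.val_det_apply, hg,
    show A.map (Int.castRingHom ℝ) = (Int.castRingHom ℝ).mapMatrix A from rfl, ← RingHom.map_det]
  simpa using hA

variable {n : ℕ} [Fact n.Prime]

/-- `T_n` (`n ∤ M`) resp. `U_n` on forms. -/
def heckeForm (n : ℕ) [Fact n.Prime] (f : FormH M K) : FormH M K :=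
  mkFormH (slashSum (hRep M n) f)
    (fun _ hγ => slashSum_inv admissible_hRep
      (fun _ h => cuspForm_slash_eq_self f h) hγ)
    (Finset.sum_induction _ (IsCuspFn 2) (fun _ _ => IsCuspFn.add) IsCuspFn.zero fun i _ => by
      obtain ⟨A, hA, hd, -⟩ := hRep_mem_heckeSet (K := K) i
      exact isCuspFn_slash (isCuspFn_formH f) hA
        (hd ▸ Int.natCast_ne_zero.2 (Fact.out : n.Prime).ne_zero))

theorem coe_heckeForm (f : FormH M K) : ⇑(heckeForm n f) = slashSum (hRep M n) f := rfl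

/-- Diamond operators on forms. -/
def diaForm (u : (ZMod M)ˣ) (f : FormH M K) : FormH M K :=
  mkFormH (slashSum (diaRep u) f)
    (fun _ hγ => slashSum_inv (admissible_diaRep u)
      (fun _ h => cuspForm_slash_eq_self f h) hγ)
    (Finset.sum_induction _ (IsCuspFn 2) (fun _ _ => IsCuspFn.add) IsCuspFn.zero fun _ _ =>
      (isCuspFn_formH f).slash_SL _)

theorem coe_diaForm (u : (ZMod M)ˣ) (f : FormH M K) :
    ⇑(diaForm u f) = ⇑f ∣[(2 : ℤ)] gamma0Elt u⁻¹ := by
  show slashSum (diaRep u) _ = _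
  simp [slashSum, diaRep, ModularForm.SL_slash]
  rfl

theorem per_heckeForm (f : FormH M K) :
    per (heckeForm n f) = hecke M K n ℂ (per f) :=
  Periods.Congruence.per_opOf _ (fun i => by
    obtain ⟨A, hA, hd, -⟩ := hRep_mem_heckeSet (K := K) i
    exact det_pos_of_isIntMat hA
      (hd ▸ Int.natCast_pos.2 (Fact.out : n.Prime).pos)) Gamma_le_gammaH f _ rfl

theorem per_diaForm (u : (ZMod M)ˣ) (f : FormH M K) :
    per (diaForm u f) = diamond M K ℂ u (per f) :=
  Periods.Congruence.per_opOf _ (fun _ => by simp [diaRep]) Gamma_le_gammaH f _ rfl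

/-- `φ ↦ conj ∘ φ`. -/
def conjHom {Γ : Subgroup SL(2, ℤ)} (φ : Additive Γ →+ ℂ) : Additive Γ →+ ℂ :=
  (starRingEnd ℂ).toAddMonoidHom.comp φ

theorem conjHom_apply {Γ : Subgroup SL(2, ℤ)} (φ : Additive Γ →+ ℂ) (x : Additive Γ) :
    conjHom φ x = conj (φ x) := rfl

theorem conjHom_smul {Γ : Subgroup SL(2, ℤ)} (c : ℂ) (φ : Additive Γ →+ ℂ) :
    conjHom (c • φ) = conj c • conjHom φ := by
  ext x
  simp [conjHom_apply]

omit [NeZero M] in
theorem hecke_conjHom (φ : Additive (gammaH M K) →+ ℂ) :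
    hecke M K n ℂ (conjHom φ) = conjHom (hecke M K n ℂ φ) :=
  opOf_comp_coeff _ _ φ

omit [NeZero M] in
theorem diamond_conjHom (u : (ZMod M)ˣ) (φ : Additive (gammaH M K) →+ ℂ) :
    diamond M K ℂ u (conjHom φ) = conjHom (diamond M K ℂ u φ) :=
  opOf_comp_coeff _ _ φ

theorem per_smul (c : ℂ) (f : FormH M K) : per (c • f) = c • per f :=
  map_smul (perLin Gamma_le_gammaH) c f

theorem per_sub (f g : FormH M K) : per (f - g) = per f - per g :=
  map_sub (perLin Gamma_le_gammaH) f g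

theorem per_mem_parabolicHoms (f : FormH M K) : per f ∈ parabolicHoms ℂ (gammaH M K) ℂ :=
  Periods.Congruence.per_isParabolicHom Gamma_le_gammaH f

theorem conjHom_mem_parabolicHoms {Γ : Subgroup SL(2, ℤ)} {φ : Additive Γ →+ ℂ}
    (h : φ ∈ parabolicHoms ℂ Γ ℂ) : conjHom φ ∈ parabolicHoms ℂ Γ ℂ := fun γ hγ => by
  rw [conjHom_apply, h γ hγ, map_zero]

theorem finiteDimensional_parabolicHoms (hneg : -1 ∈ K) :
    FiniteDimensional ℂ (parabolicHoms ℂ (gammaH M K) ℂ) := by
  obtain ⟨γ, hγ⟩ := Gamma0.exists_parabolicHoms_equiv (neg_one_mem_gammaH hneg)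
  obtain ⟨e, -⟩ := hγ ℂ ℂ
  exact Module.Finite.equiv e.symm

theorem finiteDimensional_formH (hneg : -1 ∈ K) : FiniteDimensional ℂ (FormH M K) := by
  have := finiteDimensional_parabolicHoms (M := M) hneg
  exact FiniteDimensional.of_injective
    ((perLin Gamma_le_gammaH).codRestrict _ per_mem_parabolicHoms)
    (LinearMap.ker_eq_bot.1 ((Submodule.eq_bot_iff _).2 fun f hf =>
      Periods.Congruence.per_injective Gamma_le_gammaH (Subtype.ext_iff.1 hf)))

/-- **Eichler–Shimura surjectivity.** -/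
theorem exists_per_add_conjHom (hneg : -1 ∈ K) {φ : Additive (gammaH M K) →+ ℂ}
    (hφ : φ ∈ parabolicHoms ℂ (gammaH M K) ℂ) :
    ∃ f g : FormH M K, φ = per f + conjHom (per g) := by
  have := finiteDimensional_parabolicHoms (M := M) hneg
  have := finiteDimensional_formH (M := M) hneg
  -- a real-linear injection between spaces of the same real dimension
  let E : (FormH M K × FormH M K) →ₗ[ℝ] parabolicHoms ℂ (gammaH M K) ℂ :=
    { toFun := fun p => ⟨per p.1 + conjHom (per p.2),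
        add_mem (per_mem_parabolicHoms _) (conjHom_mem_parabolicHoms (per_mem_parabolicHoms _))⟩
      map_add' := fun p q => by
        refine Subtype.ext ?_
        show per (p.1 + q.1) + conjHom (per (p.2 + q.2)) = _
        rw [show per (p.1 + q.1) = per p.1 + per q.1 from map_add (perLin Gamma_le_gammaH) _ _,
          show per (p.2 + q.2) = per p.2 + per q.2 from map_add (perLin Gamma_le_gammaH) _ _]
        ext x
        simp [conjHom_apply]
        ring
      map_smul' := fun r p => by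
        refine Subtype.ext ?_
        show per ((r : ℂ) • p.1) + conjHom (per ((r : ℂ) • p.2)) = _
        rw [per_smul, per_smul, conjHom_smul, Complex.conj_ofReal]
        ext x
        simp [smul_add] }
  have hinj : Function.Injective E := by
    refine LinearMap.ker_eq_bot.1 ((Submodule.eq_bot_iff _).2 fun p hp => ?_)
    have h := Periods.Congruence.per_add_conj_injective Gamma_le_gammaH (f := p.1) (g := p.2)
      fun γ => DFunLike.congr_fun (Subtype.ext_iff.1 hp) (Additive.ofMul γ)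
    exact Prod.ext h.1 h.2
  have hdim : Module.finrank ℝ (FormH M K × FormH M K) =
      Module.finrank ℝ (parabolicHoms ℂ (gammaH M K) ℂ) := by
    rw [finrank_real_of_complex, finrank_real_of_complex, Module.finrank_prod,
      finrank_cuspForm_two_eq_genusOf _ (neg_one_mem_gammaH hneg),
      finrank_parabolicHoms_eq _ (neg_one_mem_gammaH hneg)]
    ring
  obtain ⟨⟨f, g⟩, hfg⟩ := (LinearMap.injective_iff_surjective_of_finrank_eq_finrank hdim).1 hinj
    ⟨φ, hφ⟩
  exact ⟨f, g, (Subtype.ext_iff.1 hfg).symm⟩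

/-! ### Complex conjugation of forms -/

omit [NeZero M] in
theorem jConjSL_mem_gammaH {γ : SL(2, ℤ)} (hγ : γ ∈ gammaH M K) :
    ModularCurve.Period.jConjSL γ ∈ gammaH M K := by
  obtain ⟨hc, u, hu, ha⟩ := hγ
  exact ⟨by simpa using hc, u, hu, by simpa using ha⟩

/-- `τ ↦ conj (f (-conj τ))`. -/
def formConjH (f : FormH M K) : FormH M K :=
  (CuspForm.translate f UpperHalfPlane.J).copy _ rfl (by
    ext x
    rw [Subgroup.mem_pointwise_smul_iff_inv_smul_mem, Periods.J_inv, ← map_inv, Periods.J_inv,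
      ConjAct.toConjAct_smul, Periods.J_inv]
    constructor
    · rintro ⟨g, hg, rfl⟩
      refine ⟨_, jConjSL_mem_gammaH hg, ?_⟩
      rw [Periods.J_mul_mapGL, mul_assoc, ← sq, UpperHalfPlane.J_sq, mul_one]
    · rintro ⟨g, hg, hx⟩
      refine ⟨_, jConjSL_mem_gammaH hg, ?_⟩
      have := congrArg (fun t => UpperHalfPlane.J * t * UpperHalfPlane.J) hx
      simp only [Periods.J_mul_mapGL, mul_assoc, ← sq, UpperHalfPlane.J_sq, mul_one] at this
      rw [this, ← mul_assoc UpperHalfPlane.J UpperHalfPlane.J x, ← sq, UpperHalfPlane.J_sq,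
        one_mul])

omit [NeZero M] in
theorem formConjH_apply (f : FormH M K) (τ : ℍ) :
    formConjH f τ = conj (f (UpperHalfPlane.J • τ)) := by
  show (⇑f ∣[(2 : ℤ)] UpperHalfPlane.J) τ = _
  simp [ModularForm.slash_apply, UpperHalfPlane.σ, denom, show ¬(1 : ℝ) < 0 by simp]

omit [NeZero M] in
theorem hasCoeff_formConjH (f : FormH M K) {a : ℕ → ℂ} (ha : HasCoeff f a) :
    HasCoeff (formConjH f) fun n => conj (a n) := by
  intro τ
  rw [formConjH_apply]
  refine ((Complex.hasSum_conj').2 (ha (UpperHalfPlane.J • τ))).congr_fun fun n => ?_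
  rw [map_mul, map_pow]
  congr 2
  rw [Function.Periodic.qParam, Function.Periodic.qParam, ← Complex.exp_conj, coe_J_smul]
  congr 1
  simp [map_ofNat]

end Fermat.Agent.RT.GammaH
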