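import Fermat.Agent.HeckeDuality.Eigenform
import Fermat.Prelude.Sol.S_UpperHalfPlane_qCoeff_heckeU
import Fermat.Agent.RT.GammaH.PeriodsH

/-!
# Coefficients of Hecke operators on forms with nebentype on `Γ_H`
-/

set_option autoImplicit false

noncomputable section

open CongruenceSubgroup UpperHalfPlane Matrix.SpecialLinearGroup ModularFormClass
open ModularCurve.Period
open scoped MatrixGroups ModularForm

namespace Fermat.Agent.RT.GammaH

open Fermat.Agent.Periods.Congruence (per)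
open Fermat.Agent.Newforms (IsCuspFn)

variable {L : ℕ} [NeZero L] {K : Subgroup (ZMod L)ˣ}

/-- `χ` as a Dirichlet character. -/
def toDir (χ : (ZMod L)ˣ →* ℂˣ) : DirichletCharacter ℂ L := MulChar.ofUnitHom χ

omit [NeZero L] in
theorem toDir_coe (χ : (ZMod L)ˣ →* ℂˣ) (u : (ZMod L)ˣ) : toDir χ u = (χ u : ℂ) :=
  MulChar.ofUnitHom_coe χ u

/-- `f` has nebentype `χ`. -/
def IsChiForm (χ : (ZMod L)ˣ →* ℂˣ) (f : FormH L K) : Prop :=
  ∀ u, diaForm u f = (χ u : ℂ) • f

theorem slash_eq_of_mem_gamma0 {χ : (ZMod L)ˣ →* ℂˣ} {f : FormH L K} (hf : IsChiForm χ f)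
    {γ : SL(2, ℤ)} (hγ : γ ∈ Gamma0 L) {u : (ZMod L)ˣ} (hu : ((γ 1 1 : ℤ) : ZMod L) = u) :
    ⇑f ∣[(2 : ℤ)] γ = (χ u : ℂ) • ⇑f := by
  have h := congrArg DFunLike.coe (hf u)
  rw [coe_diaForm] at h
  refine Eq.trans ?_ h
  have hd : ((γ 0 0 : ℤ) : ZMod L) * γ 1 1 - γ 0 1 * γ 1 0 = 1 := by
    exact_mod_cast congrArg (Int.cast : ℤ → ZMod L) (Gamma0.det_eq γ)
  rw [Gamma0_mem.1 hγ, mul_zero, sub_zero, hu] at hd
  have hmem : γ * (gamma0Elt u⁻¹)⁻¹ ∈ gammaH L K := by
    refine gamma0_mul_inv_mem hγ (gamma0Elt_mem _) (one_mem K) ?_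
    rw [Units.val_one, one_mul, gamma0Elt_upperLeft]
    exact (Units.inv_eq_of_mul_eq_one_left hd).symm
  conv_rhs => rw [← cuspForm_slash_eq_self f hmem, ← SlashAction.slash_mul, inv_mul_cancel_right]

theorem isNeb_of_isChiForm {χ : (ZMod L)ˣ →* ℂˣ} {f : FormH L K} (hf : IsChiForm χ f) :
    IsNeb L (toDir χ) f := by
  refine ⟨isCuspFn_formH f, fun γ hγ => ?_⟩
  have hu : IsUnit ((γ 1 1 : ℤ) : ZMod L) := DeligneSerre.isUnit_lowerRight hγ
  rw [slash_eq_of_mem_gamma0 hf hγ (u := hu.unit) hu.unit_spec.symm, ← toDir_coe, hu.unit_spec]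

omit [NeZero L] in
theorem Gamma1_le_gammaH : Gamma1 L ≤ gammaH L K := fun g hg => by
  obtain ⟨ha, -, hc⟩ := (Gamma1_mem L g).1 hg
  exact ⟨hc, 1, one_mem K, by simpa using ha⟩

omit [NeZero L] in
theorem isNeb_one_Gamma1 (f : FormH L K) {γ : SL(2, ℤ)} (hγ : γ ∈ Gamma1 L) :
    ⇑f ∣[(2 : ℤ)] γ = ⇑f :=
  cuspForm_slash_eq_self f (Gamma1_le_gammaH hγ)

/-- The form on `Γ₁(L)`. -/
def toGamma1 (f : FormH L K) : CuspForm (Gamma1 L) 2 :=
  DeligneSerre.mkCuspForm (Gamma1 L) 2 f (fun _ h => isNeb_one_Gamma1 f h)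
    (CuspFormClass.holo f) fun γ => CuspFormClass.zero_at_infty_slash f γ

@[simp] theorem coe_toGamma1 (f : FormH L K) : ⇑(toGamma1 f) = ⇑f := rfl

theorem hasCoeff_formH (f : FormH L K) : HasCoeff f (qCoeff f) := fun τ => by
  simpa [smul_eq_mul, qCoeff] using ModularForm.hasSum_qExpansion (toGamma1 f) one_pos
    DeligneSerre.one_mem_strictPeriods_gamma1 τ

theorem qCoeff_formH_eq (f : FormH L K) {a : ℕ → ℂ} (ha : HasCoeff f a) (n : ℕ) :
    qCoeff f n = a n :=
  (ModularFormClass.qExpansion_coeff_unique (f := toGamma1 f) one_pos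
    DeligneSerre.one_mem_strictPeriods_gamma1 (c := a) (fun τ => by simpa [smul_eq_mul] using ha τ)
    n).symm

theorem formH_eq_zero {f : FormH L K} (h : ∀ n, qCoeff f n = 0) : f = 0 :=
  DFunLike.coe_injective (((hasCoeff_formH f).congr (b := 0) h).ext hasCoeff_zero)

theorem qCoeff_formH_smul (c : ℂ) (f : FormH L K) (n : ℕ) :
    qCoeff ⇑(c • f) n = c * qCoeff f n :=
  qCoeff_formH_eq (c • f) (a := fun n => c * qCoeff f n) ((hasCoeff_formH f).smul c) n

theorem qCoeff_formH_sub (f g : FormH L K) (n : ℕ) :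
    qCoeff ⇑(f - g) n = qCoeff f n - qCoeff g n :=
  qCoeff_formH_eq (f - g) (a := fun n => qCoeff f n - qCoeff g n)
    ((hasCoeff_formH f).sub (hasCoeff_formH g)) n

theorem qCoeff_formH_zero (f : FormH L K) : qCoeff f 0 = 0 := by
  have := CuspFormClass.qExpansion_coeff_zero (toGamma1 f) one_pos
    DeligneSerre.one_mem_strictPeriods_gamma1
  simpa [qCoeff] using this

variable {p : ℕ} [hp : Fact p.Prime]

omit [NeZero L] in
theorem slashSum_hRep_of_dvd (h : p ∣ L) (F : ℍ → ℂ) :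
    slashSum (hRep L p) F = ModularForm.heckeU 2 p F := by
  rw [slashSum, ModularForm.heckeU_def, ← Fin.sum_univ_eq_sum_range
    (fun j => F ∣[(2 : ℤ)] ModularForm.heckeMatrix p j)]
  refine (Fintype.sum_bijective (fun j : Fin p => (⟨some j, fun h' => by simp at h'⟩ : HIdx L p))
    ⟨fun a b hab => by simpa using congrArg Subtype.val hab, ?_⟩ _ _ fun j => rfl).symm
  rintro ⟨_ | j, hj⟩
  · exact absurd h (hj rfl)
  · exact ⟨j, rfl⟩

omit [NeZero L] in
theorem slashSum_hRep_of_not_dvd (h : ¬ p ∣ L) (F : ℍ → ℂ) :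
    slashSum (hRep L p) F = ModularForm.heckeU 2 p F +
      (F ∣[(2 : ℤ)] gamma0Elt (ZMod.unitOfCoprime p
        ((Nat.Prime.coprime_iff_not_dvd hp.out).2 h))⁻¹) ∣[(2 : ℤ)]
          ModularForm.heckeDiagMatrix p := by
  rw [slashSum, ModularForm.heckeU_def, ← Fin.sum_univ_eq_sum_range
    (fun j => F ∣[(2 : ℤ)] ModularForm.heckeMatrix p j)]
  refine (Fintype.sum_bijective (fun o : Option (Fin p) => (⟨o, fun _ => h⟩ : HIdx L p))
    ⟨fun a b hab => congrArg Subtype.val hab, fun ⟨o, _⟩ => ⟨o, rfl⟩⟩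
    (fun o => F ∣[(2 : ℤ)] hRep L p ⟨o, fun _ => h⟩) _ fun o => rfl).symm.trans ?_
  rw [Fintype.sum_option, add_comm]
  congr 1
  show F ∣[(2 : ℤ)] (mapGL ℝ _ * ModularForm.heckeDiagMatrix p) = _
  rw [SlashAction.slash_mul, ModularForm.SL_slash]
  rfl

/-- The weight in the Hecke recursion. -/
def nebWeight (χ : DirichletCharacter ℂ L) (p : ℕ) : ℂ := χ (p : ZMod L) * p

/-- The Hecke operator on coefficient sequences. -/
def seqOp (e : ℕ → ℂ) (p : ℕ) (a : ℕ → ℂ) (n : ℕ) : ℂ :=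
  a (n * p) + if p ∣ n then e p * a (n / p) else 0

theorem periodic_formH (f : FormH L K) : Function.Periodic (⇑f ∘ ofComplex) 1 := by
  simpa using SlashInvariantFormClass.periodic_comp_ofComplex (toGamma1 f)
    DeligneSerre.one_mem_strictPeriods_gamma1

theorem qCoeff_heckeForm {χ : (ZMod L)ˣ →* ℂˣ} {f : FormH L K} (hf : IsChiForm χ f) (n : ℕ) :
    qCoeff (heckeForm p f) n = seqOp (nebWeight (toDir χ)) p (qCoeff f) n := by
  have hb : IsBoundedAtImInfty ⇑f := by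
    have := CuspFormClass.zero_at_infty_slash f (1 : SL(2, ℤ))
    rw [SlashAction.slash_one] at this
    exact this.isBoundedAtImInfty
  have hU : HasCoeff (ModularForm.heckeU 2 p f) fun m => qCoeff f (m * p) := fun τ => by
    simpa [ModularForm.coeffHeckeU, smul_eq_mul] using
      P2MW.S_UpperHalfPlane_qCoeff_heckeU.M4cP1W2.hasSum_heckeU hp.out.ne_zero (periodic_formH f)
        (CuspFormClass.holo f) hb 2 τ
  refine qCoeff_formH_eq _ ?_ n
  rw [coe_heckeForm]
  by_cases h : p ∣ L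
  · rw [slashSum_hRep_of_dvd h]
    refine hU.congr fun m => ?_
    have h0 : ¬ IsUnit ((p : ℕ) : ZMod L) := fun hu =>
      ((Nat.Prime.coprime_iff_not_dvd hp.out).1 ((ZMod.isUnit_iff_coprime _ _).1 hu)) h
    simp [seqOp, nebWeight, (toDir χ).map_nonunit h0]
  · set u := ZMod.unitOfCoprime p ((Nat.Prime.coprime_iff_not_dvd hp.out).2 h) with hu
    have hdia := congrArg DFunLike.coe (hf u)
    rw [coe_diaForm] at hdia
    rw [slashSum_hRep_of_not_dvd h, ← hu, hdia, FunLike.coe_smul, ModularForm.smul_slash,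
      ModularForm.σ_heckeDiagMatrix, ContinuousAlgEquiv.refl_apply]
    have hD : HasCoeff (⇑f ∣[(2 : ℤ)] ModularForm.heckeDiagMatrix p)
        fun m => if p ∣ m then (p : ℂ) * qCoeff f (m / p) else 0 := fun τ => by
      rw [ModularForm.slash_heckeDiagMatrix_apply 2 hp.out.ne_zero]
      refine (P2MW.S_UpperHalfPlane_qCoeff_heckeU.M4cP1W2.hasSum_diag hp.out.ne_zero
        (periodic_formH f) (CuspFormClass.holo f) hb 2 τ).congr_fun fun m => ?_
      by_cases hm : p ∣ m <;> simp [hm]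
    refine (hU.add (hD.smul _)).congr fun m => ?_
    rw [seqOp, nebWeight, ← toDir_coe, hu, ZMod.coe_unitOfCoprime]
    split_ifs <;> ring

theorem heckeForm_isChiForm {χ : (ZMod L)ˣ →* ℂˣ} {f : FormH L K} (hf : IsChiForm χ f) :
    IsChiForm χ (heckeForm p f) := fun u => by
  refine sub_eq_zero.1 (Periods.Congruence.per_injective Gamma_le_gammaH ?_)
  rw [per_sub, per_diaForm, per_heckeForm, per_smul, per_heckeForm, ← hecke_diamond, ← per_diaForm,
    hf u, per_smul, map_smul, sub_self]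

end Fermat.Agent.RT.GammaH
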