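import Mathlib.NumberTheory.DirichletCharacter.Orthogonality
import Fermat.Agent.Newforms.Semisimple
import Fermat.Agent.RT.GammaH.Twist
import Fermat.Agent.RT.GammaH.NebHecke

/-!
# Semisimplicity of `T_ℓ` on parabolic homomorphisms of `Γ_H`, squarefree level, odd index
-/

set_option autoImplicit false

noncomputable section

open CongruenceSubgroup UpperHalfPlane ModularFormClass
open ModularCurve.Period
open scoped MatrixGroups ModularForm ComplexConjugate

namespace Fermat.Agent.RT.GammaH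

open Fermat.Agent.Periods.Congruence (per perLin)
open Fermat.Agent.HeckeDuality (eulerWeight coeff_heckeOp)
open Fermat.Agent.Newforms (hOp)

variable {L : ℕ} [NeZero L] {K : Subgroup (ZMod L)ˣ}

/-- The level of the full twist. -/
def twistLevel (χ : DirichletCharacter ℂ L) : ℕ := L * ∏ v ∈ badPrimes χ, v

variable {χ : DirichletCharacter ℂ L} {e : ℕ}

theorem dvd_twistLevel : L ∣ twistLevel χ := dvd_mul_right _ _

theorem neZero_twistLevel : NeZero (twistLevel χ) :=
  ⟨mul_ne_zero (NeZero.ne L)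
    (Finset.prod_ne_zero_iff.2 fun _ hv => (mem_badPrimes.1 hv).1.ne_zero)⟩

theorem prod_badPrimes_dvd : (∏ v ∈ badPrimes χ, v) ∣ L :=
  (Finset.prod_dvd_prod_of_subset _ _ _ badPrimes_subset).trans (Nat.prod_primeFactors_dvd L)

theorem twistLevel_dvd_sq : twistLevel χ ∣ L ^ 2 := by
  rw [pow_two]
  exact Nat.mul_dvd_mul_left L prod_badPrimes_dvd

theorem prime_dvd_twistLevel_iff {p : ℕ} (hp : p.Prime) : p ∣ twistLevel χ ↔ p ∣ L := by
  refine ⟨fun h => (hp.dvd_mul.1 h).elim id fun h => ?_, fun h => h.trans dvd_twistLevel⟩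
  exact h.trans prod_badPrimes_dvd

theorem etaSeq_mul (m n : ℕ) : etaSeq χ e (m * n) = etaSeq χ e m * etaSeq χ e n := by
  rw [etaSeq, etaSeq, etaSeq, ← Finset.prod_mul_distrib]
  exact Finset.prod_congr rfl fun v _ => by rw [Nat.cast_mul, map_mul]

theorem etaSeq_one : etaSeq χ e 1 = 1 :=
  Finset.prod_eq_one fun v _ => by rw [Nat.cast_one, map_one]

theorem etaSeq_sq_mul (hL : Squarefree L) (he : χ ^ (2 * e + 1) = 1) {p : ℕ} (hp : p.Prime)
    (hpL : ¬ p ∣ L) : etaSeq χ e p ^ 2 * χ (p : ZMod L) = 1 := by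
  rw [etaSeq_eq hL (u := ZMod.unitOfCoprime p ((Nat.Prime.coprime_iff_not_dvd hp).2 hpL)) rfl,
    ← ZMod.coe_unitOfCoprime p ((Nat.Prime.coprime_iff_not_dvd hp).2 hpL), ← pow_mul, ← pow_succ,
    mul_comm e, ← MulChar.pow_apply_coe, he, MulChar.one_apply_coe]

theorem seqOp_twist (hL : Squarefree L) (he : χ ^ (2 * e + 1) = 1) {p : ℕ} (hp : p.Prime)
    (a : ℕ → ℂ) (n : ℕ) :
    seqOp (eulerWeight (twistLevel χ)) p (fun m => etaSeq χ e m * a m) n =
      etaSeq χ e p * (etaSeq χ e n * seqOp (nebWeight χ) p a n) := by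
  by_cases hpL : p ∣ L
  · have h0 : ¬ IsUnit ((p : ℕ) : ZMod L) := fun hu =>
      ((Nat.Prime.coprime_iff_not_dvd hp).1 ((ZMod.isUnit_iff_coprime _ _).1 hu)) hpL
    simp [seqOp, eulerWeight, (prime_dvd_twistLevel_iff hp).2 hpL, nebWeight, χ.map_nonunit h0,
      etaSeq_mul]
    ring
  · have h1 := etaSeq_sq_mul hL he hp hpL
    simp only [seqOp, eulerWeight, nebWeight,
      if_neg (mt (prime_dvd_twistLevel_iff hp).1 hpL), etaSeq_mul]
    split_ifs with hn
    · obtain ⟨m, rfl⟩ := hn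
      rw [Nat.mul_div_cancel_left _ hp.pos, etaSeq_mul]
      linear_combination -((p : ℂ) * etaSeq χ e m * a m) * h1
    · ring

/-- The twist as a cusp form on `Γ₀`. -/
theorem exists_twistForm (hL : Squarefree L) {χ' : (ZMod L)ˣ →* ℂˣ}
    (he : toDir χ' ^ (2 * e + 1) = 1) {f : FormH L K} (hf : IsChiForm χ' f) :
    ∃ G : CuspForm (Gamma0 (twistLevel (toDir χ'))) 2,
      (∀ n, qCoeff G n = etaSeq (toDir χ') e n * qCoeff f n) ∧ (G = 0 → f = 0) := by
  have := neZero_twistLevel (χ := toDir χ')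
  obtain ⟨F, hF, hFa, h0⟩ := exists_twist hL he (isNeb_of_isChiForm hf) (hasCoeff_formH f)
  have hinv : ∀ γ ∈ Gamma0 (twistLevel (toDir χ')), F ∣[(2 : ℤ)] γ = F := by
    intro γ hγ
    rw [hF.neb γ hγ, MulChar.one_apply, one_smul]
    exact DeligneSerre.isUnit_lowerRight (Newforms.mem_gamma0_iff_dvd.2
      ((Int.natCast_dvd_natCast.2 dvd_twistLevel).trans (Newforms.mem_gamma0_iff_dvd.1 hγ)))
  refine ⟨Newforms.mkCusp F hinv hF.cusp, fun n => Newforms.qCoeff_eq_of_hasSum (Newforms.mkCusp F hinv hF.cusp)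
    (c := fun n => etaSeq (toDir χ') e n * qCoeff f n) (fun τ => hFa τ) n,
    fun h => DFunLike.coe_injective (h0 ?_)⟩
  simpa using congrArg DFunLike.coe h

/-- The twist kills nothing. -/
theorem formH_eq_zero_of_etaSeq (hL : Squarefree L) {χ' : (ZMod L)ˣ →* ℂˣ}
    (he : toDir χ' ^ (2 * e + 1) = 1) {f : FormH L K} (hf : IsChiForm χ' f)
    (h : ∀ n, etaSeq (toDir χ') e n * qCoeff f n = 0) : f = 0 := by
  have := neZero_twistLevel (χ := toDir χ')
  obtain ⟨G, hG, h0⟩ := exists_twistForm hL he hf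
  refine h0 (Newforms.eq_of_forall_qCoeff fun n => ?_)
  rw [hG, h]
  exact ((Newforms.coeffLin (N := twistLevel (toDir χ')) (k := 2) n).map_zero).symm

theorem IsChiForm.sub {χ' : (ZMod L)ˣ →* ℂˣ} {f g : FormH L K} (hf : IsChiForm χ' f)
    (hg : IsChiForm χ' g) : IsChiForm χ' (f - g) := fun u => DFunLike.coe_injective <| by
  rw [coe_diaForm, FunLike.coe_sub, FunLike.coe_smul, FunLike.coe_sub, sub_eq_add_neg,
    SlashAction.add_slash, SlashAction.neg_slash, ← coe_diaForm, ← coe_diaForm, hf u, hg u,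
    FunLike.coe_smul, FunLike.coe_smul, smul_add, smul_neg]

theorem IsChiForm.smul {χ' : (ZMod L)ˣ →* ℂˣ} {f : FormH L K} (hf : IsChiForm χ' f) (c : ℂ) :
    IsChiForm χ' (c • f) := fun u => DFunLike.coe_injective <| by
  rw [coe_diaForm, FunLike.coe_smul, ModularForm.SL_smul_slash, ← coe_diaForm, hf u,
    FunLike.coe_smul, FunLike.coe_smul, FunLike.coe_smul, smul_comm]

/-- Generalised eigenforms of `T_ℓ` are eigenforms. -/
theorem heckeForm_eq_of_sq (hL : Squarefree L) {χ' : (ZMod L)ˣ →* ℂˣ}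
    (he : toDir χ' ^ (2 * e + 1) = 1) {ℓ : ℕ} [hℓ : Fact ℓ.Prime] (hℓL : ¬ ℓ ∣ L) {f : FormH L K}
    (hf : IsChiForm χ' f) (c : ℂ)
    (h : heckeForm ℓ (heckeForm ℓ f) - (2 * c) • heckeForm ℓ f + c ^ 2 • f = 0) :
    heckeForm ℓ f = c • f := by
  have := neZero_twistLevel (χ := toDir χ')
  set N := twistLevel (toDir χ') with hN
  set tw := etaSeq (toDir χ') e with htw
  obtain ⟨G, hG, -⟩ := exists_twistForm hL he hf
  have h1 : ∀ n, qCoeff (hOp N hℓ.out G) n = tw ℓ * (tw n * qCoeff (heckeForm ℓ f) n) := fun n => by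
    rw [coeff_heckeOp, qCoeff_heckeForm hf, htw, ← seqOp_twist hL he hℓ.out]
    simp only [seqOp, hG]
    rfl
  have h2 : ∀ n, qCoeff (hOp N hℓ.out (hOp N hℓ.out G)) n =
      tw ℓ ^ 2 * (tw n * qCoeff (heckeForm ℓ (heckeForm ℓ f)) n) := fun n => by
    rw [coeff_heckeOp, qCoeff_heckeForm (heckeForm_isChiForm hf)]
    have := seqOp_twist hL he hℓ.out (qCoeff (heckeForm ℓ f)) n
    simp only [seqOp, ← htw] at this ⊢
    rw [h1, h1]
    split_ifs at this ⊢ <;> linear_combination tw ℓ * this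
  have hζ : ∀ n, qCoeff (heckeForm ℓ (heckeForm ℓ f)) n - 2 * c * qCoeff (heckeForm ℓ f) n +
      c ^ 2 * qCoeff f n = 0 := fun n => by
    have := congrArg (fun F : FormH L K => qCoeff F n) (eq_neg_of_add_eq_zero_left h)
    rw [← neg_one_smul ℂ (c ^ 2 • f), smul_smul] at this
    simp only [qCoeff_formH_sub, qCoeff_formH_smul] at this
    linear_combination this
  have hℓN : ¬ ℓ ∣ N := mt (prime_dvd_twistLevel_iff hℓ.out).1 hℓL
  set T := hOp N hℓ.out with hT
  have hsq : ((T - (tw ℓ * c) • (1 : Module.End ℂ (CuspForm (Gamma0 N) 2))) ^ 2) G = 0 := by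
    have e1 : ((T - (tw ℓ * c) • (1 : Module.End ℂ (CuspForm (Gamma0 N) 2))) ^ 2) G =
        T (T G) + ((-2 * (tw ℓ * c)) • T G + (tw ℓ * c) ^ 2 • G) := by
      simp [pow_two, Module.End.mul_apply, map_sub, map_smul, smul_sub, smul_smul]
      module
    refine Newforms.eq_of_forall_qCoeff fun n => ?_
    rw [e1, Newforms.qCoeff_add, Newforms.qCoeff_add, Newforms.qCoeff_smul, Newforms.qCoeff_smul,
      h2, h1, hG]
    refine Eq.trans ?_ ((Newforms.coeffLin (N := N) (k := 2) n).map_zero).symm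
    linear_combination tw ℓ ^ 2 * tw n * hζ n
  have heig := (Newforms.isPetersson_hOp hℓ.out hℓN).eigen_of_genEigen hsq
  have hne : tw ℓ ≠ 0 := fun h0 => by
    have := etaSeq_sq_mul hL he hℓ.out hℓL
    rw [← htw, h0] at this
    simp at this
  refine sub_eq_zero.1 (formH_eq_zero_of_etaSeq hL he ((heckeForm_isChiForm hf).sub (hf.smul c))
    fun n => ?_)
  have := congrArg (fun F : CuspForm (Gamma0 N) 2 => qCoeff F n) heig
  rw [← hT] at this
  simp only [Newforms.qCoeff_smul, h1, hG, ← htw] at this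
  rw [qCoeff_formH_sub, qCoeff_formH_smul, ← htw]
  refine mul_left_cancel₀ hne ?_
  linear_combination this

omit [NeZero L] in
theorem toDir_pow_eq_one {χ' : (ZMod L)ˣ →* ℂˣ} (hχ : ∀ u ∈ K, χ' u = 1)
    (hodd : Odd (Nat.card ((ZMod L)ˣ ⧸ K))) :
    toDir χ' ^ (2 * ((Nat.card ((ZMod L)ˣ ⧸ K) - 1) / 2) + 1) = 1 := by
  obtain ⟨k, hk⟩ := hodd
  ext u
  rw [hk, show (2 * k + 1 - 1) / 2 = k by omega, ← hk, MulChar.pow_apply_coe, toDir_coe,
    MulChar.one_apply_coe, ← Units.val_pow_eq_pow_val, ← map_pow, ← Subgroup.index_eq_card,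
    hχ _ (K.pow_index_mem u), Units.val_one]

/-- The projection to the `χ'`-part. -/
def chiPart (θ : DirichletCharacter ℂ L) (φ : Additive (gammaH L K) →+ ℂ) :
    Additive (gammaH L K) →+ ℂ :=
  ((Fintype.card (ZMod L)ˣ : ℂ))⁻¹ • ∑ u : (ZMod L)ˣ, (θ u)⁻¹ • diamond L K ℂ u φ

theorem sum_chiPart (φ : Additive (gammaH L K) →+ ℂ) :
    ∑ θ : DirichletCharacter ℂ L, chiPart θ φ = φ := by
  classical
  have h : ∀ u : (ZMod L)ˣ, ∑ θ : DirichletCharacter ℂ L, (θ u)⁻¹ =
      if u = 1 then (Fintype.card (ZMod L)ˣ : ℂ) else 0 := fun u => by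
    have := DirichletCharacter.sum_char_inv_mul_char_eq ℂ u.isUnit (1 : ZMod L)
    simp only [Units.val_eq_one, map_one, mul_one] at this
    rw [ZMod.card_units_eq_totient]
    convert this using 2 with θ
    rw [ZMod.inv_coe_unit, ← MulChar.coe_toUnitHom, ← MulChar.coe_toUnitHom, map_inv,
      Units.val_inv_eq_inv_val]
  simp only [chiPart, ← Finset.smul_sum]
  rw [Finset.sum_comm]
  simp only [← Finset.sum_smul, h, ite_smul, zero_smul, Finset.sum_ite_eq', Finset.mem_univ,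
    if_true, diamond_of_mem ℂ (one_mem K)]
  rw [inv_smul_smul₀]
  exact Nat.cast_ne_zero.2 Fintype.card_ne_zero

theorem diamond_chiPart (θ : DirichletCharacter ℂ L) (φ : Additive (gammaH L K) →+ ℂ)
    (w : (ZMod L)ˣ) : diamond L K ℂ w (chiPart θ φ) = θ w • chiPart θ φ := by
  rw [chiPart, map_smul, map_sum, smul_comm (θ w)]
  congr 1
  rw [Finset.smul_sum]
  refine Fintype.sum_bijective (fun u => w * u) (Group.mulLeft_bijective w) _ _ fun u => ?_
  rw [map_smul, ← diamond_mul, Units.val_mul, map_mul, smul_smul, mul_inv, ← mul_assoc,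
    mul_inv_cancel₀ (w.isUnit.map θ).ne_zero, one_mul]

theorem chiForms_of_diamond {χ' : (ZMod L)ˣ →* ℂˣ} {f g : FormH L K}
    (h : ∀ u, diamond L K ℂ u (per f + conjHom (per g)) =
      (χ' u : ℂ) • (per f + conjHom (per g))) :
    IsChiForm χ' f ∧ IsChiForm ((Units.map (starRingEnd ℂ).toMonoidHom).comp χ') g := by
  have key : ∀ u, per (diaForm u f - (χ' u : ℂ) • f) +
      conjHom (per (diaForm u g - conj (χ' u : ℂ) • g)) = 0 := fun u => by
    have h' := h u
    rw [map_add, diamond_conjHom, ← per_diaForm, ← per_diaForm] at h'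
    refine AddMonoidHom.ext fun x => ?_
    have hx := DFunLike.congr_fun h' x
    simp only [per_sub, per_smul, AddMonoidHom.add_apply, AddMonoidHom.sub_apply, conjHom_apply,
      AddMonoidHom.smul_apply, AddMonoidHom.zero_apply, smul_eq_mul, map_sub, map_mul,
      Complex.conj_conj] at hx ⊢
    linear_combination hx
  have h2 := fun u => Periods.Congruence.per_add_conj_injective Gamma_le_gammaH
    (fun γ => DFunLike.congr_fun (key u) (Additive.ofMul γ))
  exact ⟨fun u => sub_eq_zero.1 (h2 u).1, fun u => sub_eq_zero.1 (h2 u).2⟩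

/-- **`T_ℓ` is semisimple on parabolic homomorphisms.** -/
theorem hecke_semisimple (hL : Squarefree L) (hneg : -1 ∈ K)
    (hodd : Odd (Nat.card ((ZMod L)ˣ ⧸ K))) {ℓ : ℕ} [Fact ℓ.Prime] (hℓ : ¬ ℓ ∣ L) (c : ℂ)
    {φ : Additive (gammaH L K) →+ ℂ} (hφ : φ ∈ parabolicHoms ℂ (gammaH L K) ℂ)
    (h : hecke L K ℓ ℂ (hecke L K ℓ ℂ φ) - (2 * c) • hecke L K ℓ ℂ φ + c ^ 2 • φ = 0) :
    hecke L K ℓ ℂ φ = c • φ := by
  classical
  suffices hpart : ∀ θ : DirichletCharacter ℂ L,
      hecke L K ℓ ℂ (chiPart θ φ) = c • chiPart θ φ by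
    rw [← sum_chiPart φ, map_sum, Finset.smul_sum]
    exact Finset.sum_congr rfl fun θ _ => hpart θ
  intro θ
  have hcomm : ∀ ψ, hecke L K ℓ ℂ (chiPart θ ψ) = chiPart θ (hecke L K ℓ ℂ ψ) := fun ψ => by
    simp only [chiPart, map_smul, map_sum, hecke_diamond]
  have hadd : chiPart θ (hecke L K ℓ ℂ (hecke L K ℓ ℂ φ) - (2 * c) • hecke L K ℓ ℂ φ +
      c ^ 2 • φ) = hecke L K ℓ ℂ (hecke L K ℓ ℂ (chiPart θ φ))
        - (2 * c) • hecke L K ℓ ℂ (chiPart θ φ) + c ^ 2 • chiPart θ φ := by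
    rw [hcomm, hcomm]
    simp only [chiPart, map_add, map_sub, map_smul, smul_add, smul_sub, Finset.sum_add_distrib,
      Finset.sum_sub_distrib, smul_comm (_⁻¹ : ℂ) (2 * c), smul_comm (_⁻¹ : ℂ) (c ^ 2),
      ← Finset.smul_sum]
  rw [h] at hadd
  have hzero : chiPart θ (0 : Additive (gammaH L K) →+ ℂ) = 0 := by simp [chiPart]
  rw [hzero] at hadd
  set ψ := chiPart θ φ with hψ
  by_cases hne : ψ = 0
  · rw [hne, map_zero, smul_zero]
  set χ' : (ZMod L)ˣ →* ℂˣ := θ.toUnitHom with hχ'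
  have hcoe : ∀ u, (χ' u : ℂ) = θ u := fun u => by simp [hχ']
  have hdia : ∀ u, diamond L K ℂ u ψ = (χ' u : ℂ) • ψ := fun u => by
    rw [hcoe, hψ, diamond_chiPart]
  have hK : ∀ u ∈ K, χ' u = 1 := fun u hu => by
    have := (diamond_of_mem ℂ hu ψ).symm.trans (hdia u)
    refine Units.ext ((smul_left_injective ℂ hne ?_).symm)
    rw [Units.val_one]
    simpa using this
  have hψmem : ψ ∈ parabolicHoms ℂ (gammaH L K) ℂ := by
    refine Submodule.smul_mem _ _ (Submodule.sum_mem _ fun u _ => Submodule.smul_mem _ _ ?_)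
    obtain ⟨f, g, rfl⟩ := exists_per_add_conjHom hneg hφ
    rw [map_add, diamond_conjHom, ← per_diaForm, ← per_diaForm]
    exact add_mem (per_mem_parabolicHoms _) (conjHom_mem_parabolicHoms (per_mem_parabolicHoms _))
  obtain ⟨f, g, hfg⟩ := exists_per_add_conjHom hneg hψmem
  obtain ⟨hf, hg⟩ := chiForms_of_diamond (χ' := χ') (f := f) (g := g) (fun u => hfg ▸ hdia u)
  have hsplit : per (heckeForm ℓ (heckeForm ℓ f) - (2 * c) • heckeForm ℓ f + c ^ 2 • f) +
      conjHom (per (heckeForm ℓ (heckeForm ℓ g) - (2 * conj c) • heckeForm ℓ g +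
        conj c ^ 2 • g)) = 0 := by
    have hadd' := hadd.symm
    rw [hfg] at hadd'
    simp only [map_add, hecke_conjHom, ← per_heckeForm] at hadd'
    refine AddMonoidHom.ext fun x => ?_
    have hx := DFunLike.congr_fun hadd' x
    simp only [show ∀ a b : FormH L K, per (a + b) = per a + per b from
        fun a b => map_add (perLin Gamma_le_gammaH) a b, per_sub, per_smul,
      AddMonoidHom.add_apply, AddMonoidHom.sub_apply, conjHom_apply, AddMonoidHom.smul_apply,
      AddMonoidHom.zero_apply, smul_eq_mul, map_add, map_sub, map_mul, map_pow, map_ofNat,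
      Complex.conj_conj] at hx ⊢
    linear_combination hx
  obtain ⟨h1, h2⟩ := Periods.Congruence.per_add_conj_injective Gamma_le_gammaH
    (fun γ => DFunLike.congr_fun hsplit (Additive.ofMul γ))
  have e1 := heckeForm_eq_of_sq hL (toDir_pow_eq_one hK hodd) hℓ hf c h1
  have e2 := heckeForm_eq_of_sq hL
    (toDir_pow_eq_one (fun u hu => by simp [hK u hu]) hodd) hℓ hg (conj c) h2
  rw [hfg, map_add, hecke_conjHom, ← per_heckeForm, ← per_heckeForm, e1, e2, per_smul, per_smul,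
    conjHom_smul, Complex.conj_conj, smul_add]

end Fermat.Agent.RT.GammaH
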