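import Mathlib.Algebra.Module.Pi
import Fermat.Agent.Gamma0.Cocycle
import Fermat.Agent.RT.GammaH.Ops

/-!
# Fibre sums on coset spaces

For `Γ' ≤ Γ` of finite index, functions on `SL(2, ℤ) ⧸ Γ'` are summed over the fibres of the
projection to `SL(2, ℤ) ⧸ Γ`. A finite family `σ` of representatives of `Γ' \ Γ` normalising
`Γ'` acts on the fibres by right translation.
-/

set_option autoImplicit false

noncomputable section

namespace Fermat.Agent.RT.GammaH

open Matrix.SpecialLinearGroup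
open scoped MatrixGroups

variable {Γ' Γ : Subgroup SL(2, ℤ)} {ι : Type*} {σ : ι → SL(2, ℤ)} {A : Type*} [AddCommGroup A]

/-- `σ` is a system of representatives of `Γ' \ Γ` normalising `Γ'`. -/
structure IsCoreps (Γ' Γ : Subgroup SL(2, ℤ)) (σ : ι → SL(2, ℤ)) : Prop where
  le : Γ' ≤ Γ
  mem : ∀ i, σ i ∈ Γ
  conj : ∀ i, ∀ γ : SL(2, ℤ), γ ∈ Γ' ↔ σ i * γ * (σ i)⁻¹ ∈ Γ'
  inj : ∀ i j, σ i * (σ j)⁻¹ ∈ Γ' → i = j
  surj : ∀ g ∈ Γ, ∃ i, g * (σ i)⁻¹ ∈ Γ'

namespace IsCoreps

variable (h : IsCoreps Γ' Γ σ)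

include h in
theorem isReps : IsReps Γ' (img Γ) fun i => mapGL ℝ (σ i) where
  mem i := mapGL_mem_img.2 (h.mem i)
  inj i j hij := by
    rw [← map_inv, ← map_mul, mapGL_mem_img] at hij
    exact h.inj i j hij
  surj g hg := by
    obtain ⟨γ, rfl⟩ := exists_of_mem_img hg
    obtain ⟨i, hi⟩ := h.surj _ γ.2
    exact ⟨i, by rw [← map_inv, ← map_mul]; exact mapGL_mem_img.2 hi⟩

/-- The projection of coset spaces. -/
def proj : SL(2, ℤ) ⧸ Γ' → SL(2, ℤ) ⧸ Γ :=
  Quotient.map' id fun a b hab => by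
    rw [QuotientGroup.leftRel_apply] at hab ⊢
    exact h.le hab

theorem proj_mk (g : SL(2, ℤ)) : h.proj (g : SL(2, ℤ) ⧸ Γ') = (g : SL(2, ℤ) ⧸ Γ) := rfl

theorem proj_smul (g : SL(2, ℤ)) (y : SL(2, ℤ) ⧸ Γ') : h.proj (g • y) = g • h.proj y := by
  induction y using QuotientGroup.induction_on with | _ x => rfl

theorem proj_surjective : Function.Surjective h.proj := fun x => by
  induction x using QuotientGroup.induction_on with | _ g => exact ⟨g, rfl⟩

/-- Right translation by `(σ i)⁻¹`. -/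
def rightMul (i : ι) : SL(2, ℤ) ⧸ Γ' → SL(2, ℤ) ⧸ Γ' :=
  Quotient.map' (· * (σ i)⁻¹) fun a b hab => by
    rw [QuotientGroup.leftRel_apply] at hab ⊢
    have := (h.conj i _).1 hab
    simpa [mul_assoc] using this

theorem rightMul_mk (i : ι) (g : SL(2, ℤ)) :
    h.rightMul i (g : SL(2, ℤ) ⧸ Γ') = ((g * (σ i)⁻¹ : SL(2, ℤ)) : SL(2, ℤ) ⧸ Γ') := rfl

theorem rightMul_smul (i : ι) (g : SL(2, ℤ)) (y : SL(2, ℤ) ⧸ Γ') :
    h.rightMul i (g • y) = g • h.rightMul i y := by
  induction y using QuotientGroup.induction_on with | _ x => ?_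
  rw [MulAction.Quotient.smul_coe, h.rightMul_mk, h.rightMul_mk, MulAction.Quotient.smul_coe,
    smul_eq_mul, smul_eq_mul, mul_assoc]

theorem proj_rightMul (i : ι) (y : SL(2, ℤ) ⧸ Γ') : h.proj (h.rightMul i y) = h.proj y := by
  induction y using QuotientGroup.induction_on with | _ x => ?_
  rw [h.rightMul_mk, h.proj_mk, h.proj_mk, QuotientGroup.eq]
  simpa using h.mem i

theorem rightMul_injective (i : ι) : Function.Injective (h.rightMul i) := by
  intro y z
  induction y using QuotientGroup.induction_on with | _ a => ?_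
  induction z using QuotientGroup.induction_on with | _ b => ?_
  intro hab
  rw [h.rightMul_mk, h.rightMul_mk, QuotientGroup.eq] at hab
  rw [QuotientGroup.eq]
  refine (h.conj i _).2 ?_
  simpa [mul_assoc] using hab

/-- The translates of a point run exactly once through its fibre. -/
theorem existsUnique_rightMul {y z : SL(2, ℤ) ⧸ Γ'} (hyz : h.proj y = h.proj z) :
    ∃! i, h.rightMul i y = z := by
  induction y using QuotientGroup.induction_on with | _ a => ?_
  induction z using QuotientGroup.induction_on with | _ b => ?_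
  rw [h.proj_mk, h.proj_mk, QuotientGroup.eq] at hyz
  obtain ⟨i, hi⟩ := h.surj _ (inv_mem hyz)
  have hmem : ∀ j, h.rightMul j (a : SL(2, ℤ) ⧸ Γ') = b ↔ σ j * (a⁻¹ * b) ∈ Γ' := fun j => by
    rw [h.rightMul_mk, QuotientGroup.eq, mul_inv_rev, inv_inv, mul_assoc]
  have key : σ i * (a⁻¹ * b) ∈ Γ' := by simpa [mul_assoc] using inv_mem hi
  refine ⟨i, (hmem i).2 key, fun j hj => h.inj j i ?_⟩
  have := mul_mem ((hmem j).1 hj) (inv_mem key)
  simpa [mul_assoc] using this

/-- The coset of `1` and its translates: the fibre over the base point. -/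
theorem rightMul_one_eq (i : ι) :
    h.rightMul i (QuotientGroup.mk 1) = (((σ i)⁻¹ : SL(2, ℤ)) : SL(2, ℤ) ⧸ Γ') := by
  rw [h.rightMul_mk, one_mul]

variable [Fintype ι]

/-- The sum over a fibre. -/
def fibreSum (f : SL(2, ℤ) ⧸ Γ' → A) (x : SL(2, ℤ) ⧸ Γ) : A :=
  ∑ i, f (h.rightMul i (Function.surjInv h.proj_surjective x))

theorem fibreSum_eq {y : SL(2, ℤ) ⧸ Γ'} {x : SL(2, ℤ) ⧸ Γ} (hy : h.proj y = x)
    (f : SL(2, ℤ) ⧸ Γ' → A) : h.fibreSum f x = ∑ i, f (h.rightMul i y) := by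
  set y₀ := Function.surjInv h.proj_surjective x with hy₀
  have hp : h.proj y₀ = x := Function.surjInv_eq h.proj_surjective x
  have hfib : ∀ i, h.proj y = h.proj (h.rightMul i y₀) := fun i => by rw [h.proj_rightMul, hy, hp]
  choose e he hu using fun i => h.existsUnique_rightMul (hfib i)
  have hinj : Function.Injective e := fun i j hij => by
    have : h.rightMul i y₀ = h.rightMul j y₀ := by rw [← he i, ← he j, hij]
    exact (h.existsUnique_rightMul (y := y₀) (z := h.rightMul i y₀)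
      (h.proj_rightMul i y₀).symm).unique rfl this.symm
  refine Fintype.sum_bijective e (Finite.injective_iff_bijective.1 hinj) _ _ fun i => ?_
  rw [he]

theorem fibreSum_comp_smul (g : SL(2, ℤ)) (f : SL(2, ℤ) ⧸ Γ' → A) (x : SL(2, ℤ) ⧸ Γ) :
    h.fibreSum (fun y => f (g • y)) x = h.fibreSum f (g • x) := by
  obtain ⟨y, rfl⟩ := h.proj_surjective x
  rw [h.fibreSum_eq rfl, ← h.proj_smul, h.fibreSum_eq rfl]
  simp [h.rightMul_smul]

theorem fibreSum_add (f f' : SL(2, ℤ) ⧸ Γ' → A) (x : SL(2, ℤ) ⧸ Γ) :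
    h.fibreSum (f + f') x = h.fibreSum f x + h.fibreSum f' x := by
  simp [fibreSum, Finset.sum_add_distrib]

theorem fibreSum_sub (f f' : SL(2, ℤ) ⧸ Γ' → A) (x : SL(2, ℤ) ⧸ Γ) :
    h.fibreSum (f - f') x = h.fibreSum f x - h.fibreSum f' x := by
  simp [fibreSum, Finset.sum_sub_distrib]

theorem fibreSum_smul {R : Type*} [Semiring R] [Module R A] (c : R) (f : SL(2, ℤ) ⧸ Γ' → A)
    (x : SL(2, ℤ) ⧸ Γ) : h.fibreSum (c • f) x = c • h.fibreSum f x := by
  simp [fibreSum, Finset.smul_sum]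

/-- Every function on the base is a fibre sum. -/
theorem fibreSum_surjective (f₀ : SL(2, ℤ) ⧸ Γ → A) :
    ∃ f : SL(2, ℤ) ⧸ Γ' → A, ∀ x, h.fibreSum f x = f₀ x := by
  classical
  set s := Function.surjInv h.proj_surjective
  have hs : ∀ x, h.proj (s x) = x := Function.surjInv_eq h.proj_surjective
  refine ⟨fun y => if y = s (h.proj y) then f₀ (h.proj y) else 0, fun x => ?_⟩
  obtain ⟨i₀, hi₀, huniq⟩ := h.existsUnique_rightMul (y := s x) (z := s x) rfl
  rw [h.fibreSum_eq (hs x), Finset.sum_eq_single i₀]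
  · rw [hi₀, hs, if_pos rfl]
  · intro i _ hi
    simp only [h.proj_rightMul, hs]
    exact if_neg fun hc => hi (huniq i hc)
  · simp

/-- A function with vanishing fibre sums is a combination of translation differences. -/
theorem exists_eq_sum_rightMul {w : SL(2, ℤ) ⧸ Γ' → A} (hw : ∀ x, h.fibreSum w x = 0) :
    ∃ v : ι → SL(2, ℤ) ⧸ Γ' → A, ∀ y, w y = ∑ i, (v i (h.rightMul i y) - v i y) := by
  classical
  set s := Function.surjInv h.proj_surjective
  have hs : ∀ x, h.proj (s x) = x := Function.surjInv_eq h.proj_surjective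
  refine ⟨fun i z => if z = h.rightMul i (s (h.proj z)) then -w z else 0, fun y => ?_⟩
  obtain ⟨i₀, hi₀, huniq⟩ := h.existsUnique_rightMul (y := s (h.proj y)) (z := y) (hs _)
  rw [Finset.sum_sub_distrib]
  have h1 : ∑ i, (if h.rightMul i y = h.rightMul i (s (h.proj (h.rightMul i y))) then
      -w (h.rightMul i y) else 0) = 0 := by
    simp only [h.proj_rightMul, (h.rightMul_injective _).eq_iff]
    split_ifs
    · rw [Finset.sum_neg_distrib, ← h.fibreSum_eq (x := h.proj y) rfl, hw, neg_zero]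
    · simp
  rw [h1, Finset.sum_eq_single i₀]
  · simp only [if_pos hi₀.symm, zero_sub, neg_neg]
  · exact fun i _ hi => if_neg fun hc => hi (huniq i hc.symm)
  · simp

end IsCoreps

end Fermat.Agent.RT.GammaH
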