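import Mathlib.Algebra.Group.Units.Basic
import Mathlib.Algebra.Module.LinearMap.Basic
import Fermat.Agent.RT.GammaH.Fibre

/-!
# Corestriction for a normal subgroup

For `Γ' ≤ Γ`, corestriction `Hom(Γ', A) → Hom(Γ, A)` in terms of cocycles on the generators `S`,
`Gamma0.ST`; surjectivity and kernel are in `RT.GammaH.Weight` and `RT.Lift.LowerSq.FreeCores`.
-/

set_option autoImplicit false

noncomputable section

namespace Fermat.Agent.RT.GammaH

open Matrix.SpecialLinearGroup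
open scoped MatrixGroups

variable {Γ' Γ : Subgroup SL(2, ℤ)} {ι : Type*} {σ : ι → SL(2, ℤ)} {A : Type*} [AddCommGroup A]
  {R : Type*} [Semiring R] [Module R A]

variable (R) in
/-- Restriction. -/
def res (hle : Γ' ≤ Γ) : (Additive Γ →+ A) →ₗ[R] (Additive Γ' →+ A) where
  toFun φ := φ.comp (Subgroup.inclusion hle).toAdditive
  map_add' _ _ := rfl
  map_smul' _ _ := rfl

theorem res_apply (hle : Γ' ≤ Γ) (φ : Additive Γ →+ A) (γ : Γ') :
    res R hle φ (Additive.ofMul γ) = φ (Additive.ofMul (Subgroup.inclusion hle γ)) := rfl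

theorem admissible_res (hle : Γ' ≤ Γ) : Admissible Γ Γ' fun _ : Unit => (1 : GLR) := fun γ =>
  ⟨id, Function.bijective_id, fun _ => by simpa using mapGL_mem_img.2 (hle γ.2)⟩

theorem res_eq_opOf (hle : Γ' ≤ Γ) : res (A := A) R hle = opOf (admissible_res hle) R :=
  opOf_ext fun φ γ => by
    rw [opOf_apply_of_isPerm _ _ _ (σ := id)
      ⟨Function.bijective_id, fun _ => by simpa using mapGL_mem_img.2 (hle γ.2)⟩, res_apply]
    simp only [Finset.univ_unique, Finset.sum_singleton, one_mul, inv_one, mul_one]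
    exact (onImg_mapGL φ (Subgroup.inclusion hle γ)).symm

theorem admissible_conj {s : SL(2, ℤ)} (hs : ∀ γ ∈ Γ', s * γ * s⁻¹ ∈ Γ') :
    Admissible Γ' Γ' fun _ : Unit => mapGL ℝ s := fun γ =>
  ⟨id, Function.bijective_id, fun _ => by
    simp only [← map_inv, ← map_mul]
    exact mapGL_mem_img.2 (hs _ γ.2)⟩

theorem opOf_conj_apply {s : SL(2, ℤ)} (hs : ∀ γ ∈ Γ', s * γ * s⁻¹ ∈ Γ')
    (φ : Additive Γ' →+ A) (γ : Γ') :
    opOf (admissible_conj hs) R φ (Additive.ofMul γ) =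
      φ (Additive.ofMul ⟨s * γ * s⁻¹, hs _ γ.2⟩) := by
  rw [opOf_apply_of_isPerm _ _ _ (σ := id) ⟨Function.bijective_id, fun _ => by
    simp only [← map_inv, ← map_mul]
    exact mapGL_mem_img.2 (hs _ γ.2)⟩]
  simp only [Finset.univ_unique, Finset.sum_singleton, ← map_inv, ← map_mul]
  exact onImg_mapGL φ ⟨_, hs _ γ.2⟩

namespace IsCoreps

variable (h : IsCoreps Γ' Γ σ)

include h in
theorem conj_mem (i : ι) : ∀ γ ∈ Γ', σ i * γ * (σ i)⁻¹ ∈ Γ' := fun γ hγ => (h.conj i γ).1 hγ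

variable (R) in
/-- The action of `σ i` by conjugation. -/
def conjOp (i : ι) : Module.End R (Additive Γ' →+ A) := opOf (admissible_conj (h.conj_mem i)) R

theorem conjOp_apply (i : ι) (φ : Additive Γ' →+ A) (γ : Γ') :
    h.conjOp R i φ (Additive.ofMul γ) = φ (Additive.ofMul ⟨_, h.conj_mem i _ γ.2⟩) :=
  opOf_conj_apply _ φ γ

variable [Fintype ι]

include h in
theorem admissible : Admissible Γ' Γ fun i => mapGL ℝ (σ i) :=
  h.isReps.admissible fun _ hg γ => mul_mem hg (mapGL_mem_img.2 γ.2)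

variable (R) in
/-- Corestriction. -/
def cores : (Additive Γ' →+ A) →ₗ[R] (Additive Γ →+ A) := opOf h.admissible R

theorem res_cores (φ : Additive Γ' →+ A) :
    res R h.le (h.cores R φ) = ∑ i, h.conjOp R i φ := by
  refine AddMonoidHom.ext fun x => ?_
  obtain ⟨γ, rfl⟩ := Additive.ofMul.surjective x
  have hperm : IsPerm Γ' (fun i => (mapGL ℝ (σ i) : GLR))
      (mapGL ℝ ((Subgroup.inclusion h.le γ : Γ) : SL(2, ℤ))) id :=
    ⟨Function.bijective_id, fun i => by
      simp only [id, Subgroup.coe_inclusion, ← map_inv, ← map_mul]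
      exact mapGL_mem_img.2 (h.conj_mem i _ γ.2)⟩
  rw [res_apply, cores, opOf_apply_of_isPerm _ _ _ hperm, AddMonoidHom.finsetSum_apply]
  refine Finset.sum_congr rfl fun i _ => ?_
  rw [h.conjOp_apply, ← onImg_mapGL φ]
  simp

section Cocycle

open Gamma0

variable {c : SL(2, ℤ) → SL(2, ℤ) ⧸ Γ' → A}

theorem isCocycle_fibreSum (hc : IsCocycle c) :
    IsCocycle fun g x => h.fibreSum (c g) x := by
  intro a b x
  show h.fibreSum (c (a * b)) x = _
  rw [show c (a * b) = (fun y => c a (b • y)) + c b from funext fun y => hc a b y, h.fibreSum_add,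
    h.fibreSum_comp_smul b]

theorem cores_toHom (hc : IsCocycle c) :
    h.cores R hc.toHom = (h.isCocycle_fibreSum hc).toHom := by
  refine AddMonoidHom.ext fun x => ?_
  obtain ⟨γ, rfl⟩ := Additive.ofMul.surjective x
  obtain ⟨τ, hτ⟩ := h.admissible γ
  rw [cores, opOf_apply_of_isPerm _ _ _ hτ, IsCocycle.toHom_apply]
  choose d hd using fun i => exists_of_mem_img (hτ.2 i)
  have hval : ∀ i, (d i : SL(2, ℤ)) = σ i * γ * (σ (τ i))⁻¹ := fun i =>
    Periods.mapGL_int_injective (by rw [hd, map_mul, map_mul, map_inv])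
  set y : ι → SL(2, ℤ) ⧸ Γ' := fun i => (((σ i)⁻¹ : SL(2, ℤ)) : SL(2, ℤ) ⧸ Γ')
  have hy : ∀ i, σ i • y i = QuotientGroup.mk 1 := fun i => by
    simp [y]
  have hγy : ∀ i, (γ : SL(2, ℤ)) • y (τ i) = y i := fun i => by
    rw [MulAction.Quotient.smul_coe, smul_eq_mul, QuotientGroup.eq]
    have := inv_mem (d i).2
    rw [hval] at this
    simpa [mul_assoc] using this
  have hσy : ∀ i, (σ i)⁻¹ • (QuotientGroup.mk 1 : SL(2, ℤ) ⧸ Γ') = y i := fun i => by
    simp [y]
  have key : ∀ i, hc.toHom (Additive.ofMul (d i)) =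
      c (σ i) (y i) + c (γ : SL(2, ℤ)) (y (τ i)) - c (σ (τ i)) (y (τ i)) := fun i => by
    rw [IsCocycle.toHom_apply, hval, hc, hc, hc.map_inv, hσy, hγy, sub_eq_add_neg]
  simp only [← hd, onImg_mapGL, key, Finset.sum_sub_distrib, Finset.sum_add_distrib,
    hτ.1.sum_comp fun i => c (σ i) (y i), add_sub_cancel_left,
    hτ.1.sum_comp fun i => c (γ : SL(2, ℤ)) (y i)]
  rw [h.fibreSum_eq (y := QuotientGroup.mk 1) (h.proj_mk 1)]
  simp only [h.rightMul_one_eq]
  rfl

omit [Fintype ι] in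
theorem isCocycle_rightMul (hc : IsCocycle c) (i : ι) :
    IsCocycle fun g y => c g (h.rightMul i y) := by
  intro a b x
  show c (a * b) _ = c a _ + c b _
  rw [hc, h.rightMul_smul]

omit [Fintype ι] in
theorem conjOp_toHom (hc : IsCocycle c) (i : ι) :
    h.conjOp R i hc.toHom = (h.isCocycle_rightMul hc i).toHom := by
  refine AddMonoidHom.ext fun x => ?_
  obtain ⟨γ, rfl⟩ := Additive.ofMul.surjective x
  rw [h.conjOp_apply, IsCocycle.toHom_apply, IsCocycle.toHom_apply, h.rightMul_one_eq, hc, hc,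
    hc.map_inv]
  have h1 : (σ i)⁻¹ • (QuotientGroup.mk 1 : SL(2, ℤ) ⧸ Γ') = (((σ i)⁻¹ : SL(2, ℤ)) : SL(2, ℤ) ⧸ Γ') := by
    simp
  have h2 : (γ : SL(2, ℤ)) • (((σ i)⁻¹ : SL(2, ℤ)) : SL(2, ℤ) ⧸ Γ') =
      (((σ i)⁻¹ : SL(2, ℤ)) : SL(2, ℤ) ⧸ Γ') := by
    rw [MulAction.Quotient.smul_coe, smul_eq_mul, QuotientGroup.eq]
    simpa [mul_assoc] using h.conj_mem i _ (inv_mem γ.2)
  rw [h1, h2]
  abel

end Cocycle

section Invertible

open Gamma0

variable (h2 : IsUnit (2 : R))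

include h2 in
omit h [Fintype ι] in
theorem apply_neg_one (hneg : -1 ∈ Γ) (φ : Additive Γ →+ A) :
    φ (Additive.ofMul ⟨-1, hneg⟩) = 0 := by
  set a := φ (Additive.ofMul ⟨-1, hneg⟩) with ha
  have h0 : a + a = 0 := by
    rw [ha, ← map_add, ← ofMul_mul]
    convert map_zero φ
    refine congrArg Additive.ofMul (Subtype.ext ?_)
    simp
  obtain ⟨u, hu⟩ := h2
  have : (2 : R) • a = 0 := by rw [← one_add_one_eq_two, add_smul, one_smul, h0]
  rw [← hu, ← Units.smul_def] at this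
  exact (smul_eq_zero_iff_eq u).1 this

variable (R) in
/-- The symmetrisation making `u` satisfy the relation of `S`. -/
def projS (u : R) (w : SL(2, ℤ) ⧸ Γ' → A) : SL(2, ℤ) ⧸ Γ' → A :=
  u • (w - fun y => w (ModularGroup.S • y))

variable (R) in
/-- The symmetrisation making `v` satisfy the relation of `Gamma0.ST`. -/
def projR (u : R) (w : SL(2, ℤ) ⧸ Γ' → A) : SL(2, ℤ) ⧸ Γ' → A :=
  u • ((w - fun y => w (Gamma0.ST • y)) + (w - fun y => w (Gamma0.ST • Gamma0.ST • y)))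

omit [Fintype ι] h in
theorem isRelPair_proj (hneg : -1 ∈ Γ') (a b : R) (w w' : SL(2, ℤ) ⧸ Γ' → A) :
    IsRelPair (projS R a w) (projR R b w') := by
  have hSS : ∀ x : SL(2, ℤ) ⧸ Γ', ModularGroup.S • ModularGroup.S • x = x := fun x => by
    rw [← mul_smul, S_mul_S, neg_one_smul_coset hneg]
  have hRRR : ∀ x : SL(2, ℤ) ⧸ Γ', Gamma0.ST • Gamma0.ST • Gamma0.ST • x = x := fun x => by
    rw [← mul_smul, ← mul_smul, ← pow_two, ← pow_succ, ST_pow_three, neg_one_smul_coset hneg]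
  refine ⟨fun x => ?_, fun x => ?_⟩
  · simp only [projS, Pi.smul_apply, Pi.sub_apply, hSS, ← smul_add]
    rw [show w x - w (ModularGroup.S • x) + (w (ModularGroup.S • x) - w x) = 0 by abel, smul_zero]
  · simp only [projR, Pi.smul_apply, Pi.sub_apply, Pi.add_apply, hRRR, ← smul_add]
    rw [show w' x - w' (Gamma0.ST • x) + (w' x - w' (Gamma0.ST • Gamma0.ST • x)) +
        (w' (Gamma0.ST • x) - w' (Gamma0.ST • Gamma0.ST • x) + (w' (Gamma0.ST • x) - w' x)) +
        (w' (Gamma0.ST • Gamma0.ST • x) - w' x + (w' (Gamma0.ST • Gamma0.ST • x) - w' (Gamma0.ST • x))) = 0 by abel, smul_zero]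

end Invertible

end IsCoreps

end Fermat.Agent.RT.GammaH
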