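import Mathlib.Algebra.MvPolynomial.CommRing
import Mathlib.RingTheory.Adjoin.Basic
import Mathlib.LinearAlgebra.FreeModule.PID
import Mathlib.RingTheory.Finiteness.Finsupp
import Fermat.Agent.RT.GammaH.LevelOps

/-!
# The polynomial Hecke algebra acting on `Hom(Γ_H, A)`

`OpRing O M S` is the polynomial ring on diamond symbols and on `T_ℓ`, `ℓ ∉ S` prime.
`HomMod O S K A` is `Hom(Γ_H, A)` as a module over it, natural in the `O`-module `A`.
-/

set_option autoImplicit false

noncomputable section

namespace Fermat.Agent.RT.GammaH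

open CongruenceSubgroup MvPolynomial
open scoped MatrixGroups

variable (O : Type) [CommRing O] (M : ℕ) (S : Finset ℕ)

/-- The index set of the generators. -/
abbrev OpIdx : Type := (ZMod M)ˣ ⊕ {ℓ : ℕ // ℓ.Prime ∧ ℓ ∉ S}

/-- The polynomial algebra of operators. -/
abbrev OpRing : Type := MvPolynomial (OpIdx M S) O

variable {M}

/-- `Hom(Γ_H, A)`, to carry the action of `OpRing O M S`. -/
@[nolint unusedArguments]
def HomMod (_O : Type) (_S : Finset ℕ) (K : Subgroup (ZMod M)ˣ) (A : Type) [AddCommGroup A] : Type :=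
  Additive (gammaH M K) →+ A

variable (K : Subgroup (ZMod M)ˣ) (A : Type) [AddCommGroup A]

instance : AddCommGroup (HomMod O S K A) :=
  inferInstanceAs (AddCommGroup (Additive (gammaH M K) →+ A))

instance : FunLike (HomMod O S K A) (Additive (gammaH M K)) A :=
  inferInstanceAs (FunLike (Additive (gammaH M K) →+ A) (Additive (gammaH M K)) A)

instance : AddMonoidHomClass (HomMod O S K A) (Additive (gammaH M K)) A :=
  inferInstanceAs (AddMonoidHomClass (Additive (gammaH M K) →+ A) (Additive (gammaH M K)) A)

variable [Module O A]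

instance : Module O (HomMod O S K A) :=
  inferInstanceAs (Module O (Additive (gammaH M K) →+ A))

variable {O S K A}

/-- The identification with plain homomorphisms. -/
def toHomMod : (Additive (gammaH M K) →+ A) ≃ₗ[O] HomMod O S K A := LinearEquiv.refl O _

variable (O S K A)

/-- The operators attached to the symbols. -/
def genOp : OpIdx M S → Module.End O (HomMod O S K A)
  | Sum.inl u => diamond M K O u
  | Sum.inr ℓ => haveI : Fact ℓ.1.Prime := ⟨ℓ.2.1⟩; hecke M K ℓ.1 O

theorem genOp_comm (i j : OpIdx M S) :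
    genOp O S K A i * genOp O S K A j = genOp O S K A j * genOp O S K A i := by
  refine LinearMap.ext fun φ => ?_
  simp only [Module.End.mul_apply]
  rcases i with u | ℓ <;> rcases j with v | l
  · exact ((diamond_mul O u v φ).symm.trans (by rw [mul_comm])).trans (diamond_mul O v u φ)
  · have : Fact l.1.Prime := ⟨l.2.1⟩
    exact (hecke_diamond O u φ).symm
  · have : Fact ℓ.1.Prime := ⟨ℓ.2.1⟩
    exact hecke_diamond O v φ
  · have : Fact ℓ.1.Prime := ⟨ℓ.2.1⟩
    have : Fact l.1.Prime := ⟨l.2.1⟩
    exact hecke_comm (n := l.1) O ℓ.1 φ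

/-- The representation of the polynomial algebra. -/
def opAct : OpRing O M S →ₐ[O] Module.End O (HomMod O S K A) :=
  letI : CommRing (Algebra.adjoin O (Set.range (genOp O S K A))) :=
    { (Algebra.adjoin O (Set.range (genOp O S K A))).toRing with
      mul_comm := (Algebra.isMulCommutative_adjoin O (by
        rintro _ ⟨i, rfl⟩ _ ⟨j, rfl⟩
        exact genOp_comm O S K A i j)).is_comm.comm }
  (Algebra.adjoin O (Set.range (genOp O S K A))).val.comp
    (aeval fun i => (⟨_, Algebra.subset_adjoin ⟨i, rfl⟩⟩ :
      Algebra.adjoin O (Set.range (genOp O S K A))))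

theorem opAct_X (i : OpIdx M S) : opAct O S K A (X i) = genOp O S K A i := by
  simp [opAct]

instance : Module (OpRing O M S) (HomMod O S K A) :=
  Module.compHom _ (opAct O S K A).toRingHom

theorem smul_eq_opAct (a : OpRing O M S) (φ : HomMod O S K A) : a • φ = opAct O S K A a φ := rfl

instance : IsScalarTower O (OpRing O M S) (HomMod O S K A) :=
  ⟨fun c a φ => by rw [smul_eq_opAct, smul_eq_opAct, map_smul, LinearMap.smul_apply]⟩

variable {O S K A}

theorem X_inl_smul (u : (ZMod M)ˣ) (φ : HomMod O S K A) :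
    (X (Sum.inl u) : OpRing O M S) • φ = diamond M K O u φ := by
  rw [smul_eq_opAct, opAct_X]
  rfl

theorem X_inr_smul (ℓ : {ℓ : ℕ // ℓ.Prime ∧ ℓ ∉ S}) [Fact ℓ.1.Prime] (φ : HomMod O S K A) :
    (X (Sum.inr ℓ) : OpRing O M S) • φ = hecke M K ℓ.1 O φ := by
  rw [smul_eq_opAct, opAct_X]
  rfl

variable {X' Y' : Type*} [AddCommGroup X'] [AddCommGroup Y'] [Module O X'] [Module O Y']
  [Module (OpRing O M S) X'] [Module (OpRing O M S) Y'] [IsScalarTower O (OpRing O M S) X']
  [IsScalarTower O (OpRing O M S) Y']

/-- An `O`-linear map commuting with the generators is linear over the polynomial algebra. -/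
def upgrade (f : X' →ₗ[O] Y')
    (h : ∀ (i : OpIdx M S) (x : X'), f ((X i : OpRing O M S) • x) = (X i : OpRing O M S) • f x) :
    X' →ₗ[OpRing O M S] Y' where
  toFun := f
  map_add' := f.map_add
  map_smul' a x := by
    rw [RingHom.id_apply]
    induction a using MvPolynomial.induction_on generalizing x with
    | C c => rw [← algebraMap_eq, algebraMap_smul, algebraMap_smul, f.map_smul]
    | add a b ha hb => rw [add_smul, add_smul, f.map_add, ha, hb]
    | mul_X a i ha => rw [mul_smul, mul_smul, ha, h]

/-- Change of coefficients. -/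
def mapCoeff {B : Type} [AddCommGroup B] [Module O B] (f : A →ₗ[O] B) :
    HomMod O S K A →ₗ[OpRing O M S] HomMod O S K B :=
  upgrade
    { toFun := fun φ => f.toAddMonoidHom.comp φ
      map_add' := fun φ ψ => AddMonoidHom.ext fun γ => f.map_add _ _
      map_smul' := fun c φ => AddMonoidHom.ext fun γ => f.map_smul c _ }
    fun i φ => by
      rcases i with u | ℓ
      · rw [X_inl_smul, X_inl_smul]
        exact (opOf_comp_coeff (R := O) (S := O) (admissible_diaRep u) f.toAddMonoidHom φ).symm
      · have : Fact ℓ.1.Prime := ⟨ℓ.2.1⟩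
        rw [X_inr_smul, X_inr_smul]
        exact (opOf_comp_coeff (R := O) (S := O) admissible_hRep f.toAddMonoidHom φ).symm

variable [NeZero M]

theorem exists_coords : ∃ (n : ℕ) (γ : Fin n → Additive (gammaH M K)),
    ∀ (B : Type) [AddCommGroup B] (φ ψ : Additive (gammaH M K) →+ B),
      (∀ i, φ (γ i) = ψ (γ i)) → φ = ψ := by
  have : Group.FG SL(2, ℤ) := Group.fg_iff.2
    ⟨{ModularGroup.S, Gamma0.ST}, Gamma0.closure_S_ST, Set.toFinite _⟩
  have h1 : Group.FG (gammaH M K) := Subgroup.fg_of_index_ne_zero _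
  have h2 : AddGroup.FG (Additive (gammaH M K)) := GroupFG.iff_add_fg.1 h1
  obtain ⟨s, hs⟩ := h2.out
  refine ⟨_, fun i => (s.equivFin.symm i).1, fun B _ φ ψ h => ?_⟩
  refine AddMonoidHom.eq_of_eqOn_dense hs fun x hx => ?_
  simpa using h (s.equivFin ⟨x, hx⟩)

section Finite

variable [IsNoetherianRing O] [Module.Finite O A]

instance instFiniteHomMod : Module.Finite O (HomMod O S K A) := by
  obtain ⟨n, γ, hγ⟩ := exists_coords (K := K)
  let ev : HomMod O S K A →ₗ[O] (Fin n → A) :=
    { toFun := fun φ i => (φ : Additive (gammaH M K) →+ A) (γ i)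
      map_add' := fun _ _ => rfl
      map_smul' := fun _ _ => rfl }
  exact Module.Finite.of_injective ev fun φ ψ h => hγ A φ ψ (congrFun h)

end Finite

instance instFreeHomMod [IsDomain O] [IsPrincipalIdealRing O] : Module.Free O (HomMod O S K O) := by
  have : Module.IsTorsionFree O (HomMod O S K O) := by
    obtain ⟨n, γ, hγ⟩ := exists_coords (K := K)
    let ev : HomMod O S K O →ₗ[O] (Fin n → O) :=
      { toFun := fun φ i => (φ : Additive (gammaH M K) →+ O) (γ i)
        map_add' := fun _ _ => rfl
        map_smul' := fun _ _ => rfl }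
    exact Function.Injective.moduleIsTorsionFree ev (fun φ ψ h => hγ O φ ψ (congrFun h))
      fun c x => map_smul ev c x
  exact Module.free_of_finite_type_torsion_free'

end Fermat.Agent.RT.GammaH
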