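import Fermat.Agent.RT.GammaH.Action
import Fermat.Agent.RT.Lift.LowerSq.FreeCores
import Fermat.Agent.Gamma0.Coset

/-!
# Lifting and corestriction with weights along the orbits of `ST`

`3` need not be invertible: weights with sum one along the orbits of `ST` suffice. They exist
when `3` is invertible and when a prime `r = 2` modulo `3` divides the level.
-/

set_option autoImplicit false

noncomputable section

namespace Fermat.Agent.RT.GammaH

open Matrix.SpecialLinearGroup Gamma0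
open Fermat.Agent.RT.Lift.LowerSq (IsSTWeight isSTWeight_const exists_weight_of_free)
open scoped MatrixGroups

section Generic

variable {Γ' Γ : Subgroup SL(2, ℤ)} {A : Type*} [AddCommGroup A] {R : Type*} [CommRing R]
  [Module R A]

/-- The symmetrisation making `w` satisfy the relation of `ST`, by weights. -/
def projW (wt : SL(2, ℤ) ⧸ Γ → R) (w : SL(2, ℤ) ⧸ Γ → A) : SL(2, ℤ) ⧸ Γ → A :=
  fun x => w x - wt x • (w x + w (Gamma0.ST • x) + w (Gamma0.ST • Gamma0.ST • x))

theorem projW_rel {wt : SL(2, ℤ) ⧸ Γ → R} (hwt : IsSTWeight Γ wt) (hneg : -1 ∈ Γ)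
    (w : SL(2, ℤ) ⧸ Γ → A) (x : SL(2, ℤ) ⧸ Γ) :
    projW wt w x + projW wt w (Gamma0.ST • x) + projW wt w (Gamma0.ST • Gamma0.ST • x) = 0 := by
  have h3 : ∀ y : SL(2, ℤ) ⧸ Γ, Gamma0.ST • Gamma0.ST • Gamma0.ST • y = y := fun y => by
    rw [← mul_smul, ← mul_smul, ← pow_two, ← pow_succ, ST_pow_three, neg_one_smul_coset hneg]
  set s := w x + w (Gamma0.ST • x) + w (Gamma0.ST • Gamma0.ST • x) with hs
  have e : wt x • s + wt (Gamma0.ST • x) • s + wt (Gamma0.ST • Gamma0.ST • x) • s = s := by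
    rw [← add_smul, ← add_smul, hwt x, one_smul]
  simp only [projW, h3]
  rw [show w (Gamma0.ST • x) + w (Gamma0.ST • Gamma0.ST • x) + w x = s by rw [hs]; abel,
    show w (Gamma0.ST • Gamma0.ST • x) + w x + w (Gamma0.ST • x) = s by rw [hs]; abel, ← hs]
  calc w x - wt x • s + (w (Gamma0.ST • x) - wt (Gamma0.ST • x) • s) +
      (w (Gamma0.ST • Gamma0.ST • x) - wt (Gamma0.ST • Gamma0.ST • x) • s)
      = s - (wt x • s + wt (Gamma0.ST • x) • s + wt (Gamma0.ST • Gamma0.ST • x) • s) := by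
        rw [hs]; abel
    _ = 0 := by rw [e, sub_self]

omit [AddCommGroup A] [Module R A] in
theorem exists_half (h2 : IsUnit (2 : R)) :
    ∃ a : R, ∀ (B : Type _) [AddCommGroup B] [Module R B] (x : B), a • (x + x) = x := by
  obtain ⟨u, hu⟩ := h2
  exact ⟨(u⁻¹ : Rˣ), fun B _ _ x => by
    rw [← two_nsmul, ← Nat.cast_smul_eq_nsmul R, Nat.cast_ofNat, ← hu, ← Units.smul_def,
      ← Units.smul_def, inv_smul_smul]⟩

variable {ι : Type*} [Fintype ι] {σ : ι → SL(2, ℤ)} (h : IsCoreps Γ' Γ σ)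

include h in
theorem cores_surjective_of_weight (h2 : IsUnit (2 : R)) {wt : SL(2, ℤ) ⧸ Γ → R}
    (hwt : IsSTWeight Γ wt) (hneg : -1 ∈ Γ') : Function.Surjective (h.cores (A := A) R) := by
  intro φ
  obtain ⟨c₀, hc₀, ⟨hu, hv⟩, rfl⟩ :=
    exists_cocycle_toHom (h.le hneg) φ (IsCoreps.apply_neg_one h2 (h.le hneg) φ)
  obtain ⟨a, ha⟩ := exists_half h2
  obtain ⟨w, hw⟩ := h.fibreSum_surjective (c₀ ModularGroup.S)
  obtain ⟨w', hw'⟩ := h.fibreSum_surjective (c₀ Gamma0.ST)
  have hwt' : IsSTWeight Γ' (wt ∘ h.proj) := fun y => by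
    simp only [Function.comp_apply, h.proj_smul]
    exact hwt _
  have hrp : IsRelPair (IsCoreps.projS R a w) (projW (wt ∘ h.proj) w') :=
    ⟨(IsCoreps.isRelPair_proj hneg a a w w).1, projW_rel hwt' hneg w'⟩
  obtain ⟨c, hc, hcS, hcR⟩ := exists_cocycle hneg hrp
  refine ⟨hc.toHom, ?_⟩
  rw [h.cores_toHom hc]
  congr 1
  refine (h.isCocycle_fibreSum hc).ext_of_eq hc₀ (funext fun x => ?_) (funext fun x => ?_)
  · rw [hcS, IsCoreps.projS, h.fibreSum_smul, h.fibreSum_sub, h.fibreSum_comp_smul, hw, hw,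
      show c₀ ModularGroup.S (ModularGroup.S • x) = -c₀ ModularGroup.S x from
      eq_neg_of_add_eq_zero_right (hu x), sub_neg_eq_add, ha]
  · obtain ⟨y, rfl⟩ := h.proj_surjective x
    rw [hcR, h.fibreSum_eq rfl]
    simp only [projW, Function.comp_apply, h.proj_rightMul, Finset.sum_sub_distrib,
      ← Finset.smul_sum, Finset.sum_add_distrib, ← h.rightMul_smul]
    rw [← h.fibreSum_eq rfl w', ← h.fibreSum_eq rfl w', ← h.fibreSum_eq rfl w']
    simp only [h.proj_smul, hw', hv, smul_zero, sub_zero]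

/-- Homomorphisms lift along surjections of coefficients. -/
theorem exists_lift_of_weight {B : Type*} [AddCommGroup B] [Module R B] (hneg : -1 ∈ Γ)
    (h2 : IsUnit (2 : R)) {wt : SL(2, ℤ) ⧸ Γ → R} (hwt : IsSTWeight Γ wt)
    (f : A →ₗ[R] B) (hf : Function.Surjective f) (φ : Additive Γ →+ B) :
    ∃ ψ : Additive Γ →+ A, f.toAddMonoidHom.comp ψ = φ := by
  obtain ⟨c₀, hc₀, ⟨hu, hv⟩, rfl⟩ := Gamma0.exists_cocycle_toHom hneg φ
    (IsCoreps.apply_neg_one h2 hneg φ)
  obtain ⟨a, ha⟩ := exists_half h2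
  set g := fun x => Function.surjInv hf (c₀ ModularGroup.S x)
  set g' := fun x => Function.surjInv hf (c₀ Gamma0.ST x)
  have hrp : IsRelPair (IsCoreps.projS R a g) (projW wt g') :=
    ⟨(IsCoreps.isRelPair_proj hneg a a g g).1, projW_rel hwt hneg g'⟩
  obtain ⟨c, hc, hcS, hcR⟩ := Gamma0.exists_cocycle hneg hrp
  refine ⟨hc.toHom, ?_⟩
  have hcomp : Gamma0.IsCocycle fun g x => f (c g x) := fun g g' x => by
    show f (c (g * g') x) = _
    rw [hc, map_add]
  have key : (fun g x => f (c g x)) = c₀ := by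
    refine hcomp.ext_of_eq hc₀ (funext fun x => ?_) (funext fun x => ?_)
    · show f (c ModularGroup.S x) = _
      rw [hcS]
      simp only [g, IsCoreps.projS, Pi.smul_apply, Pi.sub_apply, map_smul, map_sub,
        Function.surjInv_eq hf]
      rw [eq_neg_of_add_eq_zero_right (hu x), sub_neg_eq_add, ha]
    · show f (c Gamma0.ST x) = _
      rw [hcR]
      simp only [g', projW, map_sub, map_smul, map_add, Function.surjInv_eq hf]
      rw [hv x, smul_zero, sub_zero]
  refine AddMonoidHom.ext fun x => ?_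
  obtain ⟨γ, rfl⟩ := Additive.ofMul.surjective x
  exact congrFun (congrFun key (γ : SL(2, ℤ))) _

end Generic

section Level

variable (R : Type*) [CommRing R] (M : ℕ)

/-- Weights with sum one along the orbits of `ST` on the cosets of `Γ₀(M)`. -/
def HasSTWeight : Prop :=
  ∃ wt : SL(2, ℤ) ⧸ gammaH M (⊤ : Subgroup (ZMod M)ˣ) → R,
    IsSTWeight (gammaH M (⊤ : Subgroup (ZMod M)ˣ)) wt

variable {R M}

theorem hasSTWeight_of_isUnit (h3 : IsUnit (3 : R)) : HasSTWeight R M := by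
  obtain ⟨b, hb⟩ := h3.exists_right_inv
  exact ⟨_, isSTWeight_const hb⟩

theorem ne_zero_sq_add_add_one {r : ℕ} [Fact r.Prime] (hr : r % 3 = 2) (x : ZMod r) :
    x ^ 2 + x + 1 ≠ 0 := by
  intro h
  have hx3 : x ^ 3 = 1 := by linear_combination (x - 1) * h
  have hx0 : x ≠ 0 := fun h0 => by simp [h0] at h
  have hd : orderOf x ∣ 3 := orderOf_dvd_of_pow_eq_one hx3
  have hd' : orderOf x ∣ r - 1 := orderOf_dvd_of_pow_eq_one (ZMod.pow_card_sub_one_eq_one hx0)
  rcases (Nat.dvd_prime Nat.prime_three).1 hd with h1 | h1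
  · have hx1 : x = 1 := orderOf_eq_one_iff.1 h1
    subst hx1
    have h3 : ((3 : ℕ) : ZMod r) = 0 := by push_cast; linear_combination h
    have := (Nat.prime_dvd_prime_iff_eq (Fact.out : r.Prime) Nat.prime_three).1
      ((ZMod.natCast_eq_zero_iff _ _).1 h3)
    omega
  · rw [h1] at hd'
    have := (Fact.out : r.Prime).two_le
    omega

/-- A prime `r = 2` modulo `3` in the level gives weights. -/
theorem hasSTWeight_of_dvd [NeZero M] {r : ℕ} (hr : r.Prime) (hr3 : r % 3 = 2) (hrM : r ∣ M) :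
    HasSTWeight R M := by
  have : Fact r.Prime := ⟨hr⟩
  have h0 : ModularCurve.nuThree M = 0 := by
    rw [ModularCurve.nuThree, Nat.card_eq_zero]
    exact Or.inl ⟨fun ⟨x, hx⟩ => ne_zero_sq_add_add_one hr3 (ZMod.castHom hrM (ZMod r) x)
      (by rw [← map_pow, ← map_add, ← map_one (ZMod.castHom hrM (ZMod r)), ← map_add, hx, map_zero])⟩
  unfold HasSTWeight
  rw [gammaH_top]
  refine exists_weight_of_free (by simp [CongruenceSubgroup.Gamma0_mem]) fun x hx => ?_
  rw [← natCard_fixedBy_ST] at h0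
  have : Finite (MulAction.fixedBy (SL(2, ℤ) ⧸ CongruenceSubgroup.Gamma0 M) Gamma0.ST) :=
    inferInstance
  have := (Nat.card_eq_zero.1 h0).resolve_right (not_infinite_iff_finite.2 this)
  exact this.false ⟨x, hx⟩

variable {K : Subgroup (ZMod M)ˣ} {A : Type*} [AddCommGroup A] [Module R A]

theorem HasSTWeight.coresTop_surjective [Fintype ((ZMod M)ˣ ⧸ K)] (hw : HasSTWeight R M)
    (h2 : IsUnit (2 : R)) (hneg : -1 ∈ K) :
    Function.Surjective (coresTop (A := A) R K) := by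
  obtain ⟨wt, hwt⟩ := hw
  exact cores_surjective_of_weight (isCoreps_deltaRep (K := K)) h2 hwt (neg_one_mem_gammaH hneg)

theorem HasSTWeight.exists_eq_sum_diamond [Fintype ((ZMod M)ˣ ⧸ K)] (hw : HasSTWeight R M)
    (h2 : IsUnit (2 : R)) (hneg : -1 ∈ K) {φ : Additive (gammaH M K) →+ A}
    (hφ : coresTop R K φ = 0) :
    ∃ ψ : (ZMod M)ˣ ⧸ K → (Additive (gammaH M K) →+ A),
      φ = ∑ q, (diamond M K R q.out (ψ q) - ψ q) := by
  obtain ⟨wt, hwt⟩ := hw
  exact Lift.LowerSq.exists_eq_sum_conjOp (isCoreps_deltaRep (K := K)) h2 hwt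
    (neg_one_mem_gammaH hneg) hφ

variable (R M) in
/-- Weights at a level and at the levels with one prime removed. -/
def HasSTWeights : Prop :=
  HasSTWeight R M ∧ ∀ v : ℕ, v.Prime → v ∣ M → HasSTWeight R (M / v)

theorem hasSTWeights_of_isUnit (h3 : IsUnit (3 : R)) : HasSTWeights R M :=
  ⟨hasSTWeight_of_isUnit h3, fun _ _ _ => hasSTWeight_of_isUnit h3⟩

/-- Two primes `= 2` modulo `3` in the level give weights. -/
theorem hasSTWeights_of_dvd [NeZero M] {r r' : ℕ} (hr : r.Prime) (hr' : r'.Prime) (hne : r ≠ r')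
    (hr3 : r % 3 = 2) (hr3' : r' % 3 = 2) (hrM : r ∣ M) (hrM' : r' ∣ M) : HasSTWeights R M := by
  refine ⟨hasSTWeight_of_dvd hr hr3 hrM, fun v hv hvM => ?_⟩
  have : NeZero (M / v) :=
    ⟨(Nat.div_pos (Nat.le_of_dvd (Nat.pos_of_ne_zero (NeZero.ne M)) hvM) hv.pos).ne'⟩
  rcases eq_or_ne v r with rfl | hvr
  · exact hasSTWeight_of_dvd hr' hr3' (Nat.dvd_div_of_mul_dvd
      (((Nat.coprime_primes hr hr').2 hne).mul_dvd_of_dvd_of_dvd hrM hrM'))
  · exact hasSTWeight_of_dvd hr hr3 (Nat.dvd_div_of_mul_dvd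
      (((Nat.coprime_primes hv hr).2 hvr).mul_dvd_of_dvd_of_dvd hvM hrM))

end Level

section Action

variable {O : Type} [CommRing O] {M : ℕ} {S : Finset ℕ} {K : Subgroup (ZMod M)ˣ} {A : Type}
  [AddCommGroup A] [Module O A]

/-- An operator killing `Hom(Γ_H, O)` kills all `Hom(Γ_H, A)`. -/
theorem HasSTWeight.smul_eq_zero_of_forall (hw : HasSTWeight O M) (h2 : IsUnit (2 : O))
    (hneg : -1 ∈ K) {a : OpRing O M S} (ha : ∀ φ : HomMod O S K O, a • φ = 0)
    (φ : HomMod O S K A) : a • φ = 0 := by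
  obtain ⟨wt, hwt⟩ := hw
  let π : (A →₀ O) →ₗ[O] A := Finsupp.linearCombination O id
  have hwt' : IsSTWeight (gammaH M K) (wt ∘ (isCoreps_deltaRep (K := K)).proj) := fun y => by
    simp only [Function.comp_apply, IsCoreps.proj_smul]
    exact hwt _
  obtain ⟨ψ, hψ⟩ := exists_lift_of_weight (neg_one_mem_gammaH hneg) h2 hwt' π
    (fun x => ⟨Finsupp.single x 1, by simp [π]⟩) φ
  have h0 : a • (toHomMod ψ : HomMod O S K (A →₀ O)) = 0 := by
    refine AddMonoidHom.ext fun γ => Finsupp.ext fun x => ?_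
    have h1 : mapCoeff (Finsupp.lapply x) (a • (toHomMod ψ : HomMod O S K (A →₀ O))) = 0 := by
      rw [map_smul, ha]
    exact DFunLike.congr_fun h1 γ
  rw [show φ = mapCoeff π (toHomMod ψ) from hψ.symm, ← map_smul, h0, map_zero]

end Action

end Fermat.Agent.RT.GammaH
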