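import Mathlib.LinearAlgebra.Eigenspace.Semisimple
import Mathlib.FieldTheory.Separable
import Fermat.Agent.RT.GammaH.Boundary
import Fermat.Agent.RT.GammaH.Semisimple

/-!
# The operators on complex homomorphisms

For `O → ℂ` the polynomial Hecke algebra acts `ℂ`-linearly on `Hom(Γ_H, ℂ)`, semisimply on the
parabolic homomorphisms.
-/

set_option autoImplicit false

noncomputable section

namespace Fermat.Agent.RT.GammaH

open CongruenceSubgroup MvPolynomial ModularCurve.Period

/-- An endomorphism without nontrivial Jordan block is semisimple. -/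
theorem isSemisimple_of_sq {V : Type*} [AddCommGroup V] [Module ℂ V] [FiniteDimensional ℂ V]
    (f : Module.End ℂ V) (h : ∀ (c : ℂ) v, f (f v) - (2 * c) • f v + c ^ 2 • v = 0 → f v = c • v) :
    f.IsSemisimple := by
  refine Module.End.isSemisimple_of_squarefree_aeval_eq_zero (p := minpoly ℂ f) ?_ (minpoly.aeval ℂ f)
  have hne : minpoly ℂ f ≠ 0 := minpoly.ne_zero (Algebra.IsIntegral.isIntegral f)
  rw [squarefree_iff_irreducible_sq_not_dvd_of_ne_zero hne]
  intro q hq hdvd
  obtain ⟨c, hc⟩ := IsAlgClosed.exists_root q (Polynomial.degree_pos_of_irreducible hq).ne'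
  obtain ⟨r, hr⟩ := (mul_dvd_mul (Polynomial.dvd_iff_isRoot.2 hc)
    (Polynomial.dvd_iff_isRoot.2 hc)).trans hdvd
  set d : Polynomial ℂ := Polynomial.X - Polynomial.C c with hd
  have h0 : Polynomial.aeval f (d * r) = 0 := by
    refine LinearMap.ext fun v => ?_
    have h1 : Polynomial.aeval f d (Polynomial.aeval f d (Polynomial.aeval f r v)) = 0 := by
      rw [← Module.End.mul_apply, ← Module.End.mul_apply, ← map_mul, ← map_mul, ← hr, minpoly.aeval]
      rfl
    rw [map_mul, Module.End.mul_apply, LinearMap.zero_apply]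
    generalize Polynomial.aeval f r v = w at h1 ⊢
    simp only [hd, map_sub, Polynomial.aeval_X, Polynomial.aeval_C, LinearMap.sub_apply,
      Module.algebraMap_end_apply, map_smul] at h1 ⊢
    rw [sub_eq_zero]
    exact h c w (by rw [← h1]; module)
  have hdr : d * r ≠ 0 := fun h' => hne (by rw [hr, mul_assoc, h', mul_zero])
  have hlt := Polynomial.natDegree_le_of_dvd (minpoly.dvd ℂ f h0) hdr
  rw [hr, mul_assoc, Polynomial.natDegree_mul (left_ne_zero_of_mul hdr) hdr, hd,
    Polynomial.natDegree_X_sub_C] at hlt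
  omega

/-- For a semisimple endomorphism a power and the map itself have the same kernel. -/
theorem eq_zero_of_pow_apply {V : Type*} [AddCommGroup V] [Module ℂ V] [FiniteDimensional ℂ V]
    {f : Module.End ℂ V} (hf : f.IsSemisimple) {n : ℕ} {v : V} (h : (f ^ n) v = 0) : f v = 0 := by
  rcases Nat.eq_zero_or_pos n with rfl | hn
  · rw [pow_zero, Module.End.one_apply] at h
    rw [h, map_zero]
  · have hv : v ∈ f.genEigenspace 0 n := by
      rwa [Module.End.genEigenspace_zero_nat, LinearMap.mem_ker]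
    rw [hf.isFinitelySemisimple.genEigenspace_eq_eigenspace 0 (by exact_mod_cast hn),
      Module.End.mem_eigenspace_iff, zero_smul] at hv
    exact hv

/-- Homomorphisms `Γ_H → ℂ`. -/
abbrev HomC {L : ℕ} (K : Subgroup (ZMod L)ˣ) : Type := Additive (gammaH L K) →+ ℂ

variable {O : Type} [CommRing O] [Algebra O ℂ] {L : ℕ} {S : Finset ℕ} {K : Subgroup (ZMod L)ˣ}

theorem smul_toHomMod_comm (a : OpRing O L S) (z : ℂ) (φ : HomC K) :
    toHomMod.symm (a • (toHomMod (z • φ) : HomMod O S K ℂ)) =
      z • toHomMod.symm (a • (toHomMod φ : HomMod O S K ℂ)) := by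
  induction a using MvPolynomial.induction_on generalizing φ with
  | C c =>
    refine AddMonoidHom.ext fun γ => ?_
    rw [← algebraMap_eq, algebraMap_smul, algebraMap_smul]
    exact (mul_smul_comm c z (φ γ)).symm
  | add a b ha hb =>
    rw [add_smul, add_smul, map_add, map_add, smul_add, ha, hb]
  | mul_X a i ha =>
    rw [mul_smul, mul_smul]
    rcases i with u | ℓ
    · rw [X_inl_smul, X_inl_smul]
      refine Eq.trans ?_ (ha (diamond L K ℂ u φ))
      rw [← map_smul (diamond L K ℂ u) z φ]
      rfl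
    · have : Fact ℓ.1.Prime := ⟨ℓ.2.1⟩
      rw [X_inr_smul, X_inr_smul]
      refine Eq.trans ?_ (ha (hecke L K ℓ.1 ℂ φ))
      rw [← map_smul (hecke L K ℓ.1 ℂ) z φ]
      rfl

variable (O S K) in
/-- The operators as `ℂ`-linear maps. -/
def opC : OpRing O L S →+* Module.End ℂ (HomC K) where
  toFun a :=
    { toFun := fun φ => toHomMod.symm (a • (toHomMod φ : HomMod O S K ℂ))
      map_add' := fun φ ψ => by rw [map_add, smul_add, map_add]
      map_smul' := fun z φ => smul_toHomMod_comm a z φ }
  map_one' := LinearMap.ext fun φ => by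
    show toHomMod.symm ((1 : OpRing O L S) • (toHomMod φ : HomMod O S K ℂ)) = φ
    rw [one_smul, LinearEquiv.symm_apply_apply]
  map_mul' a b := LinearMap.ext fun φ => by
    show toHomMod.symm ((a * b) • (toHomMod φ : HomMod O S K ℂ)) = _
    rw [mul_smul]
    rfl
  map_zero' := LinearMap.ext fun φ => by
    show toHomMod.symm ((0 : OpRing O L S) • (toHomMod φ : HomMod O S K ℂ)) = 0
    rw [zero_smul, map_zero]
  map_add' a b := LinearMap.ext fun φ => by
    show toHomMod.symm ((a + b) • (toHomMod φ : HomMod O S K ℂ)) = _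
    rw [add_smul, map_add]
    rfl

theorem opC_C (c : O) : opC O S K (C c) = algebraMap ℂ _ (algebraMap O ℂ c) := by
  refine LinearMap.ext fun φ => AddMonoidHom.ext fun γ => ?_
  show ((C c : OpRing O L S) • (toHomMod φ : HomMod O S K ℂ)) γ = algebraMap O ℂ c * φ γ
  rw [← algebraMap_eq, algebraMap_smul, ← Algebra.smul_def]
  rfl

theorem opC_inl (u : (ZMod L)ˣ) : opC O S K (X (Sum.inl u)) = diamond L K ℂ u := by
  refine LinearMap.ext fun φ => ?_
  show toHomMod.symm ((X (Sum.inl u) : OpRing O L S) • (toHomMod φ : HomMod O S K ℂ)) = _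
  rw [X_inl_smul]
  rfl

theorem opC_inr (ℓ : {ℓ : ℕ // ℓ.Prime ∧ ℓ ∉ S}) [Fact ℓ.1.Prime] :
    opC O S K (X (Sum.inr ℓ)) = hecke L K ℓ.1 ℂ := by
  refine LinearMap.ext fun φ => ?_
  show toHomMod.symm ((X (Sum.inr ℓ) : OpRing O L S) • (toHomMod φ : HomMod O S K ℂ)) = _
  rw [X_inr_smul]
  rfl

theorem opC_inl_pow (u : (ZMod L)ˣ) (k : ℕ) :
    opC O S K (X (Sum.inl u)) ^ k = diamond L K ℂ (u ^ k) := by
  refine LinearMap.ext fun φ => ?_
  induction k with
  | zero =>
    rw [pow_zero, pow_zero, Module.End.one_apply]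
    exact (diamond_of_mem ℂ (one_mem K) φ).symm
  | succ k ih =>
    rw [pow_succ', Module.End.mul_apply, ih, opC_inl, pow_succ']
    exact (diamond_mul ℂ u (u ^ k) φ).symm

/-- Extension of coefficients, as a map to plain homomorphisms. -/
def toHomC : HomMod O S K O →ₗ[O] HomC K :=
  (toHomMod (O := O) (S := S) (K := K) (A := ℂ)).symm.toLinearMap.comp
    ((mapCoeff (M := L) (S := S) (K := K) (Algebra.linearMap O ℂ)).restrictScalars O)

theorem toHomC_apply (φ : HomMod O S K O) (γ : Additive (gammaH L K)) :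
    toHomC φ γ = algebraMap O ℂ (φ γ) := rfl

theorem toHomC_smul (a : OpRing O L S) (φ : HomMod O S K O) :
    toHomC (a • φ) = opC O S K a (toHomC φ) :=
  congrArg toHomMod.symm (map_smul (mapCoeff (M := L) (S := S) (K := K) (Algebra.linearMap O ℂ)) a φ)

theorem toHomC_injective (hinj : Function.Injective (algebraMap O ℂ)) :
    Function.Injective (toHomC (O := O) (S := S) (K := K)) := fun _ _ h =>
  DFunLike.ext _ _ fun γ => hinj (DFunLike.congr_fun h γ)

variable [NeZero L] (hneg : -1 ∈ K)
include hneg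

theorem diamond_mem_parabolicHoms (u : (ZMod L)ˣ) {φ : HomC K}
    (hφ : φ ∈ parabolicHoms ℂ (gammaH L K) ℂ) :
    diamond L K ℂ u φ ∈ parabolicHoms ℂ (gammaH L K) ℂ := by
  obtain ⟨f, g, rfl⟩ := exists_per_add_conjHom hneg hφ
  rw [map_add, diamond_conjHom, ← per_diaForm, ← per_diaForm]
  exact add_mem (per_mem_parabolicHoms _) (conjHom_mem_parabolicHoms (per_mem_parabolicHoms _))

theorem hecke_mem_parabolicHoms (n : ℕ) [Fact n.Prime] {φ : HomC K}
    (hφ : φ ∈ parabolicHoms ℂ (gammaH L K) ℂ) :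
    hecke L K n ℂ φ ∈ parabolicHoms ℂ (gammaH L K) ℂ := by
  obtain ⟨f, g, rfl⟩ := exists_per_add_conjHom hneg hφ
  rw [map_add, hecke_conjHom, ← per_heckeForm, ← per_heckeForm]
  exact add_mem (per_mem_parabolicHoms _) (conjHom_mem_parabolicHoms (per_mem_parabolicHoms _))

theorem opC_mem_parabolicHoms (a : OpRing O L S) :
    ∀ φ : HomC K, φ ∈ parabolicHoms ℂ (gammaH L K) ℂ →
      opC O S K a φ ∈ parabolicHoms ℂ (gammaH L K) ℂ := by
  induction a using MvPolynomial.induction_on with
  | C c =>
    intro φ hφ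
    rw [opC_C, Module.algebraMap_end_apply]
    exact Submodule.smul_mem _ _ hφ
  | add a b ha hb =>
    intro φ hφ
    rw [map_add, LinearMap.add_apply]
    exact add_mem (ha φ hφ) (hb φ hφ)
  | mul_X a i ha =>
    intro φ hφ
    rw [map_mul, Module.End.mul_apply]
    refine ha _ ?_
    rcases i with u | ℓ
    · rw [opC_inl]
      exact diamond_mem_parabolicHoms hneg u hφ
    · have : Fact ℓ.1.Prime := ⟨ℓ.2.1⟩
      rw [opC_inr]
      exact hecke_mem_parabolicHoms hneg ℓ.1 hφ

/-- The operators on parabolic homomorphisms. -/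
def opPar (a : OpRing O L S) : Module.End ℂ (parabolicHoms ℂ (gammaH L K) ℂ) :=
  (opC O S K a).restrict (opC_mem_parabolicHoms hneg a)

theorem coe_opPar (a : OpRing O L S) (φ : parabolicHoms ℂ (gammaH L K) ℂ) :
    (opPar hneg a φ : HomC K) = opC O S K a φ := rfl

theorem opPar_pow (a : OpRing O L S) (n : ℕ) :
    opPar hneg (a ^ n) = opPar hneg a ^ n := by
  induction n with
  | zero =>
    refine LinearMap.ext fun φ => Subtype.ext ?_
    rw [coe_opPar, pow_zero, map_one, pow_zero]
    rfl
  | succ n ih =>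
    refine LinearMap.ext fun φ => Subtype.ext ?_
    rw [coe_opPar, pow_succ', map_mul, pow_succ', Module.End.mul_apply, Module.End.mul_apply, ← ih]
    rfl

theorem opPar_isSemisimple (hL : Squarefree L) (hodd : Odd (Nat.card ((ZMod L)ˣ ⧸ K)))
    (hS : ∀ v : ℕ, v.Prime → v ∣ L → v ∈ S) (a : OpRing O L S) :
    (opPar hneg a).IsSemisimple := by
  have := finiteDimensional_parabolicHoms (M := L) hneg
  have hmul : ∀ a b : OpRing O L S, opPar hneg (a * b) = opPar hneg a * opPar hneg b := fun a b =>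
    LinearMap.ext fun φ => Subtype.ext (by rw [coe_opPar, map_mul]; rfl)
  have hgen : ∀ i : OpIdx L S, (opPar (O := O) hneg (X i)).IsSemisimple := by
    rintro (u | ℓ)
    · refine Module.End.isSemisimple_of_squarefree_aeval_eq_zero
        (p := Polynomial.X ^ orderOf u - Polynomial.C (1 : ℂ)) ?_ ?_
      · exact (Polynomial.separable_X_pow_sub_C (1 : ℂ)
          (Nat.cast_ne_zero.2 (orderOf_pos u).ne') one_ne_zero).squarefree
      · refine LinearMap.ext fun φ => Subtype.ext ?_
        rw [map_sub, map_pow, Polynomial.aeval_X, Polynomial.aeval_C, map_one, ← opPar_pow,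
          LinearMap.sub_apply, Submodule.coe_sub, coe_opPar, map_pow, opC_inl_pow, pow_orderOf_eq_one,
          diamond_of_mem ℂ (one_mem K)]
        exact sub_self _
    · have : Fact ℓ.1.Prime := ⟨ℓ.2.1⟩
      refine isSemisimple_of_sq _ fun c φ h => Subtype.ext ?_
      rw [coe_opPar, opC_inr]
      have hℓL : ¬ ℓ.1 ∣ L := fun hd => ℓ.2.2 (hS _ ℓ.2.1 hd)
      refine hecke_semisimple hL hneg hodd hℓL c φ.2 ?_
      have h' := congrArg (Subtype.val (p := fun x => x ∈ parabolicHoms ℂ (gammaH L K) ℂ)) h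
      simp only [Submodule.coe_add, Submodule.coe_sub, Submodule.coe_smul, coe_opPar, opC_inr] at h'
      exact h'
  induction a using MvPolynomial.induction_on with
  | C c =>
    refine Module.End.isSemisimple_of_squarefree_aeval_eq_zero
      (p := Polynomial.X - Polynomial.C (algebraMap O ℂ c))
      (Polynomial.irreducible_X_sub_C _).squarefree ?_
    refine LinearMap.ext fun φ => Subtype.ext ?_
    rw [map_sub, Polynomial.aeval_X, Polynomial.aeval_C, LinearMap.sub_apply, Submodule.coe_sub,
      coe_opPar, opC_C]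
    exact sub_self _
  | add a b ha hb =>
    have hadd : opPar hneg (a + b) = opPar hneg a + opPar hneg b :=
      LinearMap.ext fun φ => Subtype.ext (by rw [coe_opPar, map_add]; rfl)
    rw [hadd]
    exact ha.add_of_commute ((hmul a b).symm.trans ((congrArg _ (mul_comm a b)).trans (hmul b a))) hb
  | mul_X a i ha =>
    rw [hmul]
    exact ha.mul_of_commute
      ((hmul a (X i)).symm.trans ((congrArg _ (mul_comm a (X i))).trans (hmul (X i) a))) (hgen i)

/-- Semisimplicity on the localised module. -/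
theorem smul_eq_zero_of_pow_smul [IsLocalRing O] (hL : Squarefree L)
    (hodd : Odd (Nat.card ((ZMod L)ˣ ⧸ K))) (hS : ∀ v : ℕ, v.Prime → v ∣ L → v ∈ S)
    (hinj : Function.Injective (algebraMap O ℂ))
    {m : Ideal (OpRing O L S)} {e P : OpRing O L S} (he : IsLocalizer m (HomMod O S K O) e)
    (hP : P ∉ m)
    (hpar : ∀ φ : HomMod O S K ℂ, IsParabolicHom (gammaH L K) (toHomMod.symm (P • φ)))
    {a : OpRing O L S} {x : HomMod O S K O} (hx : x ∈ localPart O e (HomMod O S K O)) {n : ℕ}
    (h : a ^ n • x = 0) : a • x = 0 := by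
  have := finiteDimensional_parabolicHoms (M := L) hneg
  have hw : opC O S K P (toHomC x) ∈ parabolicHoms ℂ (gammaH L K) ℂ :=
    hpar (toHomMod (toHomC x))
  have hn : (opPar hneg a ^ n) ⟨_, hw⟩ = 0 := by
    refine Subtype.ext ?_
    rw [← opPar_pow, coe_opPar]
    show opC O S K (a ^ n) (opC O S K P (toHomC x)) = 0
    rw [← toHomC_smul, ← toHomC_smul, smul_comm, h, smul_zero, map_zero]
  have h0 := congrArg (Subtype.val (p := fun z => z ∈ parabolicHoms ℂ (gammaH L K) ℂ))
    (eq_zero_of_pow_apply (opPar_isSemisimple hneg hL hodd hS a) hn)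
  rw [coe_opPar] at h0
  replace h0 : opC O S K a (opC O S K P (toHomC x)) = 0 := h0
  rw [← toHomC_smul, ← toHomC_smul, smul_comm] at h0
  exact he.eq_zero_of_smul_eq_zero hP (smul_mem_localPart a hx)
    (toHomC_injective hinj (h0.trans (map_zero toHomC).symm))

end Fermat.Agent.RT.GammaH
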