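import Mathlib.LinearAlgebra.Eigenspace.Charpoly
import Mathlib.LinearAlgebra.LinearIndependent.BaseChange
import Fermat.Agent.HeckeDuality.Eigenform
import Fermat.Agent.RT.GammaH.Complex

/-!
# Eigenclasses for the systems of the localised module

A ring homomorphism to `ℂ` of the image of the operators on the localised module is the system of
a parabolic eigenclass in `Hom(Γ_H, ℂ)`.
-/

set_option autoImplicit false

noncomputable section

namespace Fermat.Agent.RT.GammaH

open MvPolynomial ModularCurve.Period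

variable {O : Type} [CommRing O] [IsDomain O] [IsPrincipalIdealRing O] [Algebra O ℂ]
  {L : ℕ} [NeZero L] {S : Finset ℕ} {K : Subgroup (ZMod L)ˣ}

omit [IsDomain O] [IsPrincipalIdealRing O] [NeZero L] in
theorem smul_homC (c : O) (φ : HomC K) : c • φ = algebraMap O ℂ c • φ :=
  AddMonoidHom.ext fun γ => Algebra.smul_def c (φ γ)

omit [IsDomain O] [IsPrincipalIdealRing O] in
/-- Independent elements of the localised module give independent parabolic complex classes. -/
theorem linearIndependent_parabolic (hinj : Function.Injective (algebraMap O ℂ))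
    {m : Ideal (OpRing O L S)} {e P : OpRing O L S} (he : IsLocalizer m (HomMod O S K O) e)
    (hP : P ∉ m) {ι : Type} {x : ι → localPart O e (HomMod O S K O)}
    (hx : LinearIndependent O x) :
    LinearIndependent ℂ fun i => opC O S K P (toHomC (x i : HomMod O S K O)) := by
  let H := HomMod O S K O
  let M := localPart O e H
  have : FaithfulSMul O ℂ := (faithfulSMul_iff_algebraMap_injective O ℂ).2 hinj
  obtain ⟨nc, γ, hγ⟩ := exists_coords (K := K)
  let ev : H →ₗ[O] (Fin nc → O) :=
    { toFun := fun φ i => φ (γ i)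
      map_add' := fun _ _ => rfl
      map_smul' := fun _ _ => rfl }
  let evC : HomC K →ₗ[ℂ] (Fin nc → ℂ) :=
    { toFun := fun φ i => φ (γ i)
      map_add' := fun _ _ => rfl
      map_smul' := fun _ _ => rfl }
  have hev : Function.Injective ev := fun φ ψ h => hγ O φ ψ (congrFun h)
  let f : M →ₗ[O] (Fin nc → O) := ev.comp
    ((DistribSMul.toLinearMap O H P).comp M.subtype)
  have hf : LinearMap.ker f = ⊥ := LinearMap.ker_eq_bot'.2 fun y hy =>
    Subtype.ext (he.eq_zero_of_smul_eq_zero hP y.2 (hev (hy.trans (map_zero ev).symm)))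
  have h := linearIndependent_algebraMap_comp_iff (S := ℂ) |>.2 (hx.map' f hf)
  refine LinearIndependent.of_comp evC ?_
  have heq : ⇑evC ∘ (fun i => opC O S K P (toHomC (x i : H))) =
      fun i => ⇑(algebraMap O ℂ) ∘ (⇑f ∘ x) i := by
    funext i j
    show opC O S K P (toHomC (x i : H)) (γ j) = algebraMap O ℂ ((P • (x i : H)) (γ j))
    simp only [← toHomC_smul, toHomC_apply]
  rw [heq]
  exact h

omit [IsDomain O] [IsPrincipalIdealRing O] in
/-- A character of a commutative algebra of matrices over `O` has a complex eigenvector. -/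
theorem exists_eigvec_matrix [IsNoetherianRing O] {A : Type} [CommRing A] [Algebra O A]
    {ι : Type} [Fintype ι] [DecidableEq ι] (f : A →ₐ[O] Matrix ι ι O) (θ : A →ₐ[O] ℂ)
    (hθ : ∀ a, f a = 0 → θ a = 0) :
    ∃ v : ι → ℂ, v ≠ 0 ∧ ∀ x i, ∑ j, algebraMap O ℂ (f x i j) * v j = θ x * v i := by
  classical
  let matC : A →+* Matrix ι ι ℂ := (algebraMap O ℂ).mapMatrix.comp f.toRingHom
  let ρ : A →+* Module.End ℂ (ι → ℂ) := Matrix.toLinAlgEquiv'.toAlgHom.toRingHom.comp matC
  -- finitely many generators
  obtain ⟨r, gen, hgen⟩ := Submodule.fg_iff_exists_fin_generating_family.1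
    (IsNoetherian.noetherian (LinearMap.range f.toLinearMap))
  have hgen' : ∀ i, gen i ∈ LinearMap.range f.toLinearMap := fun i =>
    hgen ▸ Submodule.subset_span (Set.mem_range_self i)
  choose a ha using hgen'
  have hspan : ∀ x, ∃ c : Fin r → O, f x = ∑ i, c i • f (a i) := fun x => by
    obtain ⟨c, hc⟩ := Submodule.mem_span_range_iff_exists_fun O |>.1
      (hgen.symm ▸ LinearMap.mem_range_self f.toLinearMap x :
        f x ∈ Submodule.span O (Set.range gen))
    exact ⟨c, hc.symm.trans (Finset.sum_congr rfl fun i _ => congrArg _ (ha i).symm)⟩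
  -- the tuples of eigenvalues and a generic combination
  set Tset : Set (Fin r → ℂ) := Set.pi Set.univ fun i => {z | (ρ (a i)).HasEigenvalue z}
  have hT : Tset.Finite := Set.Finite.pi fun i => Module.End.finite_hasEigenvalue _
  let Q : (Fin r → ℂ) → Polynomial ℂ := fun t =>
    ∑ i : Fin r, Polynomial.monomial (i : ℕ) (t i - θ (a i))
  have hQ : ∀ t, t ≠ (fun i => θ (a i)) → Q t ≠ 0 := fun t ht h => ht (_root_.funext fun j => by
    have := congrArg (fun q => Polynomial.coeff q (j : ℕ)) h
    simpa [Q, Polynomial.finsetSum_coeff, Polynomial.coeff_monomial, ← Fin.ext_iff,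
      sub_eq_zero] using this)
  obtain ⟨n, hn⟩ : ∃ n : ℕ, ∀ t ∈ Tset, t ≠ (fun i => θ (a i)) → (Q t).eval (n : ℂ) ≠ 0 := by
    have hbad : (⋃ t ∈ {t ∈ Tset | t ≠ fun i => θ (a i)}, {z | (Q t).IsRoot z}).Finite :=
      (hT.subset fun t ht => ht.1).biUnion fun t ht =>
        Polynomial.finite_setOfPred_isRoot (hQ t ht.2)
    obtain ⟨n, hn⟩ :=
      (hbad.preimage (Nat.cast_injective (R := ℂ)).injOn).exists_notMem
    exact ⟨n, fun t ht hne h => hn (Set.mem_biUnion (Set.mem_ofPred.2 ⟨ht, hne⟩) h)⟩
  set g : A := ∑ i : Fin r, (n : A) ^ (i : ℕ) * a i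
  -- its eigenvalue
  have hroot : (ρ g).HasEigenvalue (θ g) := by
    rw [Module.End.hasEigenvalue_iff_isRoot_charpoly]
    show (Matrix.toLin' ((f g).map (algebraMap O ℂ))).charpoly.IsRoot _
    rw [Matrix.charpoly_toLin', Matrix.charpoly_map]
    have h1 := hθ (Polynomial.aeval g (f g).charpoly)
      (by rw [← Polynomial.aeval_algHom_apply]; exact Matrix.aeval_self_charpoly _)
    rwa [← Polynomial.aeval_algHom_apply, Polynomial.aeval_def, ← Polynomial.eval_map] at h1
  set W := (ρ g).eigenspace (θ g)
  obtain ⟨θ', v, hvW, hv, heig⟩ := HeckeDuality.exists_eigenCharacter ρ W hroot fun x w hw => by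
    rw [Module.End.mem_eigenspace_iff] at hw ⊢
    rw [← Module.End.mul_apply, ← map_mul, mul_comm, map_mul, Module.End.mul_apply, hw, map_smul]
  have hg : θ' g = θ g := smul_left_injective ℂ hv
    ((heig g).symm.trans (Module.End.mem_eigenspace_iff.1 hvW))
  have hθa : ∀ i, θ' (a i) = θ (a i) := by
    by_contra hne
    push Not at hne
    obtain ⟨j, hj⟩ := hne
    refine hn (fun i => θ' (a i)) (fun i _ => Module.End.hasEigenvalue_of_hasEigenvector
      ⟨Module.End.mem_eigenspace_iff.2 (heig (a i)), hv⟩) (fun h => hj (congrFun h j)) ?_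
    simp only [g, map_sum, map_mul, map_pow, map_natCast] at hg
    simp only [Q, Polynomial.eval_finsetSum, Polynomial.eval_monomial, sub_mul,
      Finset.sum_sub_distrib, sub_eq_zero]
    simpa only [mul_comm] using hg
  refine ⟨v, hv, fun x i => ?_⟩
  -- hence the eigenvalues of all operators
  obtain ⟨c, hc⟩ := hspan x
  have hθx : θ x = ∑ k, algebraMap O ℂ (c k) * θ (a k) := by
    have h := hθ (x - ∑ k, c k • a k) (by simp only [map_sub, map_sum, map_smul, hc, sub_self])
    simpa only [map_sub, map_sum, map_mul, Algebra.smul_def, AlgHom.commutes, sub_eq_zero] using h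
  have hk : ∀ k, ∑ j, algebraMap O ℂ (f (a k) i j) * v j = θ (a k) * v i := fun k =>
    (congrFun (heig (a k)) i).trans (by rw [hθa]; rfl)
  simp only [hc, Matrix.sum_apply, Matrix.smul_apply, smul_eq_mul, map_sum, map_mul, Finset.sum_mul,
    mul_assoc, hθx]
  rw [Finset.sum_comm]
  simp only [← Finset.mul_sum, hk]

theorem exists_eigvec (hinj : Function.Injective (algebraMap O ℂ))
    {m : Ideal (OpRing O L S)} {e P : OpRing O L S} (he : IsLocalizer m (HomMod O S K O) e)
    (hP : P ∉ m)
    (hpar : ∀ φ : HomMod O S K ℂ, IsParabolicHom (gammaH L K) (toHomMod.symm (P • φ)))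
    (θ : OpRing O L S →ₐ[O] ℂ)
    (hθ : ∀ a, localAct O e (HomMod O S K O) a = 0 → θ a = 0) :
    ∃ φ : HomC K, φ ≠ 0 ∧ φ ∈ parabolicHoms ℂ (gammaH L K) ℂ ∧
      ∀ a, opC O S K a φ = θ a • φ := by
  classical
  set H := HomMod O S K O
  set M := localPart O e H
  -- a basis of the localised module and an eigenvector of the matrices over `ℂ`
  set bs := Module.Free.chooseBasis O M
  let toMat : Module.End O M ≃ₐ[O] _ := LinearMap.toMatrixAlgEquiv bs
  obtain ⟨v, hv, hvx⟩ := exists_eigvec_matrix (toMat.toAlgHom.comp (localAct O e H)) θ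
    fun a ha => hθ a (toMat.injective (ha.trans (map_zero toMat).symm))
  -- transport to homomorphisms
  set vv : Module.Free.ChooseBasisIndex O M → HomC K :=
    fun i => opC O S K P (toHomC (bs i : H))
  have hli : LinearIndependent ℂ vv := linearIndependent_parabolic hinj he hP bs.linearIndependent
  refine ⟨∑ i, v i • vv i, fun h0 => hv (_root_.funext fun i =>
      Fintype.linearIndependent_iff.1 hli v h0 i),
    sum_mem fun i _ => Submodule.smul_mem _ _ (hpar (toHomMod (toHomC (bs i : H)))), fun x => ?_⟩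
  set B : Matrix _ _ ℂ := (toMat (localAct O e H x)).map (algebraMap O ℂ) with hB
  have hcol : ∀ j, opC O S K x (vv j) = ∑ i, B i j • vv i := fun j => by
    have hb : x • (bs j : H) = ∑ i, toMat (localAct O e H x) i j • (bs i : H) := by
      have h := congrArg M.subtype (bs.sum_repr (localAct O e H x (bs j))).symm
      rw [map_sum] at h
      refine h.trans (Finset.sum_congr rfl fun i _ => ?_)
      rw [map_smul]
      exact congrArg (· • (bs i : H))
        (LinearMap.toMatrixAlgEquiv_apply bs (localAct O e H x) i j).symm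
    calc opC O S K x (vv j) = toHomC (P • x • (bs j : H)) := by
          simp only [vv, ← toHomC_smul]
          rw [smul_comm]
      _ = ∑ i, B i j • vv i := by
          rw [hb, Finset.smul_sum, map_sum]
          refine Finset.sum_congr rfl fun i _ => ?_
          rw [smul_comm, map_smul, smul_homC, toHomC_smul]
          rfl
  have hBv : ∀ i, ∑ j, B i j * v j = θ x * v i := hvx x
  calc opC O S K x (∑ i, v i • vv i) = ∑ j, v j • ∑ i, B i j • vv i := by
        simp only [map_sum, map_smul, hcol]
    _ = ∑ i, (∑ j, B i j * v j) • vv i := by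
        simp only [Finset.smul_sum, Finset.sum_smul, smul_smul]
        rw [Finset.sum_comm]
        simp only [mul_comm (v _)]
    _ = θ x • ∑ i, v i • vv i := by
        simp only [hBv, Finset.smul_sum, smul_smul]

end Fermat.Agent.RT.GammaH
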