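import Mathlib.RingTheory.IntegralClosure.IsIntegralClosure.Basic
import Mathlib.RingTheory.Ideal.GoingUp
import Mathlib.FieldTheory.IsAlgClosed.AlgebraicClosure
import Fermat.Agent.RT.GammaH.EigenVector

/-!
# Reduction of the complex systems of the localised module

The values of a system of the localised module are integral over `O` and reduce to the residual
system.
-/

set_option autoImplicit false

noncomputable section

namespace Fermat.Agent.RT.GammaH

open IsLocalRing MvPolynomial

variable {O : Type} [CommRing O] [IsLocalRing O] {L : ℕ} {S : Finset ℕ} {abar : ℕ → ResidueField O}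

/-- A map to an algebraic extension of the residue field whose kernel is inside the residual ideal
is the residual system. -/
theorem map_eq_opRes {F : Type} [Field F] [Algebra (ResidueField O) F]
    [Algebra.IsAlgebraic (ResidueField O) F] (f : OpRing O L S →+* F)
    (hC : ∀ c, f (C c) = algebraMap (ResidueField O) F (residue O c))
    (hker : ∀ t, f t = 0 → t ∈ resIdeal S abar L) (x : OpRing O L S) :
    f x = algebraMap (ResidueField O) F (opRes S abar L x) := by
  obtain ⟨c, hc⟩ := residue_surjective (opRes S abar L x)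
  have hres : ∀ c : O, opRes S abar L (C c) = residue O c := fun c => by
    rw [← algebraMap_eq, AlgHom.commutes, ResidueField.algebraMap_eq]
  set t := x - C c with ht
  have ht0 : opRes S abar L t = 0 := by rw [ht, map_sub, hres, hc, sub_self]
  suffices f t = 0 by rwa [ht, map_sub, hC, hc, sub_eq_zero] at this
  by_contra hne
  have hint : IsIntegral (ResidueField O) (f t) :=
    (Algebra.IsAlgebraic.isAlgebraic _).isIntegral
  obtain ⟨q, hq⟩ := Polynomial.map_surjective _ residue_surjective
    (minpoly (ResidueField O) (f t))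
  have h0 : f (Polynomial.eval₂ C t q) = 0 := by
    rw [Polynomial.hom_eval₂, show f.comp C = (algebraMap (ResidueField O) F).comp (residue O) from
      RingHom.ext hC, ← Polynomial.eval₂_map, hq]
    exact minpoly.aeval _ _
  have h1 := hker _ h0
  rw [mem_resIdeal, ← AlgHom.coe_toRingHom, Polynomial.hom_eval₂, AlgHom.coe_toRingHom, ht0,
    show ((opRes S abar L : OpRing O L S →ₐ[O] _) : OpRing O L S →+* ResidueField O).comp C =
      residue O from RingHom.ext hres,
    Polynomial.eval₂_at_zero] at h1
  refine minpoly.coeff_zero_ne_zero hint hne ?_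
  rw [← hq, Polynomial.coeff_map]
  exact h1

variable [Algebra O ℂ]

variable (O) in
/-- A reduction map on the elements of `ℂ` integral over `O`. -/
theorem exists_red (hinj : Function.Injective (algebraMap O ℂ)) :
    ∃ red : integralClosure O ℂ →+* AlgebraicClosure (ResidueField O),
      ∀ c : O, red (algebraMap O (integralClosure O ℂ) c) =
        algebraMap (ResidueField O) _ (residue O c) := by
  set R := integralClosure O ℂ
  have hR : RingHom.ker (algebraMap O R) ≤ maximalIdeal O := fun c hc => by
    have : c = 0 := hinj (by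
      rw [map_zero, IsScalarTower.algebraMap_apply O R ℂ, RingHom.mem_ker.1 hc, map_zero])
    exact this ▸ zero_mem _
  obtain ⟨Q, hQ, hQc⟩ := Ideal.exists_ideal_over_maximal_of_isIntegral (maximalIdeal O) hR
  let := Ideal.Quotient.field Q
  let g : ResidueField O →+* R ⧸ Q := Ideal.Quotient.lift _ ((Ideal.Quotient.mk Q).comp (algebraMap O R))
    fun c hc => Ideal.Quotient.eq_zero_iff_mem.2 (by rwa [← Ideal.mem_comap, hQc])
  let : Algebra (ResidueField O) (R ⧸ Q) := g.toAlgebra
  have : IsScalarTower O (ResidueField O) (R ⧸ Q) := IsScalarTower.of_algebraMap_eq fun c => rfl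
  have : Algebra.IsIntegral O (R ⧸ Q) :=
    ⟨fun x => by
      obtain ⟨r, rfl⟩ := Ideal.Quotient.mk_surjective x
      exact (Algebra.IsIntegral.isIntegral r).map (Ideal.Quotient.mkₐ O Q)⟩
  have : Algebra.IsAlgebraic (ResidueField O) (R ⧸ Q) :=
    ⟨fun x => (Algebra.IsIntegral.isIntegral (R := O) x).tower_top.isAlgebraic⟩
  let f : (R ⧸ Q) →ₐ[ResidueField O] AlgebraicClosure (ResidueField O) := IsAlgClosed.lift
  refine ⟨f.toRingHom.comp (Ideal.Quotient.mk Q), fun c => ?_⟩
  exact f.commutes (residue O c)

variable {K : Subgroup (ZMod L)ˣ} [NeZero L] [IsDomain O] [IsPrincipalIdealRing O]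

omit [IsLocalRing O] [NeZero L] [IsDomain O] [IsPrincipalIdealRing O] in
theorem theta_localizer {m : Ideal (OpRing O L S)} {e : OpRing O L S}
    (he : IsLocalizer m (HomMod O S K O) e) (θ : OpRing O L S →ₐ[O] ℂ)
    (hθ : ∀ a, localAct O e (HomMod O S K O) a = 0 → θ a = 0) {t : OpRing O L S} (ht : t ∉ m) :
    ∃ t', θ t * θ t' = 1 := by
  obtain ⟨t', ht'⟩ := he.invert t ht
  refine ⟨t', ?_⟩
  rw [← map_mul, ← sub_eq_zero, ← map_one θ, ← map_sub]
  refine hθ _ (LinearMap.ext fun x => Subtype.ext ?_)
  show (t * t' - 1) • (x : HomMod O S K O) = 0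
  rw [sub_smul, one_smul, sub_eq_zero]
  conv_lhs => rw [← show e • (x : HomMod O S K O) = x from x.2, ← mul_smul]
  rw [ht', x.2]

omit [IsLocalRing O] in
theorem isIntegral_character {e : OpRing O L S} (θ : OpRing O L S →ₐ[O] ℂ)
    (hθ : ∀ a, localAct O e (HomMod O S K O) a = 0 → θ a = 0) (a : OpRing O L S) :
    IsIntegral O (θ a) := by
  set M := localPart O e (HomMod O S K O)
  obtain ⟨q, hq, hq0⟩ := (Algebra.IsIntegral.isIntegral (R := O)
    (localAct O e (HomMod O S K O) a : Module.End O M))
  refine ⟨q, hq, ?_⟩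
  rw [← Polynomial.aeval_def, Polynomial.aeval_algHom_apply]
  refine hθ _ ?_
  rw [← Polynomial.aeval_algHom_apply]
  exact hq0

/-- The reduction of a system of the localised module is the residual system. -/
theorem red_character {e : OpRing O L S}
    (he : IsLocalizer (resIdeal S abar L) (HomMod O S K O) e) (θ : OpRing O L S →ₐ[O] ℂ)
    (hθ : ∀ a, localAct O e (HomMod O S K O) a = 0 → θ a = 0)
    {red : integralClosure O ℂ →+* AlgebraicClosure (ResidueField O)}
    (hred : ∀ c : O, red (algebraMap O (integralClosure O ℂ) c) =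
        algebraMap (ResidueField O) _ (residue O c))
    (a : OpRing O L S) {z : integralClosure O ℂ} (hz : (z : ℂ) = θ a) :
    red z = algebraMap (ResidueField O) _ (opRes S abar L a) := by
  let θR : OpRing O L S →ₐ[O] integralClosure O ℂ :=
    θ.codRestrict _ fun b => isIntegral_character θ hθ b
  have hθR : z = θR a := Subtype.ext hz
  rw [hθR]
  refine map_eq_opRes (red.comp θR.toRingHom) (fun c => ?_) (fun t ht => ?_) a
  · show red (θR (C c)) = _
    rw [← algebraMap_eq, AlgHom.commutes, hred]
  · by_contra htm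
    obtain ⟨t', ht'⟩ := theta_localizer he θ hθ htm
    have h1 : θR t * θR t' = 1 := Subtype.ext ht'
    have h2 := congrArg red h1
    rw [map_mul, map_one, show red (θR t) = 0 from ht, zero_mul] at h2
    exact zero_ne_one h2

omit [IsLocalRing O] in
/-- A nonzero localised module has a system. -/
theorem exists_character {e : OpRing O L S}
    (hne : localPart O e (HomMod O S K O) ≠ ⊥) :
    ∃ θ : OpRing O L S →ₐ[O] ℂ, ∀ a, localAct O e (HomMod O S K O) a = 0 → θ a = 0 := by
  classical
  set M := localPart O e (HomMod O S K O)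
  have : Nontrivial M := Submodule.nontrivial_iff_ne_bot.2 hne
  set bs := Module.Free.chooseBasis O M
  have : Nonempty (Module.Free.ChooseBasisIndex O M) := bs.index_nonempty
  let toMat : Module.End O M ≃ₐ[O] _ := LinearMap.toMatrixAlgEquiv bs
  let ρ : OpRing O L S →+* Module.End ℂ (Module.Free.ChooseBasisIndex O M → ℂ) :=
    Matrix.toLinAlgEquiv'.toAlgHom.toRingHom.comp ((algebraMap O ℂ).mapMatrix.comp
      (toMat.toAlgHom.toRingHom.comp (localAct O e (HomMod O S K O)).toRingHom))
  obtain ⟨θ', v, -, hv, heig⟩ := HeckeDuality.exists_eigenCharacter ρ ⊤ top_ne_bot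
    fun _ _ _ => Submodule.mem_top
  have hC : ∀ c : O, θ' (C c) = algebraMap O ℂ c := fun c => by
    refine smul_left_injective ℂ hv ((heig (C c)).symm.trans ?_)
    show Matrix.toLinAlgEquiv' ((algebraMap O ℂ).mapMatrix
      (toMat (localAct O e (HomMod O S K O) (C c)))) v = _
    rw [← algebraMap_eq, AlgHom.commutes, AlgEquiv.commutes, RingHom.mapMatrix_apply,
      Matrix.algebraMap_eq_diagonal, Matrix.diagonal_map (map_zero _)]
    exact LinearMap.congr_fun (AlgEquiv.commutes Matrix.toLinAlgEquiv' (algebraMap O ℂ c)) v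
  refine ⟨{ θ' with commutes' := hC }, fun a ha => ?_⟩
  refine smul_left_injective ℂ hv ((heig a).symm.trans ?_)
  show Matrix.toLinAlgEquiv' ((algebraMap O ℂ).mapMatrix
    (toMat (localAct O e (HomMod O S K O) a))) v = (0 : ℂ) • v
  rw [ha, map_zero, map_zero, map_zero, LinearMap.zero_apply, zero_smul]

end Fermat.Agent.RT.GammaH
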