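import Fermat.Agent.RT.Interface
import Fermat.Agent.RT.GammaH.Embed
import Fermat.Agent.RT.GammaH.EigenForm
import Fermat.Agent.RT.GammaH.Residual

/-!
# Nonzero localised modules give congruent levels

A system of the localised module at level `Γ₀(M)` is that of an eigenform of level `M` congruent to
the residual system. An eigenclass of level `L / v` with reduction the residual system makes the
level `L / v` congruent.
-/

set_option autoImplicit false

noncomputable section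

namespace Fermat.Agent.RT.GammaH

open CongruenceSubgroup MvPolynomial IsLocalRing ModularFormClass ModularCurve.Period
open scoped MatrixGroups ModularForm

variable {O : Type} [CommRing O] [IsDomain O] [IsDiscreteValuationRing O]
  [IsAdicComplete (maximalIdeal O) O] [Finite (ResidueField O)] [CharZero O]
  {S : Finset ℕ} {abar : ℕ → ResidueField O}

omit [IsAdicComplete (maximalIdeal O) O] in
/-- A nonzero localised module at level `Γ₀(M)` gives a congruent form of level `M`. -/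
theorem isCongruentLevel_of_ne_bot {M : ℕ} [NeZero M] (hM : Squarefree M)
    (hS : ∀ v : ℕ, v.Prime → v ∣ M → v ∈ S)
    (hEis : ∃ ℓ : ℕ, ℓ.Prime ∧ ℓ ∉ S ∧ abar ℓ ≠ 1 + (ℓ : ResidueField O))
    {e : OpRing O M S}
    (he : IsLocalizer (resIdeal S abar M) (HomMod O S (⊤ : Subgroup (ZMod M)ˣ) O) e)
    (hne : localPart O e (HomMod O S (⊤ : Subgroup (ZMod M)ˣ) O) ≠ ⊥) :
    IsCongruentLevel S abar M := by
  classical
  obtain ⟨σ, hσ⟩ := exists_injective_complex O
  let : Algebra O ℂ := σ.toAlgebra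
  obtain ⟨θ, hθ⟩ := exists_character hne
  obtain ⟨q, hq, hqS, hqE⟩ := hEis
  obtain ⟨P, hP, hpar⟩ := exists_parabolicOp (K := (⊤ : Subgroup (ZMod M)ˣ)) S abar hM
    (Subgroup.mem_top _) hq hqS (fun h => hqS (hS q hq h)) hqE
  obtain ⟨φ, hφ, hφpar, heig⟩ := exists_eigvec hσ he hP (fun x => hpar ℂ x) θ hθ
  set a : ℕ → ℂ := fun ℓ =>
    if h : ℓ.Prime ∧ ℓ ∉ S then θ (X (Sum.inr ⟨ℓ, h⟩)) else 0
  have hdia : ∀ u, diamond M ⊤ ℂ u φ = ((1 : (ZMod M)ˣ →* ℂˣ) u : ℂ) • φ := fun u => by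
    rw [diamond_top, MonoidHom.one_apply, Units.val_one, one_smul]
  have hT : ∀ (ℓ : ℕ) [Fact ℓ.Prime], ℓ ∉ S → hecke M ⊤ ℓ ℂ φ = a ℓ • φ := by
    intro ℓ hℓ hℓS
    have : Fact (⟨ℓ, hℓ.out, hℓS⟩ : {ℓ : ℕ // ℓ.Prime ∧ ℓ ∉ S}).1.Prime := hℓ
    have h := heig (X (Sum.inr ⟨ℓ, hℓ.out, hℓS⟩))
    rw [opC_inr] at h
    simp only [a, dif_pos (And.intro hℓ.out hℓS)]
    exact h
  obtain ⟨f, lam, hf, hf1, hseq, -, hlam⟩ :=
    exists_eigenForm (Subgroup.mem_top _) hφpar hφ hdia hT
  have hone : toDir (1 : (ZMod M)ˣ →* ℂˣ) = 1 :=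
    MulChar.ext fun u => by rw [toDir_coe, MulChar.one_apply_coe, MonoidHom.one_apply, Units.val_one]
  obtain ⟨G, hG, hGf⟩ := exists_twist_eigenForm hM (e := 0) (by rw [hone, one_pow]) hf hf1 hseq
  have hlev : twistLevel (toDir (1 : (ZMod M)ˣ →* ℂˣ)) = M := by
    have hb : badPrimes (toDir (1 : (ZMod M)ˣ →* ℂˣ)) = ∅ := Finset.eq_empty_of_forall_notMem
      fun v hv => by
        obtain ⟨u, -, hu⟩ := (mem_badPrimes.1 hv).2.2
        rw [toDir_coe, MonoidHom.one_apply, Units.val_one] at hu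
        exact hu rfl
    rw [twistLevel, hb, Finset.prod_empty, mul_one]
  suffices IsCongruentLevel S abar (twistLevel (toDir (1 : (ZMod M)ˣ →* ℂˣ))) by rwa [hlev] at this
  obtain ⟨red, hred⟩ := exists_red O hσ
  let incl : integralClosure ℤ ℂ →+* integralClosure O ℂ :=
    ((integralClosure ℤ ℂ).val.toRingHom).codRestrict (integralClosure O ℂ).toSubring
      fun z => (z.2 : IsIntegral ℤ (z : ℂ)).tower_top
  refine ⟨G, hG, red.comp incl, fun ℓ hℓ hℓS z hz => ?_⟩
  have hℓM : ℓ.Coprime M := hℓ.coprime_iff_not_dvd.2 fun h => hℓS (hS ℓ hℓ h)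
  have hcoef : qCoeff G ℓ = θ (X (Sum.inr ⟨ℓ, hℓ, hℓS⟩)) := by
    have h := hseq ℓ hℓ 1
    rw [if_neg hℓ.not_dvd_one, add_zero, one_mul, hf1, mul_one, hlam ℓ hℓ hℓS] at h
    rw [hGf, etaSeq_eq hM (u := ZMod.unitOfCoprime ℓ hℓM) (ZMod.coe_unitOfCoprime ℓ hℓM), pow_zero,
      one_mul, h]
    exact dif_pos ⟨hℓ, hℓS⟩
  show red (incl z) = _
  rw [red_character he θ hθ hred (X (Sum.inr ⟨ℓ, hℓ, hℓS⟩)) (z := incl z) (hz.trans hcoef),
    opRes_inr]

omit [IsDomain O] [IsDiscreteValuationRing O] [IsAdicComplete (maximalIdeal O) O]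
  [Finite (ResidueField O)] [CharZero O] in
/-- An operator killing `Hom(Γ_H, O)` kills the complex homomorphisms. -/
theorem opC_eq_zero_of_forall [Algebra O ℂ] {M : ℕ} {K : Subgroup (ZMod M)ˣ}
    (hw : HasSTWeight O M) (h2 : IsUnit (2 : O)) (hneg : -1 ∈ K) {a : OpRing O M S}
    (ha : ∀ x : HomMod O S K O, a • x = 0) (φ : HomC K) : opC O S K a φ = 0 := by
  show toHomMod.symm (a • (toHomMod φ : HomMod O S K ℂ)) = 0
  rw [hw.smul_eq_zero_of_forall h2 hneg ha, map_zero]

variable {p : ℕ} [Fact p.Prime] [CharP (ResidueField O) p] {L : ℕ} [NeZero L] {Δ : Type}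
  [CommGroup Δ] {ψ : (ZMod L)ˣ →* Δ} {K : Subgroup (ZMod L)ˣ}

/-- An eigenclass of level `L / v` with the system `θ` makes `L / v` a congruent level. -/
theorem isCongruentLevel_descent [Algebra O ℂ] (hinj : Function.Injective (algebraMap O ℂ))
    (hp : p ≠ 2) (hw : HasSTWeights O L) (hΔ : IsPGroup p Δ) (hψ : Function.Surjective ψ) (hK : ∀ u, u ∈ K ↔ ψ u = 1)
    (hL : Squarefree L) (hS : ∀ v : ℕ, v.Prime → v ∣ L → v ∈ S)
    (hEis : ∃ ℓ : ℕ, ℓ.Prime ∧ ℓ ∉ S ∧ abar ℓ ≠ 1 + (ℓ : ResidueField O))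
    {e : OpRing O L S} (he : IsLocalizer (resIdeal S abar L) (HomMod O S K O) e)
    (θ : OpRing O L S →ₐ[O] ℂ) (hθ : ∀ a, localAct O e (HomMod O S K O) a = 0 → θ a = 0)
    {v : ℕ} (hv : v.Prime) (hvL : v ∣ L)
    {φ' : HomC (K.map (ZMod.unitsMap (Nat.div_dvd_of_dvd hvL)))} (hφ' : φ' ≠ 0)
    (hdia : ∀ u, diamond (L / v) _ ℂ (ZMod.unitsMap (Nat.div_dvd_of_dvd hvL) u) φ' =
      θ (X (Sum.inl u)) • φ')
    (hT : ∀ ℓ : {ℓ : ℕ // ℓ.Prime ∧ ℓ ∉ S}, haveI : Fact ℓ.1.Prime := ⟨ℓ.2.1⟩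
      hecke (L / v) _ ℓ.1 ℂ φ' = θ (X (Sum.inr ℓ)) • φ') :
    IsCongruentLevel S abar (L / v) := by
  classical
  have hd := Nat.div_dvd_of_dvd hvL
  have : NeZero (L / v) := ⟨ne_zero_of_dvd_ne_zero (NeZero.ne L) hd⟩
  let um := ZMod.unitsMap hd
  have hum : Function.Surjective um := ZMod.unitsMap_surjective hd
  let K' : Subgroup (ZMod (L / v))ˣ := K.map um
  have hS' : ∀ w : ℕ, w.Prime → w ∣ L / v → w ∈ S := fun w hw h => hS w hw (h.trans hd)
  -- the quotient group at the lower level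
  let ψ' : (ZMod (L / v))ˣ →* (ZMod (L / v))ˣ ⧸ K' := QuotientGroup.mk' K'
  have hK' : ∀ u, u ∈ K' ↔ ψ' u = 1 := fun u => (QuotientGroup.eq_one_iff u).symm
  have hker : ψ.ker ≤ (ψ'.comp um).ker := fun u hu => by
    rw [MonoidHom.mem_ker, MonoidHom.comp_apply, ← hK']
    exact Subgroup.mem_map_of_mem _ ((hK u).2 hu)
  have hΔ' : IsPGroup p ((ZMod (L / v))ˣ ⧸ K') := by
    refine hΔ.of_surjective (MonoidHom.liftOfSurjective ψ hψ ⟨ψ'.comp um, hker⟩) fun x => ?_
    obtain ⟨y, rfl⟩ := (QuotientGroup.mk'_surjective K').comp hum x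
    exact ⟨ψ y, MonoidHom.liftOfRightInverse_comp_apply _ _ _ _ _⟩
  have := Fintype.ofFinite ((ZMod (L / v))ˣ ⧸ K')
  obtain ⟨e', he', he₀, b, hb⟩ := exists_freeData (O := O) (p := p) (Δ := (ZMod (L / v))ˣ ⧸ K') (ψ := ψ') (K := K') S abar hp (hw.2 v hv hvL) hΔ'
    (QuotientGroup.mk'_surjective K') hK' hS' hEis
  refine isCongruentLevel_of_ne_bot (hL.squarefree_of_dvd hd) hS' hEis he₀ fun hbot => ?_
  -- hence the localised module of level `K'` vanishes
  have hrank : Module.finrank O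
      (localPart O e' (HomMod O S (⊤ : Subgroup (ZMod (L / v))ˣ) O)) = 0 := by
    rw [hbot, finrank_bot]
  have he0 : ∀ x : HomMod O S K' O, e' • x = 0 := fun x => by
    have : IsEmpty (Fin (Module.finrank O
        (localPart O e' (HomMod O S (⊤ : Subgroup (ZMod (L / v))ˣ) O)))) := hrank ▸ inferInstance
    obtain ⟨c, hc⟩ := hb.2 ⟨_, he'.smul_self_mem x⟩
    rw [Subsingleton.elim c 0] at hc
    simpa using (congrArg Subtype.val hc).symm
  have hnegK : (-1 : (ZMod L)ˣ) ∈ K :=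
    (hK _).2 (MonoidHom.mem_ker.1 (neg_one_mem_ker (p := p) ψ hp hΔ))
  have hneg' : -1 ∈ K' :=
    ⟨-1, hnegK, Units.ext (by simp only [um, ZMod.unitsMap_def, Units.coe_map, Units.val_neg,
      Units.val_one, MonoidHom.coe_coe, map_neg, map_one])⟩
  have he1 : opC O S K' e' φ' = 0 :=
    opC_eq_zero_of_forall (hw.2 v hv hvL) (isUnit_two (O := O) (p := p) hp) hneg' he0 φ'
  -- but its system reduces to the residual one
  let θ' : OpRing O (L / v) S →ₐ[O] ℂ :=
    aeval (Sum.elim (fun u => θ (X (Sum.inl (Function.surjInv hum u))))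
      fun ℓ => θ (X (Sum.inr ℓ)))
  have heig : ∀ a, opC O S K' a φ' = θ' a • φ' := by
    intro a
    induction a using MvPolynomial.induction_on with
    | C z => rw [opC_C, Module.algebraMap_end_apply, ← algebraMap_eq, AlgHom.commutes]
    | add a b ha hb => rw [map_add, map_add, LinearMap.add_apply, ha, hb, add_smul]
    | mul_X a i ha =>
      have hi : opC O S K' (X i) φ' = θ' (X i) • φ' := by
        rcases i with u | ℓ
        · rw [opC_inl, show θ' (X (Sum.inl u)) = θ (X (Sum.inl (Function.surjInv hum u))) by simp [θ']]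
          have h := hdia (Function.surjInv hum u)
          rw [show ZMod.unitsMap (Nat.div_dvd_of_dvd hvL) (Function.surjInv hum u) = u from
            Function.surjInv_eq hum u] at h
          exact h
        · have : Fact ℓ.1.Prime := ⟨ℓ.2.1⟩
          rw [opC_inr, show θ' (X (Sum.inr ℓ)) = θ (X (Sum.inr ℓ)) by simp [θ'], hT]
      rw [map_mul, map_mul, Module.End.mul_apply, hi, map_smul, ha, smul_smul, mul_comm]
  have h0 : θ' e' = 0 := by
    have h := (heig e').symm.trans he1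
    exact (smul_eq_zero.1 h).resolve_right hφ'
  obtain ⟨red, hred⟩ := exists_red O hinj
  have hint : ∀ a, θ' a ∈ integralClosure O ℂ := fun a => by
    induction a using MvPolynomial.induction_on with
    | C z => rw [← algebraMap_eq, AlgHom.commutes]; exact (integralClosure O ℂ).algebraMap_mem z
    | add a b ha hb => rw [map_add]; exact add_mem ha hb
    | mul_X a i ha =>
      rw [map_mul]
      refine mul_mem ha ?_
      rcases i with u | ℓ <;> simp only [θ', aeval_X, Sum.elim_inl, Sum.elim_inr] <;>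
        exact isIntegral_character θ hθ _
  let θR : OpRing O (L / v) S →ₐ[O] integralClosure O ℂ := θ'.codRestrict _ hint
  have hres : ∀ a, red (θR a) = algebraMap _ _ (opRes S abar (L / v) a) := fun a => by
    induction a using MvPolynomial.induction_on with
    | C z => simp only [← algebraMap_eq, AlgHom.commutes, hred, ResidueField.algebraMap_eq]
    | add a b ha hb => simp only [map_add, ha, hb]
    | mul_X a i ha =>
      simp only [map_mul, ha]
      congr 1
      rcases i with u | ℓ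
      · rw [opRes_inl, red_character he θ hθ hred (X (Sum.inl (Function.surjInv hum u)))
          (z := θR (X (Sum.inl u))) (by simp [θR, θ']), opRes_inl]
      · rw [opRes_inr, red_character he θ hθ hred (X (Sum.inr ℓ))
          (z := θR (X (Sum.inr ℓ))) (by simp [θR, θ']), opRes_inr]
  have h1 : opRes S abar (L / v) e' = 1 := by
    have h := he'.sub_one_mem
    rwa [mem_resIdeal, map_sub, map_one, sub_eq_zero] at h
  have h2 := hres e'
  rw [show θR e' = 0 from Subtype.ext h0, map_zero, h1, map_one] at h2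
  exact zero_ne_one h2

end Fermat.Agent.RT.GammaH
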