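import Fermat.Agent.RT.GammaH.AtkinLehnerNeb
import Fermat.Agent.RT.GammaH.EigenForm

/-!
# `v ^ 2` divides the level of the twisted newform when the character is nontrivial at `v`
-/

set_option autoImplicit false

noncomputable section

open CongruenceSubgroup UpperHalfPlane ModularFormClass
open scoped MatrixGroups ModularForm

namespace Fermat.Agent.RT.GammaH

open Fermat.Agent.Newforms (ALData hOp)

section General

variable {M L : ℕ} {ε : DirichletCharacter ℂ L} {f : ℍ → ℂ} {a : ℕ → ℂ}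

theorem IsNeb.isBounded (hf : IsNeb M ε f) : IsBoundedAtImInfty f := by
  have h := hf.cusp.2 1
  rw [map_one, SlashAction.slash_one] at h
  exact h.isBoundedAtImInfty

theorem IsNeb.periodic [NeZero M] (hf : IsNeb M ε f) (hL : L ∣ M) :
    Function.Periodic (f ∘ ofComplex) 1 := by
  simpa using SlashInvariantFormClass.periodic_comp_ofComplex (hf.toForm hL)
    DeligneSerre.one_mem_strictPeriods_gamma1

theorem IsNeb.hasCoeff_heckeU [NeZero M] (hf : IsNeb M ε f) (hL : L ∣ M) (ha : HasCoeff f a)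
    {p : ℕ} (hp : p ≠ 0) : HasCoeff (ModularForm.heckeU 2 p f) fun n => a (n * p) := fun τ => by
  simpa [ModularForm.coeffHeckeU, smul_eq_mul, hf.qCoeff_eq hL ha] using
    P2MW.S_UpperHalfPlane_qCoeff_heckeU.M4cP1W2.hasSum_heckeU hp (hf.periodic hL) hf.cusp.1
      hf.isBounded 2 τ

theorem hasCoeff_slash_diag (ha : HasCoeff f a) {p : ℕ} (hp : p ≠ 0) :
    HasCoeff (f ∣[(2 : ℤ)] ModularForm.heckeDiagMatrix p)
      fun n => if p ∣ n then (p : ℂ) * a (n / p) else 0 := fun τ => by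
  rw [ModularForm.slash_heckeDiagMatrix_apply 2 hp, show (2 : ℤ) - 1 = 1 by norm_num, zpow_one]
  have h := (ha (ModularForm.heckeDiagMatrix p • τ)).mul_left (p : ℂ)
  rw [← Function.Injective.hasSum_iff (f := fun m => (if p ∣ m then (p : ℂ) * a (m / p) else 0) *
      Function.Periodic.qParam 1 τ ^ m) (g := fun m => p * m) (mul_right_injective₀ hp)]
  · refine h.congr_fun fun m => ?_
    simp only [Function.comp_apply, dvd_mul_right, if_true,
      Nat.mul_div_cancel_left m (Nat.pos_of_ne_zero hp)]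
    rw [pow_mul, mul_assoc]
    congr 3
    rw [Function.Periodic.qParam, Function.Periodic.qParam, ← Complex.exp_nat_mul,
      ModularForm.coe_heckeDiagMatrix_smul hp]
    congr 1
    ring
  · intro m hm
    rw [if_neg, zero_mul]
    rintro ⟨e, rfl⟩
    exact hm ⟨e, rfl⟩

theorem isNeb_cuspForm [NeZero M] (g : CuspForm (Gamma0 M) 2) :
    IsNeb M (1 : DirichletCharacter ℂ 1) g :=
  ⟨Newforms.isCuspFn_cuspForm g, fun γ hγ => by
    rw [MulChar.one_apply (isUnit_of_subsingleton _), one_smul, Newforms.slash_gamma0_eq g hγ]⟩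

theorem IsNeb.slash_eq_of_trivial {f : ℍ → ℂ} (hf : IsNeb M (1 : DirichletCharacter ℂ 1) f)
    {γ : SL(2, ℤ)} (hγ : γ ∈ Gamma0 M) : f ∣[(2 : ℤ)] γ = f := by
  rw [hf.neb γ hγ, MulChar.one_apply (isUnit_of_subsingleton _), one_smul]

/-- Eigenforms with the same eigenvalues at good primes have the same coefficients prime to the
level. -/
theorem qCoeff_eq_of_coprime {N M : ℕ} [NeZero N] {G : CuspForm (Gamma0 N) 2}
    (hG : G.IsNormalizedEigenform) {g : CuspForm (Gamma0 M) 2} (hg : g.IsNormalizedEigenform)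
    (hMN : M ∣ N) (heq : ∀ ℓ, ℓ.Prime → ¬ ℓ ∣ N → qCoeff g ℓ = qCoeff G ℓ) {n : ℕ}
    (hn : n.Coprime N) : qCoeff G n = qCoeff g n := by
  have : NeZero M := ⟨fun h => NeZero.ne N (Nat.eq_zero_of_zero_dvd (h ▸ hMN))⟩
  set u := G + (-1 : ℂ) • Newforms.levelIncl hMN g with hu
  have hc : ∀ m, qCoeff u m = qCoeff G m - qCoeff g m := fun m => by
    rw [hu, Newforms.qCoeff_add, Newforms.qCoeff_smul, Newforms.qCoeff_levelIncl]
    ring
  have h := Newforms.qCoeff_eq_zero_of_coprime (f := u) (lam := fun ℓ => qCoeff G ℓ)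
    (fun ℓ hℓ hℓN => by
      rw [hu, map_add, map_smul, Newforms.hOp_levelIncl hℓ hMN
        ⟨fun h => absurd h hℓN, fun h => h.trans hMN⟩,
        Newforms.hOp_of_isNormalizedEigenform hG hℓ, Newforms.hOp_of_isNormalizedEigenform hg hℓ,
        heq ℓ hℓ hℓN, map_smul, smul_add, smul_comm])
    (by rw [hc, hG.qCoeff_one, hg.qCoeff_one, sub_self]) n hn
  rwa [hc, sub_eq_zero] at h

theorem dvd_mul_of_not_sq_dvd {v R M : ℕ} (hv : v.Prime) (h : M ∣ v * v * R) (hM : ¬ v ^ 2 ∣ M) :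
    M ∣ v * R := by
  by_cases hvM : v ∣ M
  · obtain ⟨M', rfl⟩ := hvM
    rw [mul_assoc] at h
    have h' := (Nat.mul_dvd_mul_iff_left hv.pos).1 h
    refine Nat.mul_dvd_mul_left v (Nat.Coprime.dvd_of_dvd_mul_left ?_ h')
    exact ((hv.coprime_iff_not_dvd).2 fun hh => hM (by
      rw [pow_two]; exact Nat.mul_dvd_mul_left v hh)).symm
  · have hc : M.Coprime v := ((hv.coprime_iff_not_dvd).2 hvM).symm
    exact ((hc.mul_right hc).dvd_of_dvd_mul_left h).trans (dvd_mul_left R v)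

end General

variable {L : ℕ} [NeZero L] {K : Subgroup (ZMod L)ˣ} {χ : (ZMod L)ˣ →* ℂˣ} {e : ℕ}

theorem sq_dvd_newform_level (hL : Squarefree L) (he : toDir χ ^ (2 * e + 1) = 1) {v : ℕ}
    (hvb : v ∈ badPrimes (toDir χ)) {f : FormH L K} (hf : IsChiForm χ f)
    {G : CuspForm (Gamma0 (twistLevel (toDir χ))) 2} (hG : G.IsNormalizedEigenform)
    (hGf : ∀ n, qCoeff G n = etaSeq (toDir χ) e n * qCoeff f n) {M : ℕ}
    {g : CuspForm (Gamma0 M) 2} (hMN : M ∣ twistLevel (toDir χ)) (hg : g.IsNormalizedEigenform)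
    (heq : ∀ ℓ, ℓ.Prime → ¬ ℓ ∣ twistLevel (toDir χ) → qCoeff g ℓ = qCoeff G ℓ) :
    v ^ 2 ∣ M := by
  classical
  by_contra hv2
  obtain ⟨hv, hvL, -⟩ := mem_badPrimes.1 hvb
  have : Fact v.Prime := ⟨hv⟩
  have := neZero_twistLevel (χ := toDir χ)
  set s := (badPrimes (toDir χ)).erase v with hs
  set R₀ := L / v with hR₀
  set R := R₀ * ∏ w ∈ s, w with hR
  have hR₀pos : NeZero R₀ :=
    ⟨(Nat.div_pos (Nat.le_of_dvd (Nat.pos_of_ne_zero (NeZero.ne L)) hvL) hv.pos).ne'⟩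
  have hvR₀ : ¬ v ∣ R₀ := coprime_div_of_squarefree hL hv hvL
  have hsprime : ∀ w ∈ s, w.Prime := fun w hw => (mem_badPrimes.1 (Finset.mem_of_mem_erase hw)).1
  have : NeZero R := ⟨mul_ne_zero (NeZero.ne R₀)
    (Finset.prod_ne_zero_iff.2 fun w hw => (hsprime w hw).ne_zero)⟩
  have hvR : ¬ v ∣ R := by
    refine hv.prime.not_dvd_mul hvR₀ ?_
    rw [hv.prime.dvd_finsetProd_iff]
    rintro ⟨w, hw, hvw⟩
    exact (Finset.mem_erase.1 hw).1 ((Nat.prime_dvd_prime_iff_eq hv (hsprime w hw)).1 hvw).symm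
  have hLv : L = v * R₀ := (Nat.mul_div_cancel' hvL).symm
  have hlevel : L * ∏ w ∈ s, w = v * R := by rw [hR, ← mul_assoc, ← hLv]
  have hN : twistLevel (toDir χ) = v * v * R := by
    rw [twistLevel, ← Finset.mul_prod_erase _ (fun w => w) hvb, ← hs, mul_left_comm, hlevel,
      mul_assoc]
  -- the partial twist, with nebentype of modulus `v`
  obtain ⟨F, hF, hFa, -⟩ := exists_twist_set hL he (Finset.erase_subset v _)
    (isNeb_of_isChiForm hf) (hasCoeff_formH f)
  rw [← hs, hlevel] at hF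
  set α := etaComp (toDir χ) e v with hα
  set εv : DirichletCharacter ℂ v := (α ^ 2)⁻¹ with hεv
  have hεs : toDir χ * (∏ w ∈ s, etaLift (toDir χ) e w) ^ 2 =
      DirichletCharacter.changeLevel hvL εv := by
    have h1 : (toDir χ * (∏ w ∈ s, etaLift (toDir χ) e w) ^ 2) *
        DirichletCharacter.changeLevel hvL α ^ 2 = 1 := by
      rw [mul_assoc, ← mul_pow,
        show DirichletCharacter.changeLevel hvL α = etaLift (toDir χ) e v by
        rw [etaLift, dif_pos hvL], hs, Finset.prod_erase_mul _ _ hvb, prod_etaLift_eq_pow hL,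
        ← pow_mul, ← pow_succ', mul_comm e, he]
    rw [hεv, map_inv, map_pow, eq_inv_iff_mul_eq_one, h1]
  have hFv : IsNeb (v * R) εv F := by
    refine ⟨hF.cusp, fun γ hγ => ?_⟩
    have hL' : L ∣ v * R := by rw [← hlevel]; exact dvd_mul_right _ _
    have hu : IsUnit ((γ 1 1 : ℤ) : ZMod L) := DeligneSerre.isUnit_lowerRight
      (Newforms.mem_gamma0_iff_dvd.2 ((Int.natCast_dvd_natCast.2 hL').trans
        (Newforms.mem_gamma0_iff_dvd.1 hγ)))
    rw [hF.neb γ hγ, hεs, ← hu.unit_spec, DirichletCharacter.changeLevel_eq_cast_of_dvd,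
      hu.unit_spec, ZMod.cast_intCast hvL]
  -- depletion at the other primes of the level, then the twist at `v`
  have hr : R₀ ∣ v * R := (dvd_mul_right _ _).trans (dvd_mul_left R v)
  have : NeZero (v * R * R₀) :=
    ⟨mul_ne_zero (mul_ne_zero hv.ne_zero (NeZero.ne R)) (NeZero.ne R₀)⟩
  obtain ⟨F1, hF1, hF1a, -⟩ := exists_deplete (r := R₀) hr (dvd_mul_right v R) hFv hFa
  have hα1 : α ≠ 1 := etaComp_ne_one hL he hvb
  have hvM1 : v ∣ v * R * R₀ := (dvd_mul_right v R).trans (dvd_mul_right _ _)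
  obtain ⟨H, hH, hHa, hHdef⟩ := exists_twist_prime hvM1 dvd_rfl hvM1 hF1 hF1a hα1
  -- the old function
  have hM : NeZero M :=
    ⟨fun h => NeZero.ne (twistLevel (toDir χ)) (Nat.eq_zero_of_zero_dvd (h ▸ hMN))⟩
  have hMvR : M ∣ v * R := dvd_mul_of_not_sq_dvd hv (hN ▸ hMN) hv2
  obtain ⟨A, hA, hAa, -⟩ := exists_deplete (r := R₀) hr (one_dvd _)
    ((isNeb_cuspForm g).of_dvd hMvR) ((isNeb_cuspForm g).hasCoeff (one_dvd M))
  have hkey : H = A + (-(v : ℂ)⁻¹) •
      (ModularForm.heckeU 2 v A ∣[(2 : ℤ)] ModularForm.heckeDiagMatrix v) := by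
    refine HasCoeff.ext hHa ((hAa.add ((hasCoeff_slash_diag
      (hA.hasCoeff_heckeU (one_dvd _) hAa hv.ne_zero) hv.ne_zero).smul _)).congr fun n => ?_)
    have hv0 : (v : ℂ) ≠ 0 := Nat.cast_ne_zero.2 hv.ne_zero
    by_cases hvn : v ∣ n
    · obtain ⟨m, rfl⟩ := hvn
      have hα0 : α ((v * m : ℕ) : ZMod v) = 0 := by
        rw [Nat.cast_mul, ZMod.natCast_self, zero_mul, MulChar.map_zero]
      rw [if_pos (dvd_mul_right v m), Nat.mul_div_cancel_left _ hv.pos, hα0, zero_mul,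
        mul_comm m v]
      field_simp
      ring
    · rw [if_neg hvn, mul_zero, add_zero]
      by_cases hn : n.Coprime R₀
      · rw [if_pos hn, if_pos hn]
        have hnL : n.Coprime L := by
          rw [hLv]; exact Nat.Coprime.mul_right ((hv.coprime_iff_not_dvd.2 hvn).symm) hn
        have hnN : n.Coprime (twistLevel (toDir χ)) :=
          (hnL.mul_right hnL).coprime_dvd_right (by rw [← pow_two]; exact twistLevel_dvd_sq)
        rw [← qCoeff_eq_of_coprime hG hg hMN heq hnN, hGf, etaSeq,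
          ← Finset.mul_prod_erase _ _ hvb, ← hs, mul_assoc]
      · rw [if_neg hn, if_neg hn, mul_zero]
  obtain ⟨x, y, hxy⟩ := Nat.isCoprime_iff_coprime.2
    ((hv.coprime_iff_not_dvd.2 (hv.prime.not_dvd_mul hvR hvR₀)).pow_left 2)
  let D : ALData (v * v) (R * R₀) :=
    ⟨mul_ne_zero hv.ne_zero hv.ne_zero, x, -y, 1, 1, by
      push_cast at hxy ⊢
      linear_combination hxy⟩
  have hF1' : IsNeb (v * (R * R₀)) εv F1 := by rw [← mul_assoc]; exact hF1
  have hW : ModularForm.heckeU 2 v (H ∣[(2 : ℤ)] D.gl) = 0 := by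
    rw [hHdef]
    exact heckeU_twist_slash_al D (by rw [hεv, inv_mul_cancel]) hα1 hF1' _
  have hzero := eq_zero_of_old hv (hv.prime.not_dvd_mul hvR hvR₀) D
    (fun γ hγ => hA.slash_eq_of_trivial (by rwa [mul_assoc])) hkey hW
  have : NeZero (v * R * R₀ * v) := ⟨mul_ne_zero (NeZero.ne _) hv.ne_zero⟩
  have h1 := (hH.eq_zero_iff (hvM1.trans (dvd_mul_right _ _)) hHa).1 hzero 1
  rw [if_pos (Nat.coprime_one_left _)] at h1
  have hG1 := hG.qCoeff_one
  rw [hGf, etaSeq, ← Finset.mul_prod_erase _ _ hvb, ← hs, mul_assoc, h1] at hG1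
  exact zero_ne_one hG1

end Fermat.Agent.RT.GammaH
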