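import Fermat.Agent.RT.Interface
import Fermat.Agent.RT.GammaH.Congruent
import Fermat.Agent.RT.GammaH.Eigen
import Fermat.Agent.RT.GammaH.Lattice

/-!
# The Hecke module of `Γ_H`

The localised module `Hom(ker ψ, O)_𝔪` is a `HeckeModule`; its rank is positive exactly when the
level is congruent and at most twice the dimension of `S₂(Γ₀(L))`.
-/

set_option autoImplicit false

noncomputable section

namespace Fermat.Agent.RT.GammaH

open CongruenceSubgroup MvPolynomial IsLocalRing ModularCurve.Period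
open scoped MatrixGroups

variable {O : Type} [CommRing O] [IsDomain O] [IsDiscreteValuationRing O]
  [IsAdicComplete (maximalIdeal O) O] [Finite (ResidueField O)] [CharZero O]
  {p : ℕ} [Fact p.Prime] [CharP (ResidueField O) p] {L : ℕ} [NeZero L] {Δ : Type} [CommGroup Δ]
  {ψ : (ZMod L)ˣ →* Δ} {S : Finset ℕ} {abar : ℕ → ResidueField O} {K : Subgroup (ZMod L)ˣ}

omit [IsAdicComplete (maximalIdeal O) O] [CharZero O] in
/-- Elements of the residual ideal are nilpotent modulo the maximal ideal. -/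
theorem localAct_pow_mem {e : OpRing O L S}
    (he : IsLocalizer (resIdeal S abar L) (HomMod O S K O) e) {r : OpRing O L S}
    (hr : r ∈ resIdeal S abar L) :
    ∃ n : ℕ, ∀ x : localPart O e (HomMod O S K O),
      (localAct O e (HomMod O S K O) r ^ n) x ∈
        maximalIdeal O • (⊤ : Submodule O (localPart O e (HomMod O S K O))) := by
  obtain ⟨n, hn⟩ := he.exists_pow_smul_mem (O := O) hr (resIdeal_ne_top S abar)
  refine ⟨n, fun x => ?_⟩
  have himg : (maximalIdeal O • (⊤ : Submodule O (localPart O e (HomMod O S K O)))).map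
      (localPart O e (HomMod O S K O)).subtype = maximalIdeal O • localPart O e (HomMod O S K O) := by
    rw [Submodule.map_smul'', Submodule.map_top, Submodule.range_subtype]
  obtain ⟨y, hy, hyx⟩ := Submodule.mem_map.1 (himg.symm ▸ hn x x.2)
  rw [← map_pow]
  exact (show y = localAct O e (HomMod O S K O) (r ^ n) x from Subtype.ext hyx) ▸ hy

omit [IsAdicComplete (maximalIdeal O) O] in
/-- The rank at level `Γ₀(L)` is at most twice the number of cusp forms. -/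
theorem finrank_localPart_le (hL : Squarefree L) (hS : ∀ v : ℕ, v.Prime → v ∣ L → v ∈ S)
    (hEis : ∃ ℓ : ℕ, ℓ.Prime ∧ ℓ ∉ S ∧ abar ℓ ≠ 1 + (ℓ : ResidueField O))
    {e : OpRing O L S}
    (he : IsLocalizer (resIdeal S abar L) (HomMod O S (⊤ : Subgroup (ZMod L)ˣ) O) e) :
    Module.finrank O (localPart O e (HomMod O S (⊤ : Subgroup (ZMod L)ˣ) O)) ≤
      2 * Module.finrank ℂ (CuspForm (Gamma0 L) 2) := by
  obtain ⟨σ, hσ⟩ := exists_injective_complex O
  let : Algebra O ℂ := σ.toAlgebra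
  obtain ⟨q, hq, hqS, hqE⟩ := hEis
  have hneg : (-1 : (ZMod L)ˣ) ∈ (⊤ : Subgroup (ZMod L)ˣ) := Subgroup.mem_top _
  obtain ⟨P, hP, hpar⟩ := exists_parabolicOp (K := (⊤ : Subgroup (ZMod L)ˣ)) S abar hL hneg hq hqS
    (fun h => hqS (hS q hq h)) hqE
  set bs := Module.Free.chooseBasis O (localPart O e (HomMod O S (⊤ : Subgroup (ZMod L)ˣ) O))
  let v : _ → parabolicHoms ℂ (gammaH L (⊤ : Subgroup (ZMod L)ˣ)) ℂ := fun i =>
    ⟨opC O S (⊤ : Subgroup (ZMod L)ˣ) P (toHomC (bs i : HomMod O S (⊤ : Subgroup (ZMod L)ˣ) O)),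
      hpar ℂ (toHomMod (toHomC (bs i : HomMod O S (⊤ : Subgroup (ZMod L)ˣ) O)))⟩
  have hv : LinearIndependent ℂ v :=
    LinearIndependent.of_comp (parabolicHoms ℂ (gammaH L (⊤ : Subgroup (ZMod L)ˣ)) ℂ).subtype
      (linearIndependent_parabolic hσ he hP bs.linearIndependent)
  have := finiteDimensional_parabolicHoms (M := L) hneg
  rw [Module.finrank_eq_card_chooseBasisIndex]
  refine hv.fintype_card_le_finrank.trans ?_
  rw [finrank_parabolicHoms_eq _ (neg_one_mem_gammaH hneg), gammaH_top,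
    finrank_cuspForm_two_eq_genusOf (Gamma0 L)]
  exact Gamma0_mem.2 (by simp)

/-- The Hecke module of level `ker ψ` as a localised module with its operators, with the localiser
computing its rank. -/
theorem exists_heckeModule_equiv [Finite Δ] (hp : p ≠ 2) (hw : HasSTWeights O L) (hΔ : IsPGroup p Δ)
    (hψ : Function.Surjective ψ) (hL : Squarefree L) (hS : ∀ v : ℕ, v.Prime → v ∣ L → v ∈ S)
    (hEis : ∃ ℓ : ℕ, ℓ.Prime ∧ ℓ ∉ S ∧ abar ℓ ≠ 1 + (ℓ : ResidueField O)) :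
    ∃ (H : HeckeModule L ψ S abar) (e : OpRing O L S)
      (Φ : H.M ≃ₗ[O] localPart O e (HomMod O S ψ.ker O)),
      IsLocalizer (resIdeal S abar L) (HomMod O S (⊤ : Subgroup (ZMod L)ˣ) O) e ∧
      IsLocalizer (resIdeal S abar L) (HomMod O S ψ.ker O) e ∧
      H.d = Module.finrank O (localPart O e (HomMod O S (⊤ : Subgroup (ZMod L)ˣ) O)) ∧
      (0 < H.d ↔ IsCongruentLevel S abar L) ∧
      (∀ (ℓ : {ℓ : ℕ // ℓ.Prime ∧ ℓ ∉ S}) (x : H.M),
        Φ (H.T ℓ.1 x) = localAct O e (HomMod O S ψ.ker O) (X (Sum.inr ℓ)) (Φ x)) ∧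
      ∀ (u : (ZMod L)ˣ) (x : H.M),
        Φ (H.dia (ψ u) x) = localAct O e (HomMod O S ψ.ker O) (X (Sum.inl u)) (Φ x) := by
  classical
  have := Fintype.ofFinite Δ
  have hK : ∀ u, u ∈ ψ.ker ↔ ψ u = 1 := fun u => MonoidHom.mem_ker
  obtain ⟨e, he, he₀, b, hb⟩ := exists_freeData (O := O) (p := p) (K := ψ.ker) S abar hp hw.1 hΔ hψ hK hS hEis
  set H₁ := HomMod O S ψ.ker O
  set act : OpRing O L S →ₐ[O] Module.End O (localPart O e H₁) := localAct O e H₁
  have hneg : (-1 : (ZMod L)ˣ) ∈ ψ.ker := neg_one_mem_ker (p := p) ψ hp hΔ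
  have hcongr : ∀ {u v : (ZMod L)ˣ}, ψ u = ψ v → act (X (Sum.inl u)) = act (X (Sum.inl v)) := by
    intro u v h
    refine LinearMap.ext fun x => Subtype.ext ?_
    show (X (Sum.inl u) : OpRing O L S) • (x : H₁) = (X (Sum.inl v) : OpRing O L S) • (x : H₁)
    rw [X_inl_smul, X_inl_smul, diamond_congr_ker hK h]
  let dia : Δ →* Module.End O (localPart O e H₁) :=
    { toFun := fun δ => act (X (Sum.inl (psiInv hψ δ)))
      map_one' := by
        refine (hcongr (v := 1) (by rw [psiInv, Function.surjInv_eq hψ, map_one])).trans ?_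
        refine LinearMap.ext fun x => Subtype.ext ?_
        show (X (Sum.inl 1) : OpRing O L S) • (x : H₁) = (x : H₁)
        rw [X_inl_smul]
        exact diamond_of_mem O (one_mem _) (x : H₁)
      map_mul' := fun δ ε => by
        refine (hcongr (v := psiInv hψ δ * psiInv hψ ε)
          (by simp only [map_mul, psiInv, Function.surjInv_eq hψ])).trans ?_
        refine LinearMap.ext fun x => Subtype.ext ?_
        show (X (Sum.inl (psiInv hψ δ * psiInv hψ ε)) : OpRing O L S) • (x : H₁) =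
          (X (Sum.inl (psiInv hψ δ)) : OpRing O L S) •
            (X (Sum.inl (psiInv hψ ε)) : OpRing O L S) • (x : H₁)
        rw [X_inl_smul, X_inl_smul, X_inl_smul]
        exact diamond_mul O _ _ (x : H₁) }
  have hdia : ∀ u, dia (ψ u) = act (X (Sum.inl u)) := fun u =>
    hcongr (Function.surjInv_eq hψ (ψ u))
  let T : ℕ → Module.End O (localPart O e H₁) := fun ℓ =>
    if h : ℓ.Prime ∧ ℓ ∉ S then act (X (Sum.inr ⟨ℓ, h⟩)) else 0
  have hT : ∀ ℓ : {ℓ : ℕ // ℓ.Prime ∧ ℓ ∉ S}, T ℓ.1 = act (X (Sum.inr ℓ)) := fun ℓ => dif_pos ℓ.2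
  set 𝒯 := Algebra.adjoin O (Set.range dia ∪ T '' {ℓ | ℓ.Prime ∧ ℓ ∉ S}) with h𝒯
  have hmem : ∀ a, act a ∈ 𝒯 := fun a => by
    induction a using MvPolynomial.induction_on with
    | C c => rw [← algebraMap_eq, AlgHom.commutes]; exact 𝒯.algebraMap_mem c
    | add a b ha hb => rw [map_add]; exact add_mem ha hb
    | mul_X a i ha =>
      rw [map_mul]
      refine mul_mem ha (Algebra.subset_adjoin ?_)
      rcases i with u | ℓ
      · exact Or.inl ⟨ψ u, hdia u⟩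
      · exact Or.inr ⟨ℓ.1, ℓ.2, hT ℓ⟩
  have hle : 𝒯 ≤ act.range := by
    refine Algebra.adjoin_le ?_
    rintro _ (⟨δ, rfl⟩ | ⟨ℓ, hℓ, rfl⟩)
    · exact ⟨_, rfl⟩
    · exact ⟨_, (hT ⟨ℓ, hℓ⟩).symm⟩
  let actR : OpRing O L S →ₐ[O] 𝒯 := act.codRestrict 𝒯 hmem
  have hodd : Odd (Nat.card ((ZMod L)ˣ ⧸ ψ.ker)) := by
    obtain ⟨E, -⟩ := exists_deltaEquiv hK hψ
    obtain ⟨k, hk⟩ := IsPGroup.iff_card.1 hΔ
    rw [← Nat.card_congr E, hk]
    exact ((Fact.out : p.Prime).odd_of_ne_two (by omega)).pow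
  have hhalf : (Nat.card ((ZMod L)ˣ ⧸ ψ.ker) - 1) / 2 = halfInvExp Δ := by
    obtain ⟨E, -⟩ := exists_deltaEquiv hK hψ
    rw [halfInvExp, Nat.card_congr E]
  obtain ⟨q, hq, hqS, hqE⟩ := hEis
  have hqL : ¬ q ∣ L := fun h => hqS (hS q hq h)
  obtain ⟨P, hP, hpar⟩ := exists_parabolicOp (K := ψ.ker) S abar hL hneg hq hqS hqL hqE
  refine ⟨{
    M := localPart O e H₁
    d := Module.finrank O (localPart O e (HomMod O S (⊤ : Subgroup (ZMod L)ˣ) O))
    basis := b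
    T := T
    dia := dia
    basis_bijective := hb
    T_comm := fun ℓ ℓ' => ?_
    dia_comm := fun ℓ δ => ?_
    residual := fun ℓ hℓ hℓS a ha => ?_
    isReduced := ⟨?_⟩
    eigen := fun θ => ?_ }, e, LinearEquiv.refl O _, he₀, he, rfl, ?_,
    fun ℓ x => LinearMap.congr_fun (hT ℓ) x, fun u x => LinearMap.congr_fun (hdia u) x⟩
  · simp only [T]
    split_ifs <;> simp only [zero_mul, mul_zero, ← map_mul, mul_comm]
  · simp only [T]
    split_ifs with h
    · show act (X (Sum.inr ⟨ℓ, h⟩)) * act (X (Sum.inl (psiInv hψ δ))) =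
        act (X (Sum.inl (psiInv hψ δ))) * act (X (Sum.inr ⟨ℓ, h⟩))
      rw [← map_mul, mul_comm, map_mul]
    · rw [zero_mul, mul_zero]
  · have hr : X (Sum.inr ⟨ℓ, hℓ, hℓS⟩) - C a ∈ resIdeal S abar L := by
      rw [mem_resIdeal, map_sub, opRes_inr, ← algebraMap_eq, AlgHom.commutes,
        ResidueField.algebraMap_eq, ha, sub_self]
    obtain ⟨n, hn⟩ := localAct_pow_mem he hr
    refine ⟨n, fun x => ?_⟩
    have h := hn x
    rwa [map_sub, ← hT ⟨ℓ, hℓ, hℓS⟩, ← algebraMap_eq, AlgHom.commutes,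
      Algebra.algebraMap_eq_smul_one] at h
  · rintro ⟨y, hy⟩ ⟨n, hn⟩
    obtain ⟨a, rfl⟩ := hle hy
    obtain ⟨σ, hσ⟩ := exists_injective_complex O
    let : Algebra O ℂ := σ.toAlgebra
    refine Subtype.ext (LinearMap.ext fun x => Subtype.ext ?_)
    have h : act (a ^ n) x = 0 := by
      rw [map_pow]
      exact LinearMap.congr_fun (congrArg Subtype.val hn) x
    exact smul_eq_zero_of_pow_smul hneg hL hodd hS hσ he hP (fun z => hpar ℂ z) x.2
      (congrArg Subtype.val h)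
  · set σ : O →+* ℂ := θ.comp (algebraMap O 𝒯)
    have hσ : Function.Injective σ := by
      rw [RingHom.injective_iff_ker_eq_bot]
      by_contra h0
      have : (RingHom.ker σ).IsMaximal := (RingHom.ker_isPrime σ).isMaximal h0
      have hpm : (p : O) ∈ RingHom.ker σ := by
        rw [eq_maximalIdeal this, ← residue_eq_zero_iff, map_natCast, CharP.cast_eq_zero]
      rw [RingHom.mem_ker, map_natCast, Nat.cast_eq_zero] at hpm
      exact (Fact.out : p.Prime).ne_zero hpm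
    let : Algebra O ℂ := σ.toAlgebra
    let Θ : OpRing O L S →ₐ[O] ℂ :=
      { θ.comp actR.toRingHom with
        commutes' := fun c => congrArg θ (actR.commutes c) }
    have hΘ : ∀ a, act a = 0 → Θ a = 0 := fun a ha => by
      show θ (actR a) = 0
      rw [show actR a = 0 from Subtype.ext ha, map_zero]
    obtain ⟨φ, hφ, hφpar, heig⟩ := exists_eigvec hσ he hP (fun z => hpar ℂ z) Θ hΘ
    have hθd : ∀ u, θ ⟨dia (ψ u), Algebra.subset_adjoin (Or.inl ⟨_, rfl⟩)⟩ = Θ (X (Sum.inl u)) :=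
      fun u => congrArg θ (Subtype.ext (hdia u))
    have hθT : ∀ (ℓ : ℕ) (hℓ : ℓ.Prime) (hℓS : ℓ ∉ S),
        θ ⟨T ℓ, Algebra.subset_adjoin (Or.inr ⟨ℓ, ⟨hℓ, hℓS⟩, rfl⟩)⟩ =
          Θ (X (Sum.inr ⟨ℓ, hℓ, hℓS⟩)) :=
      fun ℓ hℓ hℓS => congrArg θ (Subtype.ext (hT ⟨ℓ, hℓ, hℓS⟩))
    let χ₀ : (ZMod L)ˣ →* ℂ :=
      { toFun := fun u => θ ⟨dia (ψ u), Algebra.subset_adjoin (Or.inl ⟨_, rfl⟩)⟩
        map_one' := by
          refine (congrArg θ (Subtype.ext ?_)).trans (map_one θ)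
          show dia (ψ 1) = 1
          rw [map_one, map_one]
        map_mul' := fun u v => by
          rw [← map_mul]
          refine congrArg θ (Subtype.ext ?_)
          show dia (ψ (u * v)) = dia (ψ u) * dia (ψ v)
          rw [map_mul, map_mul] }
    let χ : (ZMod L)ˣ →* ℂˣ := χ₀.toHomUnits
    have hχv : ∀ u, (χ u : ℂ) = Θ (X (Sum.inl u)) := fun u => hθd u
    have hχK : ∀ u ∈ ψ.ker, χ u = 1 := fun u hu => Units.ext (by
      show θ ⟨dia (ψ u), _⟩ = 1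
      refine (congrArg θ (Subtype.ext ?_)).trans (map_one θ)
      show dia (ψ u) = 1
      rw [(hK u).1 hu, map_one])
    let a : ℕ → ℂ := fun ℓ =>
      if h : ℓ.Prime ∧ ℓ ∉ S then Θ (X (Sum.inr ⟨ℓ, h⟩)) else 0
    have ha : ∀ ℓ : {ℓ : ℕ // ℓ.Prime ∧ ℓ ∉ S}, a ℓ.1 = Θ (X (Sum.inr ℓ)) := fun ℓ => dif_pos ℓ.2
    have hφd : ∀ u, diamond L ψ.ker ℂ u φ = (χ u : ℂ) • φ := fun u => by
      have h := heig (X (Sum.inl u))
      rw [opC_inl, ← hχv] at h
      exact h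
    have hφT : ∀ (ℓ : ℕ) [Fact ℓ.Prime], ℓ ∉ S → hecke L ψ.ker ℓ ℂ φ = a ℓ • φ := by
      intro ℓ hℓ hℓS
      have : Fact (⟨ℓ, hℓ.out, hℓS⟩ : {ℓ : ℕ // ℓ.Prime ∧ ℓ ∉ S}).1.Prime := hℓ
      have h := heig (X (Sum.inr ⟨ℓ, hℓ.out, hℓS⟩))
      rw [opC_inr, ← ha] at h
      exact h
    obtain ⟨L', g, hg, hL', hgc, hv2, hdesc, f, hf1, hfneb, hfa, hfrec⟩ :=
      exists_newform_of_eigen hL hneg hodd S hS χ hχK a hφpar hφ hφd hφT
    refine ⟨L', g, hg, hL', fun ℓ hℓ hℓS u hu => ?_, fun v hv hvL => ?_, fun v hv hvL hvL' => ?_,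
      f, hf1, fun γ u hu => ?_, fun ℓ hℓ hℓS => ?_, fun ℓ hℓ hℓS u hu n => ?_⟩
    · rw [hgc ℓ hℓ hℓS u hu, map_mul, map_pow, hθd, hθT ℓ hℓ hℓS, hhalf, hχv, ha ⟨ℓ, hℓ, hℓS⟩]
    · rw [hv2 v hv hvL]
      refine exists_congr fun u => and_congr_right fun _ => not_congr ?_
      rw [← Units.val_inj, Units.val_one, hχv, hθd]
    · obtain ⟨φ', hφ', hd', hT'⟩ := hdesc v hv hvL hvL'
      refine isCongruentLevel_descent hσ hp hw hΔ hψ hK hL hS ⟨q, hq, hqS, hqE⟩ he Θ hΘ hv hvL hφ'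
        (fun u => (hd' u).trans (by rw [hχv])) fun ℓ => ?_
      have : Fact ℓ.1.Prime := ⟨ℓ.2.1⟩
      exact (hT' ℓ.1 ℓ.2.2).trans (by rw [ha])
    · rw [hfneb γ u hu, hχv, hθd]
    · rw [hfa ℓ hℓ hℓS, hθT ℓ hℓ hℓS, ha ⟨ℓ, hℓ, hℓS⟩]
    · rw [← hfrec ℓ hℓ hℓS u hu n, hθd, hχv]
  · show 0 < Module.finrank O (localPart O e (HomMod O S (⊤ : Subgroup (ZMod L)ˣ) O)) ↔ _
    constructor
    · intro h
      refine isCongruentLevel_of_ne_bot hL hS ⟨q, hq, hqS, hqE⟩ he₀ fun hbot => ?_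
      rw [hbot, finrank_bot] at h
      exact lt_irrefl _ h
    · intro h
      exact Nat.pos_of_ne_zero fun h0 =>
        ne_bot_of_isCongruentLevel he₀ h (Submodule.finrank_eq_zero.1 h0)

/-- The Hecke module of level `ker ψ`, with the localiser computing its rank. -/
theorem exists_heckeModule_localizer [Finite Δ] (hp : p ≠ 2) (hw : HasSTWeights O L) (hΔ : IsPGroup p Δ)
    (hψ : Function.Surjective ψ) (hL : Squarefree L) (hS : ∀ v : ℕ, v.Prime → v ∣ L → v ∈ S)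
    (hEis : ∃ ℓ : ℕ, ℓ.Prime ∧ ℓ ∉ S ∧ abar ℓ ≠ 1 + (ℓ : ResidueField O)) :
    ∃ (H : HeckeModule L ψ S abar) (e : OpRing O L S),
      IsLocalizer (resIdeal S abar L) (HomMod O S (⊤ : Subgroup (ZMod L)ˣ) O) e ∧
      H.d = Module.finrank O (localPart O e (HomMod O S (⊤ : Subgroup (ZMod L)ˣ) O)) ∧
      (0 < H.d ↔ IsCongruentLevel S abar L) := by
  obtain ⟨H, e, -, he, -, hd, hiff, -⟩ := exists_heckeModule_equiv hp hw hΔ hψ hL hS hEis
  exact ⟨H, e, he, hd, hiff⟩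

end Fermat.Agent.RT.GammaH
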